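/-
Project MW (S17), cell **[DIV2]** (sub-architect helper19): divisibility by `2` of `J₀(N)(Q̄)`
by WEIL'S GENERIC-POINT ARGUMENT, carried out inside the Laurent model of the tower.

This file: DEFINITIONS ONLY (+ the two or three lemmas needed to state them).  Prefix `mw_d2_`.

Context ("gd-context" of `JT3/Gateway/Descent{Aut,Lin,Gauss,Field}.lean`): `F_ℚ ⊆ ℚ((q))` a field,
`K` a field with `[Algebra ℚ K]`, `F_K := laurentBaseChange K F_ℚ ⊆ K((q))`.  `Aut(K/ℚ)` acts on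
`F_K` coefficientwise through the prelude's `arithmeticGalois F_ℚ`, hence on places, divisors and
`Pic⁰`.

* `mw_d2_bcQ F_ℚ x₀ : F_K`  : base change of a rational function `x₀ : F_ℚ`;
* `mw_d2_bc F_ℚ : F_{K₀} →+* F_K` : coefficientwise base change along `K₀ → K`;
* `mw_d2_cl S : IntermediateField ℚ K` : the algebraic closure of `ℚ(S)` in `K`;
* `mw_d2_IsZero F_ℚ x₀ P c`   : the place `P` is a zero of `x - c` (`x = mw_d2_bcQ F_ℚ x₀`);
* `mw_d2_IsRat F_ℚ x₀ L P`    : `P` is a pole of `x` or a zero of `x - c` with `c ∈ L`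
  ("`P` is `L`-rational");
* `mw_d2_IsGenSet F_ℚ x₀ s`   : the places of the finite set `s` are zeros of `x - t_P` with
  `(t_P)` algebraically independent over `ℚ` ("independent generic points");
* `mw_d2_ext F_ℚ hres P₀`     : the Gauss extension of a place `P₀` of `F_{K₀}/K₀` to `F_K/K`,
  with `mw_d2_ext_ord : (ext P₀).ord (bc f₀) = P₀.ord f₀`;  `mw_d2_extDiv` on divisors;
* `mw_d2_Pinf F_ℚ hnt`        : the place `ord_q` (the cusp `∞`), fixed by `Aut(K/ℚ)`;
* `mw_d2_cls D hD : Pic0 K F` : the class of a divisor of degree `0`.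
-/
import Mathlib
import Fermat.Agent.JT3.Gateway.DescentField
import Fermat.Agent.JT3.Gateway.DescentGauss

set_option autoImplicit false
set_option linter.unusedSectionVars false

noncomputable section

namespace Fermat.Agent.MW

open AlgebraicCurve ModularCurve Fermat.Agent.JT3

/-! ### generalities on `gw_IsVal` -/

section val

variable {K F : Type*} [Field K] [Field F] [Algebra K F]

/-- a normalised integer valued valuation is the order function of its place -/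
theorem mw_d2_place_ord {v : F → ℤ} (hv : gw_IsVal K v) (hnt : ∃ f : F, f ≠ 0 ∧ v f ≠ 0)
    (h1 : ∃ f : F, f ≠ 0 ∧ (v f = 1 ∨ v f = -1)) (f : F) (hf : f ≠ 0) :
    (hv.place hnt).ord f = v f := by
  set P := hv.place hnt with hP
  have hmem : ∀ g : F, g ≠ 0 → (g ∈ P.toValuationSubring ↔ 0 ≤ v g) := fun g hg =>
    hv.mem_valSubring_of_ne hg
  obtain ⟨π, hπ⟩ := IsDiscreteValuationRing.exists_irreducible P.toValuationSubring
  have hπ0 : (π : F) ≠ 0 := fun h => hπ.ne_zero (Subtype.ext h)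
  have hunit : ∀ u : (P.toValuationSubring)ˣ, v ((u : P.toValuationSubring) : F) = 0 := by
    intro u
    have hu0 : ((u : P.toValuationSubring) : F) ≠ 0 := fun h => u.ne_zero (Subtype.ext h)
    have h1 := (hmem _ hu0).1 (u : P.toValuationSubring).2
    have hinv : ((u : P.toValuationSubring) : F)⁻¹ ∈ P.toValuationSubring := by
      have h := ((u⁻¹ : (P.toValuationSubring)ˣ) : P.toValuationSubring).2
      have e : (((u⁻¹ : (P.toValuationSubring)ˣ) : P.toValuationSubring) : F)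
          = ((u : P.toValuationSubring) : F)⁻¹ := by
        apply eq_inv_of_mul_eq_one_left
        have h3 : ((u⁻¹ : (P.toValuationSubring)ˣ) : P.toValuationSubring) *
            (u : P.toValuationSubring) = 1 := Units.inv_mul u
        have h4 := congrArg (fun z : P.toValuationSubring => (z : F)) h3
        exact h4
      rwa [e] at h
    have h2 := (hmem _ (inv_ne_zero hu0)).1 hinv
    rw [hv.map_inv hu0] at h2
    omega
  have hform : ∀ g : F, g ≠ 0 → v g = P.ord g * v (π : F) := by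
    intro g hg
    obtain ⟨u, hu⟩ := P.exists_unit_mul_zpow hg hπ
    have hu0 : ((u : P.toValuationSubring) : F) ≠ 0 := fun h => u.ne_zero (Subtype.ext h)
    conv_lhs => rw [hu]
    rw [hv.map_mul _ _ hu0 (zpow_ne_zero _ hπ0), hv.map_zpow hπ0, hunit u, zero_add]
  have he0 : 0 ≤ v (π : F) := (hmem _ hπ0).1 π.2
  obtain ⟨f₁, hf₁0, hf₁⟩ := h1
  have hj := hform f₁ hf₁0
  have he1 : v (π : F) = 1 := by
    have hdvd : v (π : F) ∣ 1 := by
      rcases hf₁ with h | h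
      · exact ⟨P.ord f₁, by rw [← h, hj]; ring⟩
      · exact ⟨-P.ord f₁, by linarith⟩
    exact Int.eq_one_of_dvd_one he0 hdvd
  have := hform f hf
  rw [he1, mul_one] at this
  exact this.symm

end val

/-! ### base change of functions -/

section bc

variable {K₀ K : Type} [Field K₀] [Field K] [Algebra K₀ K] [Algebra ℚ K₀] [Algebra ℚ K]
  (F_ℚ : IntermediateField ℚ (LaurentSeries ℚ))

/-- coefficientwise base change `F_{K₀} → F_K` -/
def mw_d2_bc : laurentBaseChange K₀ F_ℚ →+* laurentBaseChange K F_ℚ where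
  toFun x := ⟨coeffMap (algebraMap K₀ K) (x : LaurentSeries K₀), gd_coeffMap_mem F_ℚ x.2⟩
  map_one' := Subtype.ext (map_one _)
  map_mul' _ _ := Subtype.ext (map_mul _ _ _)
  map_zero' := Subtype.ext (map_zero _)
  map_add' _ _ := Subtype.ext (map_add _ _ _)

theorem mw_d2_bc_coe (x : laurentBaseChange K₀ F_ℚ) :
    ((mw_d2_bc (K := K) F_ℚ x : laurentBaseChange K F_ℚ) : LaurentSeries K)
      = coeffMap (algebraMap K₀ K) (x : LaurentSeries K₀) := rfl

theorem mw_d2_bc_injective : Function.Injective (mw_d2_bc (K₀ := K₀) (K := K) F_ℚ) :=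
  (mw_d2_bc F_ℚ).injective

theorem mw_d2_bc_algebraMap (c : K₀) :
    mw_d2_bc (K := K) F_ℚ (algebraMap K₀ (laurentBaseChange K₀ F_ℚ) c)
      = algebraMap K (laurentBaseChange K F_ℚ) (algebraMap K₀ K c) :=
  Subtype.ext (gd_coeffMap_algebraMap c)

variable (K) in
/-- base change of a rational function -/
def mw_d2_bcQ (x₀ : F_ℚ) : laurentBaseChange K F_ℚ :=
  ⟨coeffEmb K (x₀ : LaurentSeries ℚ), coeffEmb_mem_laurentBaseChange K x₀.2⟩

theorem mw_d2_bc_bcQ (x₀ : F_ℚ) :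
    mw_d2_bc (K := K) F_ℚ (mw_d2_bcQ K₀ F_ℚ x₀) = mw_d2_bcQ K F_ℚ x₀ :=
  Subtype.ext (gd_coeffMap_coeffEmb (x₀ : LaurentSeries ℚ))

theorem mw_d2_act_bcQ (σ : K ≃ₐ[ℚ] K) (x₀ : F_ℚ) :
    arithmeticGalois F_ℚ σ • mw_d2_bcQ K F_ℚ x₀ = mw_d2_bcQ K F_ℚ x₀ :=
  Subtype.ext (coeffMap_coeffEmb σ (x₀ : LaurentSeries ℚ))

end bc

/-! ### subfields, rational places, generic sets -/

section rat

variable {K : Type} [Field K] [Algebra ℚ K]

/-- the algebraic closure of `ℚ(S)` in `K` -/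
def mw_d2_cl (S : Set K) : IntermediateField ℚ K :=
  (algebraicClosure (IntermediateField.adjoin ℚ S) K).restrictScalars ℚ

instance mw_d2_cl_isAlgClosed [IsAlgClosed K] (S : Set K) : IsAlgClosed (mw_d2_cl S) :=
  (IsAlgClosure.isAlgClosed (IntermediateField.adjoin ℚ S)
    (K := algebraicClosure (IntermediateField.adjoin ℚ S) K) :
    IsAlgClosed (algebraicClosure (IntermediateField.adjoin ℚ S) K))

theorem mw_d2_mem_cl {S : Set K} {c : K} :
    c ∈ mw_d2_cl S ↔ IsAlgebraic (IntermediateField.adjoin ℚ S) c := mem_algebraicClosure_iff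

variable (F_ℚ : IntermediateField ℚ (LaurentSeries ℚ)) (x₀ : F_ℚ)

/-- `P` is a zero of `x - c` -/
def mw_d2_IsZero (P : Place K (laurentBaseChange K F_ℚ)) (c : K) : Prop :=
  0 < P.ord (mw_d2_bcQ K F_ℚ x₀ - algebraMap K (laurentBaseChange K F_ℚ) c)

/-- `P` is `L`-rational: a pole of `x` or a zero of `x - c` with `c ∈ L` -/
def mw_d2_IsRat (L : IntermediateField ℚ K) (P : Place K (laurentBaseChange K F_ℚ)) : Prop :=
  P.ord (mw_d2_bcQ K F_ℚ x₀) < 0 ∨ ∃ c ∈ L, mw_d2_IsZero F_ℚ x₀ P c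

/-- the places of `s` are independent generic points: zeros of `x - t_P` with `(t_P)_{P ∈ s}`
algebraically independent over `ℚ` -/
def mw_d2_IsGenSet (s : Finset (Place K (laurentBaseChange K F_ℚ))) : Prop :=
  ∃ t : Place K (laurentBaseChange K F_ℚ) → K,
    (∀ P ∈ s, mw_d2_IsZero F_ℚ x₀ P (t P)) ∧ AlgebraicIndependent ℚ (fun P : s => t (P : _))

/-- the place `∞ = ord_q` -/
def mw_d2_Pinf (hnt : ∃ f : laurentBaseChange K F_ℚ, f ≠ 0 ∧ gd_ordVal F_ℚ f ≠ 0) :
    Place K (laurentBaseChange K F_ℚ) := gd_Pinf F_ℚ hnt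

/-- the class of a divisor of degree `0` -/
def mw_d2_cls {F : Type*} [Field F] [Algebra K F] (D : Divisor K F)
    (hD : Divisor.degree D = 0) : Pic0 K F := Pic0.mk ⟨D, hD⟩

end rat

/-! ### the Gauss extension of places -/

section ext

variable {K₀ K : Type} [Field K₀] [Field K] [Algebra K₀ K] [Algebra ℚ K₀] [Algebra ℚ K]
  (F_ℚ : IntermediateField ℚ (LaurentSeries ℚ))
  (hres : ∀ P₀ : Place K₀ (laurentBaseChange K₀ F_ℚ),
    Function.Surjective (algebraMap K₀ P₀.ResidueField))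

include hres in
theorem mw_d2_ext_one (P₀ : Place K₀ (laurentBaseChange K₀ F_ℚ)) :
    ∃ f : laurentBaseChange K F_ℚ, f ≠ 0 ∧
      gd_gaussVal F_ℚ (Module.Basis.ofVectorSpace K₀ K) P₀ f = 1 := by
  obtain ⟨π, hπ⟩ := IsDiscreteValuationRing.exists_irreducible P₀.toValuationSubring
  have ht0 : (π : laurentBaseChange K₀ F_ℚ) ≠ 0 := fun h => hπ.ne_zero (Subtype.ext h)
  have ht : P₀.ord (π : laurentBaseChange K₀ F_ℚ) = 1 := P₀.ord_coe_irreducible hπ
  set t : laurentBaseChange K₀ F_ℚ := (π : laurentBaseChange K₀ F_ℚ) with htdef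
  refine ⟨mw_d2_bc F_ℚ t, ?_, ?_⟩
  · intro h
    exact ht0 (mw_d2_bc_injective F_ℚ (h.trans (map_zero _).symm))
  · rw [gd_gaussVal_coeffMap F_ℚ _ P₀ (hres P₀) ht0 (mw_d2_bc F_ℚ t) rfl, ht]

include hres in
theorem mw_d2_ext_nt (P₀ : Place K₀ (laurentBaseChange K₀ F_ℚ)) :
    ∃ f : laurentBaseChange K F_ℚ, f ≠ 0 ∧
      gd_gaussVal F_ℚ (Module.Basis.ofVectorSpace K₀ K) P₀ f ≠ 0 := by
  obtain ⟨f, hf0, hf⟩ := mw_d2_ext_one (K := K) F_ℚ hres P₀
  exact ⟨f, hf0, by rw [hf]; exact one_ne_zero⟩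

/-- **the Gauss extension** of a place of `F_{K₀} / K₀` to `F_K / K` -/
def mw_d2_ext (P₀ : Place K₀ (laurentBaseChange K₀ F_ℚ)) : Place K (laurentBaseChange K F_ℚ) :=
  (gd_gaussVal_isVal F_ℚ (Module.Basis.ofVectorSpace K₀ K) P₀ (hres P₀)).place
    (mw_d2_ext_nt F_ℚ hres P₀)

theorem mw_d2_ext_ord_gauss (P₀ : Place K₀ (laurentBaseChange K₀ F_ℚ))
    (f : laurentBaseChange K F_ℚ) (hf : f ≠ 0) :
    (mw_d2_ext (K := K) F_ℚ hres P₀).ord f =
      gd_gaussVal F_ℚ (Module.Basis.ofVectorSpace K₀ K) P₀ f := by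
  obtain ⟨f₁, hf₁0, hf₁⟩ := mw_d2_ext_one (K := K) F_ℚ hres P₀
  exact mw_d2_place_ord _ _ ⟨f₁, hf₁0, Or.inl hf₁⟩ f hf

/-- the extension restricts to `P₀` -/
theorem mw_d2_ext_ord (P₀ : Place K₀ (laurentBaseChange K₀ F_ℚ))
    (f₀ : laurentBaseChange K₀ F_ℚ) :
    (mw_d2_ext (K := K) F_ℚ hres P₀).ord (mw_d2_bc F_ℚ f₀) = P₀.ord f₀ := by
  rcases eq_or_ne f₀ 0 with rfl | hf₀
  · simp
  have h0 : mw_d2_bc (K := K) F_ℚ f₀ ≠ 0 := fun h =>
    hf₀ (mw_d2_bc_injective F_ℚ (h.trans (map_zero _).symm))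
  rw [mw_d2_ext_ord_gauss F_ℚ hres P₀ _ h0,
    gd_gaussVal_coeffMap F_ℚ _ P₀ (hres P₀) hf₀ (mw_d2_bc F_ℚ f₀) rfl]

/-- the extension of divisors -/
def mw_d2_extDiv (D₀ : Divisor K₀ (laurentBaseChange K₀ F_ℚ)) :
    Divisor K (laurentBaseChange K F_ℚ) :=
  Finsupp.mapDomain (mw_d2_ext (K := K) F_ℚ hres) D₀

end ext

end Fermat.Agent.MW
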