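/-
Project MW (S17), cell **[DIV2]** (sub-architect helper19): THE SEAMS.  Statements only.
Prefix `mw_d2_`.  Definitions: `MW/Div2/Defs.lean`.

GOAL of the cell: `mw_SeamDiv2 N : ∀ x ∈ mw_Gamma N, ∃ y : JZero N, 2 • y = x`
(`MW/SeamsArith.lean`), by WEIL'S GENERIC-POINT ARGUMENT over `K = ℂ` inside the Laurent model
`F_K = laurentBaseChange K F_ℚ ⊆ K((q))` (no tensor products, no varieties):

* `x = mw_d2_bcQ K F_ℚ x₀` is a separating generator with RATIONAL coefficients (`x₀ = j`);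
  `G = Aut(K/ℚ)` acts coefficientwise (`arithmeticGalois F_ℚ`); for an algebraically closed
  `L ⊆ K` a place is `L`-rational (`mw_d2_IsRat`) if it is a pole of `x` or a zero of `x - c`,
  `c ∈ L`;
* **[FIX]**   `L`-rational places are fixed by `Aut(K/L)`;
* **[ORB]**   a place with finite `Aut(K/L)`-orbit is `L`-rational;
* **[TRANS]** `Aut(K/L)` is transitive on the places which are not `L`-rational;
* **[NSP]**   independent generic points `P₁, …, P_k` (`k ≤ g`) are non-special: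
  `l(P₁ + ⋯ + P_k) = 1`;
* **[AUT]**   field theory (Mathlib only): conjugacy of transcendentals / of roots, algebraically
  independent families in `ℂ`, and the exchange lemma **[TRD]**;
* **[TORS]**  `Pic⁰(F_ℂ)[2]` is finite (gateway over `ℂ`);
* **[GEN]**   (assembly of the above, `MW/Div2/Gen.lean`): every class of `Pic⁰(F_K)` fixed by
  `Aut(K/ℚ̄)` is divisible by `2` in `Pic⁰(F_K)`;
* **[DEG]/[LINK]/[DESC]** (`K₀ = Q̄ ⊆ K = ℂ`, Gauss extension of places `mw_d2_ext`): the
  extension of divisors preserves degrees, the class of an extended divisor is fixed by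
  `Aut(K/ℚ̄)`, and divisibility by `2` descends from `K` to `K₀` (finite orbit of a half,
  minimal representative, normalised function with fixed coefficients).
-/
import Fermat.Agent.MW.Div2.Defs
import Fermat.Agent.FF.Generic

set_option autoImplicit false
set_option linter.unusedSectionVars false

noncomputable section

namespace Fermat.Agent.MW

open AlgebraicCurve ModularCurve Fermat.Agent.JT3 Fermat.Agent.FF

/-! ### Field theory (Mathlib only) -/

section aut

variable (K : Type) [Field K] [Algebra ℚ K]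

/-- **[AUT-t]** two elements outside an algebraically closed subfield `L` are conjugate under
`Aut(K/L)` (`K` algebraically closed). -/
def mw_d2_SeamAUTt : Prop :=
  ∀ (L : IntermediateField ℚ K) [IsAlgClosed L] (t t' : K), t ∉ L → t' ∉ L →
    ∃ σ ∈ L.fixingSubgroup, σ t = t'

/-- **[AUT-r]** two roots in `K` of an irreducible polynomial over a subfield `M` are conjugate
under `Aut(K/M)` (`K` algebraically closed, NOT assumed algebraic over `M`). -/
def mw_d2_SeamAUTr : Prop :=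
  ∀ (M : IntermediateField ℚ K) (p : Polynomial M), Irreducible p → ∀ r r' : K,
    Polynomial.aeval r p = 0 → Polynomial.aeval r' p = 0 → ∃ σ ∈ M.fixingSubgroup, σ r = r'

/-- **[AUT-i]** `K` has infinite transcendence degree over `ℚ` (`K = ℂ`). -/
def mw_d2_SeamAUTi : Prop :=
  ∀ n : ℕ, ∃ t : Fin n → K, AlgebraicIndependent ℚ t

/-- **[TRD]** the exchange lemma: `g` algebraically independent elements which are algebraic over
`ℚ(T)`, `#T ≤ g`, force `#T = g` and `T` algebraically independent. -/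
def mw_d2_SeamTRD : Prop :=
  ∀ (g : ℕ) (t : Fin g → K), AlgebraicIndependent ℚ t → ∀ T : Finset K, T.card ≤ g →
    (∀ i, t i ∈ mw_d2_cl (T : Set K)) →
      T.card = g ∧ AlgebraicIndependent ℚ (fun c : T => (c : K))

end aut

/-! ### Rational places and conjugation (`K` algebraically closed of characteristic `0`) -/

section places

variable (K : Type) [Field K] [Algebra ℚ K]
  (F_ℚ : IntermediateField ℚ (LaurentSeries ℚ)) (x₀ : F_ℚ)

/-- **[FIX]** `L`-rational places are fixed by `Aut(K/L)`. -/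
def mw_d2_SeamFIX : Prop :=
  rt_IsSepGen K (mw_d2_bcQ K F_ℚ x₀) →
  ∀ (L : IntermediateField ℚ K) [IsAlgClosed L] (P : Place K (laurentBaseChange K F_ℚ)),
    mw_d2_IsRat F_ℚ x₀ L P → ∀ σ ∈ L.fixingSubgroup, arithmeticGalois F_ℚ σ • P = P

/-- **[ORB]** a place with finite `Aut(K/L)`-orbit is `L`-rational. -/
def mw_d2_SeamORB : Prop :=
  rt_IsSepGen K (mw_d2_bcQ K F_ℚ x₀) →
  ∀ (L : IntermediateField ℚ K) [IsAlgClosed L] (P : Place K (laurentBaseChange K F_ℚ)),
    (Set.range fun σ : L.fixingSubgroup =>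
      arithmeticGalois F_ℚ (σ : K ≃ₐ[ℚ] K) • P).Finite → mw_d2_IsRat F_ℚ x₀ L P

/-- **[TRANS]** `Aut(K/L)` is transitive on the places which are not `L`-rational. -/
def mw_d2_SeamTRANS : Prop :=
  rt_IsSepGen K (mw_d2_bcQ K F_ℚ x₀) →
  ∀ (L : IntermediateField ℚ K) [IsAlgClosed L] (P P' : Place K (laurentBaseChange K F_ℚ)),
    ¬ mw_d2_IsRat F_ℚ x₀ L P → ¬ mw_d2_IsRat F_ℚ x₀ L P' →
      ∃ σ ∈ L.fixingSubgroup, arithmeticGalois F_ℚ σ • P = P'

/-- **[NSP]** independent generic points are non-special (`g, c, hR` = the output of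
`rt_riemann`). -/
def mw_d2_SeamNSP : Prop :=
  rt_IsSepGen K (mw_d2_bcQ K F_ℚ x₀) →
  ∀ (g : ℕ) (c : ℤ),
    (∀ D : Divisor K (laurentBaseChange K F_ℚ), c ≤ Divisor.degree D →
      (Module.finrank K (riemannRochSpace D) : ℤ) = Divisor.degree D + 1 - g) →
    ∀ s : Finset (Place K (laurentBaseChange K F_ℚ)), s.card ≤ g → mw_d2_IsGenSet F_ℚ x₀ s →
      Module.finrank K (riemannRochSpace (ffg_sum s)) = 1

/-- **[TORS]** the `2`-torsion of `Pic⁰(F_K)` is finite. -/
def mw_d2_SeamTORS : Prop :=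
  Finite {y : Pic0 K (laurentBaseChange K F_ℚ) // 2 • y = 0}

/-- **[GEN]** every class fixed by `Aut(K/ℚ̄)` is divisible by `2` in `Pic⁰(F_K)`. -/
def mw_d2_SeamGEN : Prop :=
  ∀ y : Pic0 K (laurentBaseChange K F_ℚ),
    (∀ σ ∈ (mw_d2_cl (∅ : Set K)).fixingSubgroup, σ • y = y) → ∃ z, 2 • z = y

end places

/-! ### Descent `K → K₀` -/

section desc

variable (K₀ K : Type) [Field K₀] [Field K] [Algebra K₀ K] [Algebra ℚ K₀] [Algebra ℚ K]
  (F_ℚ : IntermediateField ℚ (LaurentSeries ℚ))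
  (hres : ∀ P₀ : Place K₀ (laurentBaseChange K₀ F_ℚ),
    Function.Surjective (algebraMap K₀ P₀.ResidueField))

/-- **[DEG]** the extension of divisors preserves the degree. -/
def mw_d2_SeamDEG : Prop :=
  ∀ D₀ : Divisor K₀ (laurentBaseChange K₀ F_ℚ),
    Divisor.degree (mw_d2_extDiv (K := K) F_ℚ hres D₀) = Divisor.degree D₀

/-- **[LINK]** the class of an extended divisor is fixed by `Aut(K/ℚ̄)`. -/
def mw_d2_SeamLINK : Prop :=
  ∀ (D₀ : Divisor K₀ (laurentBaseChange K₀ F_ℚ))
    (h : Divisor.degree (mw_d2_extDiv (K := K) F_ℚ hres D₀) = 0),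
    ∀ σ ∈ (mw_d2_cl (∅ : Set K)).fixingSubgroup,
      σ • mw_d2_cls (mw_d2_extDiv (K := K) F_ℚ hres D₀) h =
        mw_d2_cls (mw_d2_extDiv (K := K) F_ℚ hres D₀) h

/-- **[DESC]** divisibility by `2` descends from `K` to `K₀`. -/
def mw_d2_SeamDESC : Prop :=
  ∀ D₀ : Divisor K₀ (laurentBaseChange K₀ F_ℚ), Divisor.degree D₀ = 0 →
    (∃ (E : Divisor K (laurentBaseChange K F_ℚ)) (f : laurentBaseChange K F_ℚ), f ≠ 0 ∧
      ∀ P : Place K (laurentBaseChange K F_ℚ),
        mw_d2_extDiv (K := K) F_ℚ hres D₀ P = 2 * E P + P.ord f) →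
    ∃ (E₀ : Divisor K₀ (laurentBaseChange K₀ F_ℚ)) (f₀ : laurentBaseChange K₀ F_ℚ), f₀ ≠ 0 ∧
      ∀ P₀ : Place K₀ (laurentBaseChange K₀ F_ℚ), D₀ P₀ = 2 * E₀ P₀ + P₀.ord f₀

end desc

end Fermat.Agent.MW
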