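/-
Project MW (S17), cell **[DIV2]**, leaf **[GEN]** (helper19): WEIL'S GENERIC-POINT ARGUMENT.
`mw_d2g_gen : … → mw_d2_SeamGEN K F_ℚ x₀`: every class of `Pic⁰(F_K)` fixed by `Aut(K/ℚ̄)` is
divisible by `2`, from the seams [FIX], [ORB], [TRANS], [NSP], [TORS], [AUT-i], [TRD].
Prefix `mw_d2g_`.
-/
import Fermat.Agent.MW.Div2.Seams

set_option autoImplicit false
set_option linter.unusedSectionVars false
set_option linter.unusedVariables false

noncomputable section

namespace Fermat.Agent.MW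

open AlgebraicCurve ModularCurve Fermat.Agent.JT3 Fermat.Agent.FF Fermat.Agent.S24

variable {K : Type} [Field K] [Algebra ℚ K]
  (F_ℚ : IntermediateField ℚ (LaurentSeries ℚ)) (x₀ : F_ℚ)

/-! ### zeros of `x - c` -/

section zeros

variable {F_ℚ x₀}

theorem mw_d2g_isZero_unique {P : Place K (laurentBaseChange K F_ℚ)} {c c' : K}
    (h : mw_d2_IsZero F_ℚ x₀ P c) (h' : mw_d2_IsZero F_ℚ x₀ P c') : c = c' := by
  by_contra hne
  unfold mw_d2_IsZero at h h'
  set x := mw_d2_bcQ K F_ℚ x₀ with hx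
  have hc : algebraMap K (laurentBaseChange K F_ℚ) (c' - c) ≠ 0 := by
    rw [ne_eq, map_eq_zero, sub_eq_zero]
    exact fun e => hne e.symm
  have e : (x - algebraMap K (laurentBaseChange K F_ℚ) c) +
      -(x - algebraMap K (laurentBaseChange K F_ℚ) c') =
      algebraMap K (laurentBaseChange K F_ℚ) (c' - c) := by
    rw [map_sub]; ring
  have h0 : x - algebraMap K (laurentBaseChange K F_ℚ) c ≠ 0 := by
    intro h0; rw [h0, Place.ord_zero] at h; exact lt_irrefl _ h
  have h0' : -(x - algebraMap K (laurentBaseChange K F_ℚ) c') ≠ 0 := by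
    intro h0'; rw [neg_eq_zero] at h0'; rw [h0', Place.ord_zero] at h'; exact lt_irrefl _ h'
  have h1 := hw_ord_add_ge P h0 h0' (by rw [e]; exact hc)
  rw [e, hw_ord_algebraMap, hw_ord_neg] at h1
  have := lt_min h h'
  omega

theorem mw_d2g_isZero_ord_nonneg {P : Place K (laurentBaseChange K F_ℚ)} {c : K}
    (h : mw_d2_IsZero F_ℚ x₀ P c) : 0 ≤ P.ord (mw_d2_bcQ K F_ℚ x₀) := by
  unfold mw_d2_IsZero at h
  set x := mw_d2_bcQ K F_ℚ x₀ with hx
  by_cases hx0 : x = 0
  · rw [hx0, Place.ord_zero]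
  by_cases hc0 : c = 0
  · rw [hc0, map_zero, sub_zero] at h; exact h.le
  have hc : algebraMap K (laurentBaseChange K F_ℚ) c ≠ 0 := by
    rwa [ne_eq, map_eq_zero]
  have h0 : x - algebraMap K (laurentBaseChange K F_ℚ) c ≠ 0 := by
    intro h0; rw [h0, Place.ord_zero] at h; exact lt_irrefl _ h
  have h1 := hw_ord_add_ge P h0 hc (by rwa [sub_add_cancel])
  rw [sub_add_cancel, hw_ord_algebraMap] at h1
  have : 0 ≤ min (P.ord (x - algebraMap K (laurentBaseChange K F_ℚ) c)) 0 :=
    le_min h.le le_rfl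
  omega

/-- equivariance of zeros -/
theorem mw_d2g_isZero_smul {P : Place K (laurentBaseChange K F_ℚ)} {c : K}
    (h : mw_d2_IsZero F_ℚ x₀ P c) (σ : K ≃ₐ[ℚ] K) :
    mw_d2_IsZero F_ℚ x₀ (arithmeticGalois F_ℚ σ • P) (σ c) := by
  unfold mw_d2_IsZero at h ⊢
  have e : arithmeticGalois F_ℚ σ •
      (mw_d2_bcQ K F_ℚ x₀ - algebraMap K (laurentBaseChange K F_ℚ) c) =
      mw_d2_bcQ K F_ℚ x₀ - algebraMap K (laurentBaseChange K F_ℚ) (σ c) := by
    rw [smul_sub, mw_d2_act_bcQ, SemilinearAut.smul_algebraMap]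
    rfl
  rw [← e, SemilinearAut.ord_smul]
  exact h

theorem mw_d2g_pole_smul {P : Place K (laurentBaseChange K F_ℚ)} (σ : K ≃ₐ[ℚ] K) :
    (arithmeticGalois F_ℚ σ • P).ord (mw_d2_bcQ K F_ℚ x₀) = P.ord (mw_d2_bcQ K F_ℚ x₀) := by
  conv_lhs => rw [← mw_d2_act_bcQ F_ℚ σ x₀]
  exact SemilinearAut.ord_smul _ _ _

end zeros


/-! ### the closure operator `mw_d2_cl` -/

section cl

theorem mw_d2g_mem_cl_iff {S : Set K} {c : K} :
    c ∈ mw_d2_cl S ↔ IsAlgebraic (Algebra.adjoin ℚ S) c := by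
  rw [mw_d2_mem_cl, IntermediateField.isAlgebraic_adjoin_iff]

theorem mw_d2g_subset_cl (S : Set K) : S ⊆ (mw_d2_cl S : Set K) := by
  intro c hc
  rw [SetLike.mem_coe, mw_d2g_mem_cl_iff]
  exact isAlgebraic_algebraMap (⟨c, Algebra.subset_adjoin hc⟩ : Algebra.adjoin ℚ S)

theorem mw_d2g_cl_mono {S S' : Set K} (h : S ⊆ S') : mw_d2_cl S ≤ mw_d2_cl S' := by
  intro c hc
  rw [mw_d2g_mem_cl_iff] at hc ⊢
  have := hc.ringHom_of_comp_eq (Subalgebra.inclusion (Algebra.adjoin_mono h))
    (RingHom.id K) (Subalgebra.inclusion_injective _) (by ext; rfl)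
  simpa using this

theorem mw_d2g_map_mem_cl {S : Set K} {c : K} (σ : K ≃ₐ[ℚ] K) (hc : c ∈ mw_d2_cl S) :
    σ c ∈ mw_d2_cl (σ '' S) := by
  rw [mw_d2g_mem_cl_iff] at hc ⊢
  have hle : ∀ x : Algebra.adjoin ℚ S, σ (x : K) ∈ Algebra.adjoin ℚ (σ '' S) := by
    intro x
    have h1 : σ (x : K) ∈ (Algebra.adjoin ℚ S).map (σ : K →ₐ[ℚ] K) := ⟨x, x.2, rfl⟩
    rwa [AlgHom.map_adjoin] at h1
  let f : Algebra.adjoin ℚ S →+* Algebra.adjoin ℚ (σ '' S) :=
    { toFun := fun x => ⟨σ (x : K), hle x⟩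
      map_one' := Subtype.ext (by simp)
      map_mul' := fun x y => Subtype.ext (by simp)
      map_zero' := Subtype.ext (by simp)
      map_add' := fun x y => Subtype.ext (by simp) }
  have hf : Function.Injective f := by
    intro x y hxy
    have := congrArg (fun z : Algebra.adjoin ℚ (σ '' S) => (z : K)) hxy
    exact Subtype.ext (σ.injective this)
  exact hc.ringHom_of_comp_eq f (σ : K →+* K) hf (by ext; rfl)

theorem mw_d2g_map_mem_cl_iff {S : Set K} {c : K} (σ : K ≃ₐ[ℚ] K) :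
    σ c ∈ mw_d2_cl (σ '' S) ↔ c ∈ mw_d2_cl S := by
  refine ⟨fun h => ?_, mw_d2g_map_mem_cl σ⟩
  have := mw_d2g_map_mem_cl σ.symm h
  rwa [σ.symm_apply_apply, Set.image_image, show (fun x => σ.symm (σ x)) = id from
    funext fun x => σ.symm_apply_apply x, Set.image_id] at this

theorem mw_d2g_fixing_le {L L' : IntermediateField ℚ K} (h : L ≤ L') :
    L'.fixingSubgroup ≤ L.fixingSubgroup := IntermediateField.fixingSubgroup_le h


/-- restriction of an algebraically independent family to a subset -/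
theorem mw_d2g_algIndep_subset {ι : Type*} {t : ι → K} {s s' : Finset ι} (h : s' ⊆ s)
    (hs : AlgebraicIndependent ℚ (fun P : s => t (P : ι))) :
    AlgebraicIndependent ℚ (fun P : s' => t (P : ι)) := by
  have := hs.comp (fun P : s' => (⟨(P : ι), h P.2⟩ : s)) (by
    intro a b hab
    exact Subtype.ext (congrArg (fun z : s => (z : ι)) hab))
  exact this

/-- in an algebraically independent family no member is algebraic over the others -/
theorem mw_d2g_algIndep_not_mem_cl {ι : Type*} [DecidableEq ι] {t : ι → K} {s : Finset ι}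
    (hs : AlgebraicIndependent ℚ (fun P : s => t (P : ι))) {P₀ : ι} (hP₀ : P₀ ∈ s) :
    t P₀ ∉ mw_d2_cl (t '' ((s.erase P₀ : Finset ι) : Set ι)) := by
  rw [mw_d2g_mem_cl_iff]
  have hnot : P₀ ∉ ((s.erase P₀ : Finset ι) : Set ι) := by simp
  have hins : insert P₀ ((s.erase P₀ : Finset ι) : Set ι) = (s : Set ι) := by
    rw [← Finset.coe_insert, Finset.insert_erase hP₀]
  have h1 : AlgebraicIndepOn ℚ t (insert P₀ ((s.erase P₀ : Finset ι) : Set ι)) := by
    rw [hins]
    exact hs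
  exact ((AlgebraicIndepOn.insert_iff hnot).mp h1).2


end cl

/-! ### classes of effective divisors of degree `g` -/

section pic

universe u v
variable {K : Type u} {F : Type v} [Field K] [Field F] [Algebra K F]

/-- the class of `E - g·O` (junk value `0` when the degree is wrong) -/
def mw_d2g_class (O : Place K F) (g : ℕ) (E : Divisor K F) : Pic0 K F := by
  classical exact
  if h : Divisor.degree (E - Finsupp.single O (g : ℤ)) = 0 then Pic0.mk ⟨_, h⟩ else 0

theorem mw_d2g_class_eq (O : Place K F) (g : ℕ) (E : Divisor K F)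
    (h : Divisor.degree (E - Finsupp.single O (g : ℤ)) = 0) :
    mw_d2g_class O g E = Pic0.mk ⟨_, h⟩ := by
  classical
  rw [mw_d2g_class, dif_pos h]

theorem mw_d2g_mk_eq_mk_iff {D D' : Divisor K F} (h : Divisor.degree D = 0)
    (h' : Divisor.degree D' = 0) :
    Pic0.mk (⟨D, h⟩ : Divisor.degZero (K := K) (F := F)) = Pic0.mk ⟨D', h'⟩ ↔
      Divisor.IsPrincipal (D' - D) := by
  unfold Pic0.mk
  rw [QuotientAddGroup.eq, AddSubgroup.mem_addSubgroupOf, Divisor.mem_principal]
  have e : ((-(⟨D, h⟩ : Divisor.degZero (K := K) (F := F)) + ⟨D', h'⟩ :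
      Divisor.degZero (K := K) (F := F)) : Divisor K F) = D' - D := by
    show -D + D' = D' - D
    abel
  rw [e]

variable [IsAlgClosed K] {x : F} (hx : rt_IsSepGen K x)

include hx

theorem mw_d2g_degree_sub (O : Place K F) (g : ℕ) {E : Divisor K F}
    (hE : Divisor.degree E = g) : Divisor.degree (E - Finsupp.single O (g : ℤ)) = 0 := by
  rw [map_sub, rt_degree_single hx, hE, sub_self]

theorem mw_d2g_class_eq_iff (O : Place K F) (g : ℕ) {E E' : Divisor K F}
    (hE : Divisor.degree E = g) (hE' : Divisor.degree E' = g) :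
    mw_d2g_class O g E = mw_d2g_class O g E' ↔ Divisor.IsPrincipal (E' - E) := by
  rw [mw_d2g_class_eq O g E (mw_d2g_degree_sub hx O g hE),
    mw_d2g_class_eq O g E' (mw_d2g_degree_sub hx O g hE'), mw_d2g_mk_eq_mk_iff]
  have e : E' - Finsupp.single O (g : ℤ) - (E - Finsupp.single O (g : ℤ)) = E' - E := by abel
  rw [e]

/-- **Riemann**: every class is `[Q - g·O]` with `Q` effective of degree `g`. -/
theorem mw_d2g_exists_class (O : Place K F) (g : ℕ)
    (hI : ∀ D : Divisor K F,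
      Divisor.degree D + 1 - g ≤ (Module.finrank K (riemannRochSpace D) : ℤ))
    (y : Pic0 K F) :
    ∃ Q : Divisor K F, 0 ≤ Q ∧ Divisor.degree Q = g ∧ mw_d2g_class O g Q = y := by
  obtain ⟨⟨D₀, hD₀⟩, rfl⟩ := Pic0.mk_surjective y
  have hD₀' : Divisor.degree D₀ = 0 := hD₀
  set D : Divisor K F := D₀ + Finsupp.single O (g : ℤ) with hD
  have hdegD : Divisor.degree D = g := by
    rw [hD, map_add, hD₀', rt_degree_single hx, zero_add]
  have h1 := hI D
  rw [hdegD] at h1
  have hpos : 0 < Module.finrank K ↥(riemannRochSpace D) := by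
    have : (0 : ℤ) < (Module.finrank K ↥(riemannRochSpace D) : ℤ) := by linarith
    exact_mod_cast this
  have hfinL := rt_L_finite hx D
  obtain ⟨⟨z, hzmem⟩, hz0'⟩ := Module.finrank_pos_iff_exists_ne_zero.mp hpos
  have hz0 : z ≠ 0 := fun h => hz0' (Subtype.ext h)
  refine ⟨D + rt_div hx z, ?_, ?_, ?_⟩
  · rw [Finsupp.le_def]
    intro v
    have := (rt_mem_L_iff hz0).mp hzmem v
    rw [Finsupp.zero_apply, Finsupp.add_apply, rt_div_apply]
    omega
  · rw [map_add, rt_degree_div, add_zero, hdegD]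
  · have hdeg : Divisor.degree (D + rt_div hx z) = g := by
      rw [map_add, rt_degree_div, add_zero, hdegD]
    rw [mw_d2g_class_eq O g _ (mw_d2g_degree_sub hx O g hdeg)]
    refine (mw_d2g_mk_eq_mk_iff (mw_d2g_degree_sub hx O g hdeg) hD₀').2 ?_
    refine ⟨z⁻¹, inv_ne_zero hz0, fun v => ?_⟩
    rw [Finsupp.sub_apply, Finsupp.sub_apply, Finsupp.add_apply, hD, Finsupp.add_apply,
      rt_div_apply, v.ord_inv]
    ring

/-- a non-special effective divisor is alone in its class -/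
theorem mw_d2g_eq_of_principal {E E' : Divisor K F} (hE : 0 ≤ E) (hE' : 0 ≤ E')
    (hl : Module.finrank K (riemannRochSpace E) = 1) (h : Divisor.IsPrincipal (E' - E)) :
    E' = E := by
  obtain ⟨f, hf0, hf⟩ := h
  have hfmem : f ∈ riemannRochSpace E := by
    rw [rt_mem_L_iff hf0]
    intro v
    have h1 := hf v
    rw [Finsupp.sub_apply] at h1
    have h2 : 0 ≤ E' v := by
      have := (Finsupp.le_def.mp hE') v
      simpa using this
    omega
  have h1mem : (1 : F) ∈ riemannRochSpace E := by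
    have := rt_algebraMap_mem_L hE (1 : K) (F := F)
    rwa [map_one] at this
  have hfinL := rt_L_finite hx E
  obtain ⟨c, hc⟩ := (finrank_eq_one_iff_of_nonzero' (⟨1, h1mem⟩ : riemannRochSpace E)
    (fun h0 => one_ne_zero (congrArg Subtype.val h0))).mp hl ⟨f, hfmem⟩
  have hfc : f = algebraMap K F c := by
    have := congrArg Subtype.val hc
    simp only [SetLike.val_smul] at this
    rw [← this, Algebra.smul_def, mul_one]
  ext v
  have h1 := hf v
  rw [Finsupp.sub_apply, hfc, hw_ord_algebraMap] at h1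
  omega

end pic


/-! ### the action of semilinear automorphisms on classes -/

section act

universe u v
variable {K : Type u} {F : Type v} [Field K] [Field F] [Algebra K F]

theorem mw_d2g_smul_class (γ : SemilinearAut K F) (O : Place K F) (hO : γ • O = O) (g : ℕ)
    (E : Divisor K F) :
    γ • mw_d2g_class O g E = mw_d2g_class O g (γ • E) := by
  classical
  have e : γ • (E - Finsupp.single O (g : ℤ)) = γ • E - Finsupp.single O (g : ℤ) := by
    rw [smul_sub, SemilinearAut.smul_single, hO]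
  by_cases h : Divisor.degree (E - Finsupp.single O (g : ℤ)) = 0
  · have h' : Divisor.degree (γ • E - Finsupp.single O (g : ℤ)) = 0 := by
      rw [← e, SemilinearAut.degree_smul, h]
    rw [mw_d2g_class_eq O g E h, mw_d2g_class_eq O g _ h', SemilinearAut.pic0_smul_mk]
    congr 1
    exact Subtype.ext e
  · have h' : ¬ Divisor.degree (γ • E - Finsupp.single O (g : ℤ)) = 0 := by
      rw [← e, SemilinearAut.degree_smul]; exact h
    rw [mw_d2g_class, mw_d2g_class, dif_neg h, dif_neg h']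
    exact smul_zero (A := Pic0 K F) γ

theorem mw_d2g_smul_ffg_sum [DecidableEq (Place K F)] (γ : SemilinearAut K F)
    (s : Finset (Place K F)) :
    γ • ffg_sum s = ffg_sum (s.image (γ • ·)) := by
  rw [ffg_sum, ffg_sum, Finset.smul_sum,
    Finset.sum_image (fun a _ b _ h => MulAction.injective γ h)]
  exact Finset.sum_congr rfl fun v _ => SemilinearAut.smul_single γ v 1

theorem mw_d2g_smul_nonneg (γ : SemilinearAut K F) {E : Divisor K F} (hE : 0 ≤ E) :
    0 ≤ γ • E := by
  rw [Finsupp.le_def]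
  intro w
  rw [SemilinearAut.divisor_smul_apply]
  exact (Finsupp.le_def.mp hE) _

/-- a divisor all of whose points are fixed is fixed -/
theorem mw_d2g_smul_eq_self (γ : SemilinearAut K F) {E : Divisor K F}
    (h : ∀ v ∈ E.support, γ • v = v) : γ • E = E := by
  rw [SemilinearAut.divisor_smul_def,
    Finsupp.mapDomain_congr (g := id) (fun v hv => h v hv), Finsupp.mapDomain_id]

/-- two conjugates of a non-special effective divisor with the same class are equal -/
theorem mw_d2g_smul_eq_of_class_eq [IsAlgClosed K] {x : F} (hx : rt_IsSepGen K x)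
    (O : Place K F) (g : ℕ) {E : Divisor K F} (hE0 : 0 ≤ E) (hEdeg : Divisor.degree E = g)
    (hEl : Module.finrank K (riemannRochSpace E) = 1) (γa γb : SemilinearAut K F)
    (h : mw_d2g_class O g (γa • E) = mw_d2g_class O g (γb • E)) : γa • E = γb • E := by
  have hda : Divisor.degree (γa • E) = g := by rw [SemilinearAut.degree_smul, hEdeg]
  have hdb : Divisor.degree (γb • E) = g := by rw [SemilinearAut.degree_smul, hEdeg]
  have hprin := (mw_d2g_class_eq_iff hx O g hda hdb).mp h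
  have hprin' : Divisor.IsPrincipal ((γa⁻¹ * γb) • E - E) := by
    have := SemilinearAut.smul_mem_principal γa⁻¹ (Divisor.mem_principal.2 hprin)
    rw [smul_sub, inv_smul_smul, ← mul_smul] at this
    exact this
  have heq := mw_d2g_eq_of_principal hx hE0 (mw_d2g_smul_nonneg _ hE0) hEl hprin'
  calc γa • E = γa • ((γa⁻¹ * γb) • E) := by rw [heq]
    _ = γb • E := by rw [← mul_smul, mul_inv_cancel_left]

end act

/-! ### the Laurent context -/

section ctx

variable {K : Type} [Field K] [Algebra ℚ K] [IsAlgClosed K] [CharZero K]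
  {F_ℚ : IntermediateField ℚ (LaurentSeries ℚ)} {x₀ : F_ℚ}

theorem mw_d2g_act_Pinf (hnt : ∃ f : laurentBaseChange K F_ℚ, f ≠ 0 ∧ gd_ordVal F_ℚ f ≠ 0)
    (σ : K ≃ₐ[ℚ] K) :
    arithmeticGalois F_ℚ σ • mw_d2_Pinf F_ℚ hnt = mw_d2_Pinf F_ℚ hnt := by
  have h := gd_aut_smul_Pinf (K₀ := ℚ) F_ℚ hnt σ
  have e : gd_toRat (K₀ := ℚ) σ = σ := AlgEquiv.ext fun _ => rfl
  rw [gd_aut, e] at h
  exact h

theorem mw_d2g_exists_value (hx : rt_IsSepGen K (mw_d2_bcQ K F_ℚ x₀))
    (P : Place K (laurentBaseChange K F_ℚ)) (h : 0 ≤ P.ord (mw_d2_bcQ K F_ℚ x₀)) :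
    ∃ c : K, mw_d2_IsZero F_ℚ x₀ P c := by
  have := hx.isAlgebraic
  have hx0 : mw_d2_bcQ K F_ℚ x₀ ≠ 0 := by
    intro h0
    apply hx.1
    rw [h0]
    exact isAlgebraic_zero
  have hmem : mw_d2_bcQ K F_ℚ x₀ ∈ P.toValuationSubring := (hw_mem_iff_ord_nonneg P hx0).2 h
  obtain ⟨c, hc | hc⟩ := hw_exists_const (mw_d2_bcQ K F_ℚ x₀) P hmem
  · exfalso
    apply hx.1
    rw [hc]
    exact isAlgebraic_algebraMap c
  · exact ⟨c, hc⟩

theorem mw_d2g_gal_smul_class
    (hnt : ∃ f : laurentBaseChange K F_ℚ, f ≠ 0 ∧ gd_ordVal F_ℚ f ≠ 0) (σ : K ≃ₐ[ℚ] K) (g : ℕ)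
    (E : Divisor K (laurentBaseChange K F_ℚ)) :
    σ • mw_d2g_class (mw_d2_Pinf F_ℚ hnt) g E =
      mw_d2g_class (mw_d2_Pinf F_ℚ hnt) g (arithmeticGalois F_ℚ σ • E) := by
  rw [galois_smul_pic0_def]
  exact mw_d2g_smul_class _ _ (mw_d2g_act_Pinf hnt σ) g E

end ctx

/-! ### Weil's lemma: a class over which a generic class is "algebraic" is generic -/

section W2

theorem mw_d2g_finite_range_of_factor {α β γ : Type*} (f : α → β) (h : α → γ)
    (hf : (Set.range f).Finite) (hfac : ∀ a b, f a = f b → h a = h b) :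
    (Set.range h).Finite := by
  have : Finite ↥(Set.range f) := hf.to_subtype
  let φ : ↥(Set.range f) → γ := fun y => h y.2.choose
  refine (Set.finite_range φ).subset ?_
  rintro _ ⟨a, rfl⟩
  refine ⟨⟨f a, a, rfl⟩, ?_⟩
  exact hfac _ _ (Exists.choose_spec (⟨a, rfl⟩ : ∃ b, f b = f a))

variable {K : Type} [Field K] [Algebra ℚ K] [IsAlgClosed K] [CharZero K]
  {F_ℚ : IntermediateField ℚ (LaurentSeries ℚ)} {x₀ : F_ℚ}

set_option maxHeartbeats 1000000 in
/-- **Weil's lemma.** `η = [E - g∞]` generic (`E = ffg_sum s`); if every `σ ∈ Aut(K/ℚ̄)` fixing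
`ζ` moves `η` by a `2`-torsion class, then `ζ` is generic. -/
theorem mw_d2g_W2 (hx : rt_IsSepGen K (mw_d2_bcQ K F_ℚ x₀))
    (hnt : ∃ f : laurentBaseChange K F_ℚ, f ≠ 0 ∧ gd_ordVal F_ℚ f ≠ 0) (g : ℕ) (c : ℤ)
    (hI : ∀ D : Divisor K (laurentBaseChange K F_ℚ),
      Divisor.degree D + 1 - g ≤ (Module.finrank K (riemannRochSpace D) : ℤ))
    (hR : ∀ D : Divisor K (laurentBaseChange K F_ℚ), c ≤ Divisor.degree D →
      (Module.finrank K (riemannRochSpace D) : ℤ) = Divisor.degree D + 1 - g)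
    (hT : mw_d2_SeamTORS K F_ℚ) (hTRD : mw_d2_SeamTRD K) (hFIX : mw_d2_SeamFIX K F_ℚ x₀)
    (hORB : mw_d2_SeamORB K F_ℚ x₀) (hNSP : mw_d2_SeamNSP K F_ℚ x₀)
    (s : Finset (Place K (laurentBaseChange K F_ℚ))) (hs : s.card = g)
    (hgen : mw_d2_IsGenSet F_ℚ x₀ s) (ζ : Pic0 K (laurentBaseChange K F_ℚ))
    (hζ : ∀ σ ∈ (mw_d2_cl (∅ : Set K)).fixingSubgroup, σ • ζ = ζ →
      2 • (σ • mw_d2g_class (mw_d2_Pinf F_ℚ hnt) g (ffg_sum s) -
        mw_d2g_class (mw_d2_Pinf F_ℚ hnt) g (ffg_sum s)) = 0) :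
    ∃ s' : Finset (Place K (laurentBaseChange K F_ℚ)), s'.card = g ∧
      mw_d2_IsGenSet F_ℚ x₀ s' ∧ ζ = mw_d2g_class (mw_d2_Pinf F_ℚ hnt) g (ffg_sum s') := by
  classical
  set O := mw_d2_Pinf F_ℚ hnt with hO
  set x := mw_d2_bcQ K F_ℚ x₀ with hxdef
  set E := ffg_sum s with hE
  set η := mw_d2g_class O g E with hη
  have hE0 : 0 ≤ E := ffg_sum_nonneg s
  have hEdeg : Divisor.degree E = g := by rw [hE, ffg_degree_sum hx, hs]
  have hEl : Module.finrank K (riemannRochSpace E) = 1 :=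
    hNSP hx g c hR s hs.le hgen
  obtain ⟨t, ht, hti⟩ := hgen
  -- an effective representative of `ζ`
  obtain ⟨Q, hQ0, hQdeg, hQζ⟩ := mw_d2g_exists_class hx O g hI ζ
  -- the values of its points
  let v : Place K (laurentBaseChange K F_ℚ) → K := fun R =>
    if h : ∃ c : K, mw_d2_IsZero F_ℚ x₀ R c then h.choose else 0
  have hv : ∀ R : Place K (laurentBaseChange K F_ℚ), 0 ≤ R.ord x →
      mw_d2_IsZero F_ℚ x₀ R (v R) := by
    intro R hR0
    have h := mw_d2g_exists_value hx R hR0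
    show mw_d2_IsZero F_ℚ x₀ R (if h : ∃ c : K, mw_d2_IsZero F_ℚ x₀ R c then h.choose else 0)
    rw [dif_pos h]
    exact h.choose_spec
  set supp := Q.support with hsupp
  set np := supp.filter (fun R => 0 ≤ R.ord x) with hnp
  set T := np.image v with hTdef
  set L := mw_d2_cl (T : Set K) with hL
  have hrat : ∀ R ∈ supp, mw_d2_IsRat F_ℚ x₀ L R := by
    intro R hR
    by_cases h0 : 0 ≤ R.ord x
    · right
      refine ⟨v R, ?_, hv R h0⟩
      apply mw_d2g_subset_cl
      rw [hTdef, Finset.coe_image]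
      exact ⟨R, Finset.mem_coe.2 (Finset.mem_filter.2 ⟨hR, h0⟩), rfl⟩
    · left
      exact not_le.mp h0
  -- `Aut(K/L)` fixes `Q`, hence `ζ`
  have hfixQ : ∀ σ ∈ L.fixingSubgroup, arithmeticGalois F_ℚ σ • Q = Q := by
    intro σ hσ
    apply mw_d2g_smul_eq_self
    intro R hR
    exact hFIX hx L R (hrat R hR) σ hσ
  have hfixζ : ∀ σ ∈ L.fixingSubgroup, σ • ζ = ζ := by
    intro σ hσ
    rw [← hQζ, mw_d2g_gal_smul_class hnt σ g Q, hfixQ σ hσ]
  have hle : L.fixingSubgroup ≤ (mw_d2_cl (∅ : Set K)).fixingSubgroup :=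
    mw_d2g_fixing_le (mw_d2g_cl_mono (Set.empty_subset _))
  have htors : ∀ σ ∈ L.fixingSubgroup, 2 • (σ • η - η) = 0 := fun σ hσ =>
    hζ σ (hle hσ) (hfixζ σ hσ)
  -- the orbit of `η` is finite
  have horbη : (Set.range fun σ : L.fixingSubgroup => (σ : K ≃ₐ[ℚ] K) • η).Finite := by
    have hfin : {z : Pic0 K (laurentBaseChange K F_ℚ) | 2 • z = 0}.Finite := by
      exact Set.finite_coe_iff.mp
        (hT : Finite ↥{z : Pic0 K (laurentBaseChange K F_ℚ) | 2 • z = 0})
    refine (hfin.image (fun z => z + η)).subset ?_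
    rintro _ ⟨σ, rfl⟩
    exact ⟨(σ : K ≃ₐ[ℚ] K) • η - η, htors σ σ.2, sub_add_cancel _ _⟩
  -- hence the orbit of the divisor `E`
  have horbE : (Set.range fun σ : L.fixingSubgroup =>
      arithmeticGalois F_ℚ (σ : K ≃ₐ[ℚ] K) • E).Finite := by
    refine mw_d2g_finite_range_of_factor _ _ horbη ?_
    intro a b hab
    have hab' : (a : K ≃ₐ[ℚ] K) • mw_d2g_class O g E = (b : K ≃ₐ[ℚ] K) • mw_d2g_class O g E :=
      hab
    rw [mw_d2g_gal_smul_class hnt _ g E, mw_d2g_gal_smul_class hnt _ g E] at hab'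
    exact mw_d2g_smul_eq_of_class_eq hx O g hE0 hEdeg hEl _ _ hab'
  -- hence the orbits of the points of `s`
  have horbP : ∀ P ∈ s, (Set.range fun σ : L.fixingSubgroup =>
      arithmeticGalois F_ℚ (σ : K ≃ₐ[ℚ] K) • P).Finite := by
    intro P hP
    refine (Finset.finite_toSet (horbE.toFinset.biUnion fun E' => E'.support)).subset ?_
    rintro _ ⟨σ, rfl⟩
    rw [Finset.mem_coe, Finset.mem_biUnion]
    refine ⟨arithmeticGalois F_ℚ (σ : K ≃ₐ[ℚ] K) • E, ?_, ?_⟩
    · rw [Set.Finite.mem_toFinset]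
      exact ⟨σ, rfl⟩
    · rw [Finsupp.mem_support_iff, SemilinearAut.divisor_smul_apply_smul, hE, ffg_sum_apply,
        if_pos hP]
      exact one_ne_zero
  -- hence their values lie in `L`
  have htL : ∀ P ∈ s, t P ∈ L := by
    intro P hP
    rcases hORB hx L P (horbP P hP) with hpole | ⟨c', hc'L, hc'⟩
    · have := mw_d2g_isZero_ord_nonneg (ht P hP)
      omega
    · rw [← mw_d2g_isZero_unique hc' (ht P hP)]
      exact hc'L
  -- the exchange lemma
  have hsuppcard : (supp.card : ℤ) ≤ g := by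
    rw [← hQdeg, rt_degree_eq_sum hx Q supp (Finset.Subset.refl _), Finset.card_eq_sum_ones]
    push_cast
    apply Finset.sum_le_sum
    intro R hR
    have h1 : 0 ≤ Q R := by
      have := (Finsupp.le_def.mp hQ0) R
      simpa using this
    have h2 : Q R ≠ 0 := Finsupp.mem_support_iff.mp hR
    omega
  have hnpcard : np.card ≤ supp.card := Finset.card_filter_le _ _
  have hTcard : T.card ≤ np.card := Finset.card_image_le
  have hTg : T.card ≤ g := by
    have : (T.card : ℤ) ≤ g := by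
      have h1 : (T.card : ℤ) ≤ np.card := by exact_mod_cast hTcard
      have h2 : (np.card : ℤ) ≤ supp.card := by exact_mod_cast hnpcard
      linarith
    exact_mod_cast this
  let e : s ≃ Fin g := Finset.equivFinOfCardEq hs
  have hind : AlgebraicIndependent ℚ (fun i : Fin g => t ((e.symm i : s) : _)) :=
    hti.comp e.symm e.symm.injective
  obtain ⟨hTeq, hTind⟩ := hTRD g _ hind T hTg (fun i => htL _ (e.symm i).2)
  -- consequences of `#T = g`
  have hnpeq : np.card = g := by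
    have h1 : (np.card : ℤ) ≤ supp.card := by exact_mod_cast hnpcard
    have h2 : (g : ℤ) ≤ np.card := by rw [← hTeq]; exact_mod_cast hTcard
    have : (np.card : ℤ) = g := by linarith
    exact_mod_cast this
  have hsuppeq : supp.card = g := by
    have h1 : (np.card : ℤ) ≤ supp.card := by exact_mod_cast hnpcard
    have : (supp.card : ℤ) = g := by rw [hnpeq] at h1; linarith
    exact_mod_cast this
  have hnpsupp : np = supp :=
    Finset.eq_of_subset_of_card_le (Finset.filter_subset _ _) (by rw [hnpeq, hsuppeq])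
  have hvinj : Set.InjOn v (np : Set (Place K (laurentBaseChange K F_ℚ))) :=
    Finset.card_image_iff.mp (by rw [← hTdef, hTeq, hnpeq])
  have hQone : ∀ R ∈ supp, Q R = 1 := by
    have hle1 : ∀ R ∈ supp, (1 : ℤ) ≤ Q R := by
      intro R hR
      have h1 : 0 ≤ Q R := by
        have := (Finsupp.le_def.mp hQ0) R
        simpa using this
      have h2 : Q R ≠ 0 := Finsupp.mem_support_iff.mp hR
      omega
    have hsum : ∑ R ∈ supp, (1 : ℤ) = ∑ R ∈ supp, Q R := by
      rw [← rt_degree_eq_sum hx Q supp (Finset.Subset.refl _), hQdeg, Finset.sum_const,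
        hsuppeq]
      simp
    intro R hR
    exact ((Finset.sum_eq_sum_iff_of_le hle1).mp hsum R hR).symm
  have hQsum : Q = ffg_sum supp := by
    ext w
    rw [ffg_sum_apply]
    by_cases hw : w ∈ supp
    · rw [if_pos hw, hQone w hw]
    · rw [if_neg hw]
      exact Finsupp.notMem_support_iff.mp hw
  refine ⟨supp, hsuppeq, ⟨v, ?_, ?_⟩, ?_⟩
  · intro P hP
    have hP' : P ∈ np := by rw [hnpsupp]; exact hP
    exact hv P (Finset.mem_filter.mp hP').2
  · have hmem : ∀ P : supp, v (P : _) ∈ T := by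
      intro P
      rw [hTdef]
      exact Finset.mem_image.2 ⟨P, by rw [hnpsupp]; exact P.2, rfl⟩
    have hφ : Function.Injective (fun P : supp => (⟨v (P : _), hmem P⟩ : T)) := by
      intro P P' h
      have h1 : v (P : _) = v (P' : _) := congrArg (fun z : T => (z : K)) h
      apply Subtype.ext
      apply hvinj _ _ h1
      · rw [hnpsupp]; exact P.2
      · rw [hnpsupp]; exact P'.2
    have hcomp := hTind.comp (fun P : supp => (⟨v (P : _), hmem P⟩ : T)) hφ
    exact hcomp
  · rw [← hQsum, hQζ]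

end W2

end Fermat.Agent.MW
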