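/-
Project MW (S17), cell **[DIV2]**, leaf **[ASM]** (helper19): the assembly.
`mw_d2asm_generic`: (DEG) + (LINK) + (DESC) + (GEN) ⟹ `Pic⁰(F_{K₀})` is `2`-divisible;
`mw_d2asm N`: the same seams at `K₀ = Q̄ ⊆ K = ℂ`, `F_ℚ = modularFunctionFieldFull N` give
`mw_SeamDiv2 N`.  Prefix `mw_d2asm`.
-/
import Fermat.Agent.MW.Div2.Gen
import Fermat.Agent.MW.SeamsArith
import Fermat.Agent.JT3.Riemann.FBar
import Fermat.Agent.JT3.Gateway.Descent
import Fermat.Agent.JT3.Gateway.CInputs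

set_option autoImplicit false
set_option linter.unusedSectionVars false

noncomputable section

namespace Fermat.Agent.MW

open AlgebraicCurve ModularCurve Fermat.Agent.JT3 Fermat.Agent.S24 Fermat.Agent.FF

section generic

variable {K₀ K : Type} [Field K₀] [Field K] [Algebra K₀ K] [Algebra ℚ K₀] [Algebra ℚ K]
  (F_ℚ : IntermediateField ℚ (LaurentSeries ℚ))
  (hres : ∀ P₀ : Place K₀ (laurentBaseChange K₀ F_ℚ),
    Function.Surjective (algebraMap K₀ P₀.ResidueField))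

/-- **the assembly**: `Pic⁰(F_{K₀})` is `2`-divisible. -/
theorem mw_d2asm_generic [IsAlgClosed K₀] {x' : laurentBaseChange K₀ F_ℚ}
    (hx' : rt_IsSepGen K₀ x')
    (hDEG : mw_d2_SeamDEG K₀ K F_ℚ hres) (hLINK : mw_d2_SeamLINK K₀ K F_ℚ hres)
    (hDESC : mw_d2_SeamDESC K₀ K F_ℚ hres) (hGEN : mw_d2_SeamGEN K F_ℚ)
    (x : Pic0 K₀ (laurentBaseChange K₀ F_ℚ)) : ∃ y : Pic0 K₀ (laurentBaseChange K₀ F_ℚ),
      2 • y = x := by
  obtain ⟨⟨D₀, hD₀⟩, rfl⟩ := Pic0.mk_surjective x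
  have hD₀' : Divisor.degree D₀ = 0 := hD₀
  have hdeg : Divisor.degree (mw_d2_extDiv (K := K) F_ℚ hres D₀) = 0 := (hDEG D₀).trans hD₀'
  obtain ⟨z, hz⟩ := hGEN _ (hLINK D₀ hdeg)
  obtain ⟨⟨E, hE⟩, rfl⟩ := Pic0.mk_surjective z
  have hE' : Divisor.degree E = 0 := hE
  have h2E : Divisor.degree (2 • E) = 0 := by rw [map_nsmul, hE', smul_zero]
  have h1 : 2 • Pic0.mk (⟨E, hE⟩ : Divisor.degZero (K := K) (F := laurentBaseChange K F_ℚ))
      = Pic0.mk ⟨2 • E, h2E⟩ := by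
    unfold Pic0.mk
    exact (QuotientAddGroup.mk_nsmul _ _ 2).symm
  rw [h1] at hz
  unfold mw_d2_cls at hz
  obtain ⟨f, hf0, hf⟩ := (mw_d2g_mk_eq_mk_iff h2E hdeg).1 hz
  obtain ⟨E₀, f₀, hf₀0, hE₀⟩ := hDESC D₀ hD₀' ⟨E, f, hf0, fun P => by
    have := hf P
    rw [Finsupp.sub_apply, Finsupp.smul_apply, nsmul_eq_mul] at this
    push_cast at this
    linarith⟩
  have hDe : D₀ = 2 • E₀ + rt_div hx' f₀ := by
    ext P₀
    rw [Finsupp.add_apply, Finsupp.smul_apply, rt_div_apply, nsmul_eq_mul, hE₀ P₀]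
    push_cast
    ring
  have hE₀deg : Divisor.degree E₀ = 0 := by
    have := congrArg Divisor.degree hDe
    rw [map_add, map_nsmul, rt_degree_div, add_zero, hD₀', nsmul_eq_mul] at this
    push_cast at this
    linarith
  have h2E₀ : Divisor.degree (2 • E₀) = 0 := by rw [map_nsmul, hE₀deg, smul_zero]
  refine ⟨Pic0.mk ⟨E₀, hE₀deg⟩, ?_⟩
  have h2 : 2 • Pic0.mk (⟨E₀, hE₀deg⟩ :
      Divisor.degZero (K := K₀) (F := laurentBaseChange K₀ F_ℚ)) = Pic0.mk ⟨2 • E₀, h2E₀⟩ := by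
    unfold Pic0.mk
    exact (QuotientAddGroup.mk_nsmul _ _ 2).symm
  rw [h2]
  refine (mw_d2g_mk_eq_mk_iff h2E₀ hD₀').2 ⟨f₀, hf₀0, fun P₀ => ?_⟩
  rw [Finsupp.sub_apply, Finsupp.smul_apply, nsmul_eq_mul, hE₀ P₀]
  push_cast
  ring

end generic

section inst

open Fermat.Agent.S24.Br

variable (N : ℕ) [NeZero N]

/-- **[ASM]**: the seams at `K₀ = Q̄ ⊆ K = ℂ` give the divisibility by `2` of `J₀(N)(Q̄)`. -/
theorem mw_d2asm
    (hDEG : mw_d2_SeamDEG (AlgebraicClosure ℚ) ℂ (modularFunctionFieldFull N) (gd_res_bar N))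
    (hLINK : mw_d2_SeamLINK (AlgebraicClosure ℚ) ℂ (modularFunctionFieldFull N) (gd_res_bar N))
    (hDESC : mw_d2_SeamDESC (AlgebraicClosure ℚ) ℂ (modularFunctionFieldFull N) (gd_res_bar N))
    (hGEN : mw_d2_SeamGEN ℂ (modularFunctionFieldFull N)) : mw_SeamDiv2 N :=
  fun x _ => mw_d2asm_generic (modularFunctionFieldFull N) (gd_res_bar N)
    (rt_isSepGen_jBar N) hDEG hLINK hDESC hGEN x

/-- the rational function `j ∈ F_ℚ` -/
def mw_d2asm_x0 : modularFunctionFieldFull N :=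
  ⟨jq, by
    have h := jqd_mem_full N (one_dvd N)
    rwa [qExpand_one_apply] at h⟩

theorem mw_d2asm_bcQ_bar :
    mw_d2_bcQ (AlgebraicClosure ℚ) (modularFunctionFieldFull N) (mw_d2asm_x0 N) = br_jBar N :=
  rfl

theorem mw_d2asm_bcQ_C :
    mw_d2_bcQ ℂ (modularFunctionFieldFull N) (mw_d2asm_x0 N) = gc_jF N :=
  Subtype.ext (gc_jF_coe N).symm

theorem mw_d2asm_isSepGen_bar :
    rt_IsSepGen (AlgebraicClosure ℚ)
      (mw_d2_bcQ (AlgebraicClosure ℚ) (modularFunctionFieldFull N) (mw_d2asm_x0 N)) :=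
  rt_isSepGen_jBar N

theorem mw_d2asm_isSepGen_C :
    rt_IsSepGen ℂ (mw_d2_bcQ ℂ (modularFunctionFieldFull N) (mw_d2asm_x0 N)) := by
  rw [mw_d2asm_bcQ_C]
  exact gc_isSepGen_jF N

end inst

end Fermat.Agent.MW
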