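/-
Project MW (S17), cell [DIV2], leaf **[AUT]** (helper10): FIELD THEORY (Mathlib only).

* `mw_d2a_extend`  : the general extension lemma: `K` algebraically closed, `φ : K₁ ≃+* K₂` an
                     isomorphism of two base fields of `K`, `v`, `w` transcendence bases of `K` over
                     `K₁`, `K₂`, `e` a bijection of the index sets: there is a ring automorphism
                     `σ` of `K` with `σ ∘ algebraMap K₁ K = algebraMap K₂ K ∘ φ` and
                     `σ (v i) = w (e i)`;
* `mw_d2a_autT`    : `mw_d2_SeamAUTt K` (two elements outside an algebraically closed subfield `L`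
                     are conjugate under `Aut(K/L)`);
* `mw_d2a_autR`    : `mw_d2_SeamAUTr K` (two roots of an irreducible polynomial over a subfield
                     `M` are conjugate under `Aut(K/M)`);
* `mw_d2a_autI`    : `mw_d2_SeamAUTi ℂ` (`ℂ` has infinite transcendence degree over `ℚ`);
* `mw_d2a_trd`     : `mw_d2_SeamTRD K` (the exchange lemma).
Prefix `mw_d2a_`.
-/
import Mathlib
import Fermat.Agent.MW.Div2.Seams

set_option autoImplicit false
set_option linter.unusedSectionVars false
set_option linter.unusedVariables false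
set_option linter.style.haveILetI false

noncomputable section

namespace Fermat.Agent.MW

open MvPolynomial

/-! ### the extension lemma -/

section extend

variable {K₁ K₂ K : Type*} [Field K₁] [Field K₂] [Field K] [Algebra K₁ K] [Algebra K₂ K]
  [IsAlgClosed K] {ι κ : Type*} {v : ι → K} {w : κ → K}

/-- **the extension lemma**: an isomorphism of two base fields together with a bijection of
transcendence bases extends to an automorphism of the algebraically closed field `K`. -/
theorem mw_d2a_extend (φ : K₁ ≃+* K₂) (e : ι ≃ κ) (hv : IsTranscendenceBasis K₁ v)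
    (hw : IsTranscendenceBasis K₂ w) :
    ∃ σ : K ≃+* K, (∀ a : K₁, σ (algebraMap K₁ K a) = algebraMap K₂ K (φ a)) ∧
      ∀ i, σ (v i) = w (e i) := by
  classical
  let _ := IsAlgClosed.isAlgClosure_of_transcendence_basis v hv
  let _ := IsAlgClosed.isAlgClosure_of_transcendence_basis w hw
  set E : Algebra.adjoin K₁ (Set.range v) ≃+* Algebra.adjoin K₂ (Set.range w) :=
    hv.1.aevalEquiv.symm.toRingEquiv.trans
      ((MvPolynomial.mapEquiv ι φ).trans
        ((MvPolynomial.renameEquiv K₂ e).toRingEquiv.trans hw.1.aevalEquiv.toRingEquiv)) with hE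
  set σ : K ≃+* K := IsAlgClosure.equivOfEquiv K K E with hσ
  have key : ∀ p : MvPolynomial ι K₁,
      σ (MvPolynomial.aeval v p) =
        MvPolynomial.aeval w (MvPolynomial.rename e (MvPolynomial.map (φ : K₁ →+* K₂) p)) := by
    intro p
    have h1 : MvPolynomial.aeval v p =
        algebraMap (Algebra.adjoin K₁ (Set.range v)) K (hv.1.aevalEquiv p) := by
      rw [AlgebraicIndependent.algebraMap_aevalEquiv]
    rw [h1, hσ, IsAlgClosure.equivOfEquiv_algebraMap]
    have h2 : E (hv.1.aevalEquiv p) =
        hw.1.aevalEquiv (MvPolynomial.rename e (MvPolynomial.map (φ : K₁ →+* K₂) p)) := by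
      rw [hE]
      show hw.1.aevalEquiv (MvPolynomial.renameEquiv K₂ e (MvPolynomial.mapEquiv ι φ
        (hv.1.aevalEquiv.symm (hv.1.aevalEquiv p)))) = _
      rw [AlgEquiv.symm_apply_apply]
      rfl
    rw [h2, AlgebraicIndependent.algebraMap_aevalEquiv]
  refine ⟨σ, fun a => ?_, fun i => ?_⟩
  · have h := key (MvPolynomial.C a)
    rw [MvPolynomial.aeval_C, MvPolynomial.map_C, MvPolynomial.rename_C, MvPolynomial.aeval_C]
      at h
    exact h
  · have h := key (MvPolynomial.X i)
    rw [MvPolynomial.aeval_X, MvPolynomial.map_X, MvPolynomial.rename_X, MvPolynomial.aeval_X]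
      at h
    exact h

end extend

/-! ### [AUT-t] -/

section autT

variable (K : Type) [Field K] [Algebra ℚ K]

/-- an element outside an algebraically closed subfield is transcendental over it. -/
theorem mw_d2a_transcendental {K : Type*} [Field K] {L : Type*} [Field L] [Algebra L K]
    [IsAlgClosed L] {s : K} (hs : s ∉ (algebraMap L K).range) : Transcendental L s := by
  intro halg
  have hint : IsIntegral L s := halg.isIntegral
  exact hs (minpoly.mem_range_of_degree_eq_one L s
    (IsAlgClosed.degree_eq_one_of_irreducible L (minpoly.irreducible hint)))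

/-- a ring automorphism of `K` as an element of `Aut(K/ℚ)`. -/
def mw_d2a_toAlgEquiv (σ : K ≃+* K) : K ≃ₐ[ℚ] K :=
  AlgEquiv.ofRingEquiv (f := σ) fun q => RingHom.map_rat_algebraMap (σ : K →+* K) q

@[simp] theorem mw_d2a_toAlgEquiv_apply (σ : K ≃+* K) (x : K) :
    mw_d2a_toAlgEquiv K σ x = σ x := rfl

variable [IsAlgClosed K]

/-- **[AUT-t]** -/
theorem mw_d2a_autT : mw_d2_SeamAUTt K := by
  classical
  intro L _ t t' ht ht'
  have htr : ∀ s : K, s ∉ L → Transcendental L s := by
    intro s hs
    refine mw_d2a_transcendental ?_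
    rintro ⟨a, ha⟩
    exact hs (ha ▸ a.2)
  have hind : ∀ s : K, s ∉ L → AlgebraicIndepOn L id ({s} : Set K) := by
    intro s hs
    have h1 : AlgebraicIndependent L (fun x : ({s} : Set K) => (x : K)) := by
      rw [algebraicIndependent_singleton_iff (⟨s, rfl⟩ : ({s} : Set K))]
      exact htr s hs
    exact h1
  obtain ⟨B, htB, hB⟩ := exists_isTranscendenceBasis_superset (hind t ht)
  obtain ⟨B', htB', hB'⟩ := exists_isTranscendenceBasis_superset (hind t' ht')
  have hcard : Cardinal.mk B = Cardinal.mk B' := hB.cardinalMk_eq hB'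
  obtain ⟨f⟩ := Cardinal.eq.1 hcard
  set i₀ : B := ⟨t, htB rfl⟩ with hi₀
  set j₀ : B' := ⟨t', htB' rfl⟩ with hj₀
  set e : B ≃ B' := f.trans (Equiv.swap (f i₀) j₀) with he
  obtain ⟨σ, hσ1, hσ2⟩ := mw_d2a_extend (RingEquiv.refl L) e hB hB'
  refine ⟨mw_d2a_toAlgEquiv K σ, ?_, ?_⟩
  · rw [IntermediateField.mem_fixingSubgroup_iff]
    intro x hx
    exact hσ1 ⟨x, hx⟩
  · have h := hσ2 i₀
    have h2 : e i₀ = j₀ := by
      rw [he, Equiv.trans_apply, Equiv.swap_apply_left]
    rw [h2] at h
    exact h

end autT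

/-! ### [AUT-r] -/

section autR

variable (K : Type) [Field K] [Algebra ℚ K] [IsAlgClosed K]

open IntermediateField in
/-- **[AUT-r]** -/
theorem mw_d2a_autR : mw_d2_SeamAUTr K := by
  classical
  intro M p hp r r' hr hr'
  have hp0 : p ≠ 0 := hp.ne_zero
  have hint : IsIntegral M r := IsAlgebraic.isIntegral (⟨p, hp0, hr⟩ : IsAlgebraic M r)
  have hint' : IsIntegral M r' := IsAlgebraic.isIntegral (⟨p, hp0, hr'⟩ : IsAlgebraic M r')
  have hmin : minpoly M r = minpoly M r' := by
    rw [← minpoly.eq_of_irreducible hp hr, ← minpoly.eq_of_irreducible hp hr']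
  -- the isomorphism `M(r) ≅ M(r')`
  have hgen : minpoly M (IntermediateField.adjoin.powerBasis hint).gen =
      minpoly M (IntermediateField.adjoin.powerBasis hint').gen := by
    rw [IntermediateField.adjoin.powerBasis_gen, IntermediateField.adjoin.powerBasis_gen,
      IntermediateField.minpoly_gen, IntermediateField.minpoly_gen, hmin]
  set φ : M⟮r⟯ ≃ₐ[M] M⟮r'⟯ :=
    (IntermediateField.adjoin.powerBasis hint).equivOfMinpoly
      (IntermediateField.adjoin.powerBasis hint') hgen with hφdef
  have hφ : φ (AdjoinSimple.gen M r) = AdjoinSimple.gen M r' := by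
    have h := PowerBasis.equivOfMinpoly_gen (IntermediateField.adjoin.powerBasis hint)
      (IntermediateField.adjoin.powerBasis hint') hgen
    rw [IntermediateField.adjoin.powerBasis_gen, IntermediateField.adjoin.powerBasis_gen] at h
    exact h
  -- a transcendence basis of `K` over `M`, hence over `M(r)` and `M(r')`
  obtain ⟨B, hB⟩ := exists_isTranscendenceBasis M K
  haveI : Algebra.IsAlgebraic M M⟮r⟯ :=
    IntermediateField.isAlgebraic_adjoin_simple hint
  haveI : Algebra.IsAlgebraic M M⟮r'⟯ :=
    IntermediateField.isAlgebraic_adjoin_simple hint'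
  have hB1 : IsTranscendenceBasis M⟮r⟯ ((↑) : B → K) :=
    (Algebra.IsAlgebraic.isTranscendenceBasis_iff M M⟮r⟯).1 hB
  have hB2 : IsTranscendenceBasis M⟮r'⟯ ((↑) : B → K) :=
    (Algebra.IsAlgebraic.isTranscendenceBasis_iff M M⟮r'⟯).1 hB
  obtain ⟨σ, hσ1, hσ2⟩ := mw_d2a_extend φ.toRingEquiv (Equiv.refl B) hB1 hB2
  refine ⟨mw_d2a_toAlgEquiv K σ, ?_, ?_⟩
  · rw [IntermediateField.mem_fixingSubgroup_iff]
    intro x hx
    have h := hσ1 (algebraMap M M⟮r⟯ ⟨x, hx⟩)
    have h2 : φ.toRingEquiv (algebraMap M M⟮r⟯ ⟨x, hx⟩) = algebraMap M M⟮r'⟯ ⟨x, hx⟩ :=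
      φ.commutes ⟨x, hx⟩
    rw [h2] at h
    exact h
  · have h := hσ1 (AdjoinSimple.gen M r)
    have h2 : φ.toRingEquiv (AdjoinSimple.gen M r) = AdjoinSimple.gen M r' := hφ
    rw [h2] at h
    exact h

end autR

/-! ### [AUT-i] -/

section autI

/-- every transcendence basis of `ℂ` over `ℚ` is infinite. -/
theorem mw_d2a_infinite_basis {B : Set ℂ} (hB : IsTranscendenceBasis ℚ ((↑) : B → ℂ)) :
    Infinite B := by
  by_contra hfin
  rw [not_infinite_iff_finite] at hfin
  have h := IsAlgClosed.cardinal_le_max_transcendence_basis' ((↑) : B → ℂ) hB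
  have h1 : Cardinal.mk ℂ ≤ Cardinal.aleph0 := by
    refine h.trans ?_
    refine max_le (max_le ?_ ?_) le_rfl
    · exact Cardinal.mk_le_aleph0
    · exact (Cardinal.lt_aleph0_of_finite B).le
  rw [Cardinal.mk_complex] at h1
  exact absurd h1 (not_le.2 Cardinal.aleph0_lt_continuum)

/-- **[AUT-i]** -/
theorem mw_d2a_autI : mw_d2_SeamAUTi ℂ := by
  intro n
  obtain ⟨B, hB⟩ := exists_isTranscendenceBasis ℚ ℂ
  haveI := mw_d2a_infinite_basis hB
  refine ⟨fun i : Fin n => ((Infinite.natEmbedding B (i : ℕ) : B) : ℂ), ?_⟩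
  exact hB.1.comp (fun i : Fin n => Infinite.natEmbedding B (i : ℕ))
    (fun a b hab => Fin.val_injective ((Infinite.natEmbedding B).injective hab))

end autI

/-! ### [TRD] -/

section trd

variable (K : Type) [Field K] [Algebra ℚ K]

/-- the exchange lemma, abstract form: `C` a field between `k` and `K`. -/
theorem mw_d2a_trd_aux {k C K : Type} [Field k] [Field C] [Field K] [Algebra k C] [Algebra C K]
    [Algebra k K] [IsScalarTower k C K] {g : ℕ} (t : Fin g → C) (ht : AlgebraicIndependent k t)
    (T : Finset K) (hTg : T.card ≤ g) (x : T → C) (hx : ∀ c, algebraMap C K (x c) = c)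
    (halg' : ∀ c : C, IsAlgebraic (Algebra.adjoin k (T : Set K)) (algebraMap C K c)) :
    T.card = g ∧ AlgebraicIndependent k (fun c : T => (c : K)) := by
  classical
  haveI halg : Algebra.IsAlgebraic (Algebra.adjoin k (Set.range x)) C := by
    have hS : (Algebra.adjoin k (Set.range x)).map (IsScalarTower.toAlgHom k C K) =
        Algebra.adjoin k (T : Set K) := by
      rw [AlgHom.map_adjoin]
      congr 1
      ext z
      simp only [Set.mem_image, Set.mem_range, IsScalarTower.coe_toAlgHom', exists_exists_eq_and,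
        hx, Finset.mem_coe]
      constructor
      · rintro ⟨c, rfl⟩
        exact c.2
      · intro hz
        exact ⟨⟨z, hz⟩, rfl⟩
    refine ⟨fun c => ?_⟩
    have h1 := halg' c
    rw [← hS] at h1
    refine IsAlgebraic.of_ringHom_of_comp_eq
      (f := ((Algebra.adjoin k (Set.range x)).equivMapOfInjective (IsScalarTower.toAlgHom k C K)
        (algebraMap C K).injective : _ →+* _)) (g := algebraMap C K) h1 ?_
      (algebraMap C K).injective ?_
    · exact ((Algebra.adjoin k (Set.range x)).equivMapOfInjective (IsScalarTower.toAlgHom k C K)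
        (algebraMap C K).injective).surjective
    · ext a
      rfl
  have hle : (g : Cardinal) ≤ Algebra.trdeg k C := by
    have h := ht.cardinalMk_le_trdeg
    simpa using h
  have hcard : (Cardinal.mk T : Cardinal) ≤ Algebra.trdeg k C := by
    refine le_trans ?_ hle
    rw [Cardinal.mk_coe_finset]
    exact_mod_cast hTg
  have hbasis : IsTranscendenceBasis k x :=
    Algebra.IsAlgebraic.isTranscendenceBasis_of_le_trdeg_of_finite k x hcard
  refine ⟨?_, ?_⟩
  · have h1 : (Cardinal.mk T : Cardinal) = Algebra.trdeg k C := hbasis.cardinalMk_eq_trdeg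
    rw [← h1, Cardinal.mk_coe_finset] at hle
    have h2 : g ≤ T.card := by exact_mod_cast hle
    exact le_antisymm hTg h2
  · have h := hbasis.1.map' (f := IsScalarTower.toAlgHom k C K) (algebraMap C K).injective
    have h2 : (IsScalarTower.toAlgHom k C K) ∘ x = fun c : T => (c : K) := by
      funext c
      exact hx c
    rw [h2] at h
    exact h

/-- **[TRD]** the exchange lemma. -/
theorem mw_d2a_trd : mw_d2_SeamTRD K := by
  classical
  intro g t ht T hTg hmem
  obtain ⟨C, hC⟩ : ∃ C : IntermediateField ℚ K, C = mw_d2_cl (T : Set K) := ⟨_, rfl⟩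
  letI : Algebra ℚ ↥C := C.algebra'
  haveI hST : @IsScalarTower ℚ ↥C K C.algebra'.toSMul _ _ := C.isScalarTower_mid'
  -- `t` inside `C`
  have ht'ind : AlgebraicIndependent ℚ (fun i => (⟨t i, hC ▸ hmem i⟩ : ↥C)) := by
    refine AlgebraicIndependent.of_comp (@IsScalarTower.toAlgHom ℚ ↥C K _ _ _ C.algebra' _ _ hST) ?_
    exact ht
  -- `T` inside `C`
  have hTC : ∀ c : T, (c : K) ∈ C := by
    intro c
    rw [hC, mw_d2_mem_cl]
    exact isAlgebraic_algebraMap
      (⟨(c : K), IntermediateField.subset_adjoin ℚ _ c.2⟩ : IntermediateField.adjoin ℚ (T : Set K))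
  -- `C` is algebraic over `ℚ[T]`
  have halg : ∀ c : ↥C, IsAlgebraic (Algebra.adjoin ℚ (T : Set K)) (algebraMap ↥C K c) := by
    intro c
    have h1 : (c : K) ∈ mw_d2_cl (T : Set K) := hC ▸ c.2
    rw [mw_d2_mem_cl] at h1
    exact IntermediateField.isAlgebraic_adjoin_iff.1 h1
  exact @mw_d2a_trd_aux ℚ ↥C K _ _ _ C.algebra' _ _ hST g _ ht'ind T hTg
    (fun c : T => (⟨(c : K), hTC c⟩ : ↥C)) (fun c => rfl) halg

end trd

end Fermat.Agent.MW
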