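/-
Project MW (S17), cell **[DIV2]**, leaf **[GEN]**, part 2 (helper19): any two independent generic
sets of places of the same cardinality are conjugate under `Aut(K/ℚ)` (from [TRANS] + [FIX]).
Prefix `mw_d2g_`.
-/
import Fermat.Agent.MW.Div2.Gen

set_option autoImplicit false
set_option linter.unusedSectionVars false
set_option linter.unusedVariables false

noncomputable section

namespace Fermat.Agent.MW

open AlgebraicCurve ModularCurve Fermat.Agent.JT3 Fermat.Agent.FF Fermat.Agent.S24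

variable {K : Type} [Field K] [Algebra ℚ K] [IsAlgClosed K] [CharZero K]
  {F_ℚ : IntermediateField ℚ (LaurentSeries ℚ)} {x₀ : F_ℚ}

/-- a zero of `x - c` with `c ∉ L` is not `L`-rational -/
theorem mw_d2g_not_isRat {L : IntermediateField ℚ K} {P : Place K (laurentBaseChange K F_ℚ)}
    {c : K} (hP : mw_d2_IsZero F_ℚ x₀ P c) (hc : c ∉ L) : ¬ mw_d2_IsRat F_ℚ x₀ L P := by
  rintro (hpole | ⟨c', hc'L, hc'⟩)
  · have := mw_d2g_isZero_ord_nonneg hP
    omega
  · rw [mw_d2g_isZero_unique hc' hP] at hc'L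
    exact hc hc'L

open Classical in
set_option maxHeartbeats 1000000 in
/-- **transitivity on independent generic sets** -/
theorem mw_d2g_trans_sets (hx : rt_IsSepGen K (mw_d2_bcQ K F_ℚ x₀))
    (hFIX : mw_d2_SeamFIX K F_ℚ x₀) (hTRANS : mw_d2_SeamTRANS K F_ℚ x₀) :
    ∀ (m : ℕ) (s s' : Finset (Place K (laurentBaseChange K F_ℚ))), s.card = m → s'.card = m →
      mw_d2_IsGenSet F_ℚ x₀ s → mw_d2_IsGenSet F_ℚ x₀ s' →
      ∃ σ : K ≃ₐ[ℚ] K, s.image (fun P => arithmeticGalois F_ℚ σ • P) = s' := by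
  intro m
  induction m with
  | zero =>
    intro s s' hs hs' _ _
    rw [Finset.card_eq_zero] at hs hs'
    subst hs hs'
    exact ⟨1, rfl⟩
  | succ m ih =>
    intro s s' hs hs' hgen hgen'
    obtain ⟨P, hP⟩ : s.Nonempty := Finset.card_pos.mp (by omega)
    obtain ⟨P', hP'⟩ : s'.Nonempty := Finset.card_pos.mp (by omega)
    obtain ⟨t, ht, hti⟩ := hgen
    obtain ⟨t', ht', hti'⟩ := hgen'
    have hs₁ : (s.erase P).card = m := by rw [Finset.card_erase_of_mem hP, hs]; rfl
    have hs'₁ : (s'.erase P').card = m := by rw [Finset.card_erase_of_mem hP', hs']; rfl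
    have hgen₁ : mw_d2_IsGenSet F_ℚ x₀ (s.erase P) :=
      ⟨t, fun R hR => ht R (Finset.mem_of_mem_erase hR),
        mw_d2g_algIndep_subset (Finset.erase_subset P s) hti⟩
    have hgen'₁ : mw_d2_IsGenSet F_ℚ x₀ (s'.erase P') :=
      ⟨t', fun R hR => ht' R (Finset.mem_of_mem_erase hR),
        mw_d2g_algIndep_subset (Finset.erase_subset P' s') hti'⟩
    obtain ⟨σ₁, hσ₁⟩ := ih (s.erase P) (s'.erase P') hs₁ hs'₁ hgen₁ hgen'₁
    -- the field of definition of `s' \ {P'}`
    have hL : ∀ R ∈ s.erase P, t' (arithmeticGalois F_ℚ σ₁ • R) = σ₁ (t R) := by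
      intro R hR
      have hmem : arithmeticGalois F_ℚ σ₁ • R ∈ s'.erase P' := by
        rw [← hσ₁]; exact Finset.mem_image_of_mem _ hR
      exact mw_d2g_isZero_unique (ht' _ (Finset.mem_of_mem_erase hmem))
        (mw_d2g_isZero_smul (ht R (Finset.mem_of_mem_erase hR)) σ₁)
    have himage : t' '' ((s'.erase P' : Finset _) : Set (Place K (laurentBaseChange K F_ℚ))) =
        σ₁ '' (t '' ((s.erase P : Finset _) : Set (Place K (laurentBaseChange K F_ℚ)))) := by
      ext c
      constructor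
      · rintro ⟨R', hR', rfl⟩
        rw [Finset.mem_coe, ← hσ₁, Finset.mem_image] at hR'
        obtain ⟨R, hR, rfl⟩ := hR'
        exact ⟨t R, ⟨R, Finset.mem_coe.2 hR, rfl⟩, (hL R hR).symm⟩
      · rintro ⟨_, ⟨R, hR, rfl⟩, rfl⟩
        refine ⟨arithmeticGalois F_ℚ σ₁ • R, ?_, hL R (Finset.mem_coe.1 hR)⟩
        rw [Finset.mem_coe, ← hσ₁]
        exact Finset.mem_image_of_mem _ (Finset.mem_coe.1 hR)
    set L := mw_d2_cl (t' '' ((s'.erase P' : Finset _) :
      Set (Place K (laurentBaseChange K F_ℚ)))) with hLdef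
    have hnot' : ¬ mw_d2_IsRat F_ℚ x₀ L P' :=
      mw_d2g_not_isRat (ht' P' hP') (mw_d2g_algIndep_not_mem_cl hti' hP')
    have hnot : ¬ mw_d2_IsRat F_ℚ x₀ L (arithmeticGalois F_ℚ σ₁ • P) := by
      refine mw_d2g_not_isRat (mw_d2g_isZero_smul (ht P hP) σ₁) ?_
      rw [hLdef, himage, mw_d2g_map_mem_cl_iff]
      exact mw_d2g_algIndep_not_mem_cl hti hP
    obtain ⟨τ, hτL, hτ⟩ := hTRANS hx L _ _ hnot hnot'
    have hτfix : ∀ R' ∈ s'.erase P', arithmeticGalois F_ℚ τ • R' = R' := by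
      intro R' hR'
      refine hFIX hx L R' (Or.inr ⟨t' R', ?_, ht' R' (Finset.mem_of_mem_erase hR')⟩) τ hτL
      apply mw_d2g_subset_cl
      exact ⟨R', Finset.mem_coe.2 hR', rfl⟩
    refine ⟨τ * σ₁, ?_⟩
    have hmul : ∀ R : Place K (laurentBaseChange K F_ℚ), arithmeticGalois F_ℚ (τ * σ₁) • R =
        arithmeticGalois F_ℚ τ • arithmeticGalois F_ℚ σ₁ • R := by
      intro R
      rw [map_mul, mul_smul]
    rw [← Finset.insert_erase hP, Finset.image_insert, hmul P, hτ, ← Finset.insert_erase hP']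
    congr 1
    ext R'
    constructor
    · intro hR'
      rw [Finset.mem_image] at hR'
      obtain ⟨R, hR, rfl⟩ := hR'
      have hmem : arithmeticGalois F_ℚ σ₁ • R ∈ s'.erase P' := by
        rw [← hσ₁]; exact Finset.mem_image_of_mem _ hR
      rw [hmul R, hτfix _ hmem]
      exact hmem
    · intro hR'
      have hR'' := hR'
      rw [← hσ₁, Finset.mem_image] at hR''
      obtain ⟨R, hR, hRR'⟩ := hR''
      rw [Finset.mem_image]
      refine ⟨R, hR, ?_⟩
      rw [hmul R, hRR', hτfix _ hR']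

end Fermat.Agent.MW
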