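/-
Project MW (S17), cell **[DIV2]**, leaf **[GEN]**, part 3 (helper19): THE GENERIC-POINT THEOREM.
`mw_d2g_gen`: [TORS] + [AUT-i] + [TRD] + [FIX] + [ORB] + [TRANS] + [NSP] ⟹ `mw_d2_SeamGEN K F_ℚ`:
every class of `Pic⁰(F_K)` fixed by `Aut(K/ℚ̄)` is divisible by `2`.  Prefix `mw_d2g_`.
-/
import Fermat.Agent.MW.Div2.GenTrans

set_option autoImplicit false
set_option linter.unusedSectionVars false
set_option linter.unusedVariables false

noncomputable section

namespace Fermat.Agent.MW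

open AlgebraicCurve ModularCurve Fermat.Agent.JT3 Fermat.Agent.FF Fermat.Agent.S24

section riemann

universe u v
variable {K : Type u} {F : Type v} [Field K] [Field F] [Algebra K F] [IsAlgClosed K]
  {x : F} (hx : rt_IsSepGen K x)

include hx in
/-- Riemann's inequality and Riemann's theorem with ONE genus -/
theorem mw_d2g_riemann_data :
    ∃ (g : ℕ) (c : ℤ),
      (∀ D : Divisor K F,
        Divisor.degree D + 1 - g ≤ (Module.finrank K (riemannRochSpace D) : ℤ)) ∧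
      (∀ D : Divisor K F, c ≤ Divisor.degree D →
        (Module.finrank K (riemannRochSpace D) : ℤ) = Divisor.degree D + 1 - g) := by
  obtain ⟨g, hg, A₀, hA₀⟩ := rt_exists_genus hx
  refine ⟨g, Divisor.degree A₀ + g, hg, fun D hD => ?_⟩
  apply le_antisymm _ (hg D)
  have h1 := hg (D - A₀)
  rw [map_sub] at h1
  have hpos : 0 < Module.finrank K ↥(riemannRochSpace (D - A₀)) := by
    have : (0 : ℤ) < (Module.finrank K ↥(riemannRochSpace (D - A₀)) : ℤ) := by linarith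
    exact_mod_cast this
  have hfinL := rt_L_finite hx (D - A₀)
  obtain ⟨⟨z, hzmem⟩, hz0'⟩ := Module.finrank_pos_iff_exists_ne_zero.mp hpos
  have hz0 : z ≠ 0 := fun h => hz0' (Subtype.ext h)
  set D' : Divisor K F := D + rt_div hx z with hD'
  have hle : A₀ ≤ D' := by
    rw [Finsupp.le_def]
    intro v
    have := (rt_mem_L_iff hz0).mp hzmem v
    rw [Finsupp.sub_apply] at this
    rw [hD', Finsupp.add_apply, rt_div_apply]
    omega
  have hdegD' : Divisor.degree D' = Divisor.degree D := by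
    rw [hD', map_add, rt_degree_div, add_zero]
  have hlD' : Module.finrank K ↥(riemannRochSpace D') =
      Module.finrank K ↥(riemannRochSpace D) := rt_finrank_L_add_div hx D hz0
  have h2 := rt_l_le_of_le hx hle
  rw [hlD', hdegD'] at h2
  linarith

end riemann

variable {K : Type} [Field K] [Algebra ℚ K] [IsAlgClosed K] [CharZero K]
  {F_ℚ : IntermediateField ℚ (LaurentSeries ℚ)} {x₀ : F_ℚ}

open Classical in
/-- existence of an independent generic set of any cardinality -/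
theorem mw_d2g_exists_genSet (hx : rt_IsSepGen K (mw_d2_bcQ K F_ℚ x₀)) (hAi : mw_d2_SeamAUTi K)
    (g : ℕ) : ∃ s : Finset (Place K (laurentBaseChange K F_ℚ)), s.card = g ∧
      mw_d2_IsGenSet F_ℚ x₀ s := by
  obtain ⟨t, hind⟩ := hAi g
  have hex : ∀ i : Fin g, ∃ P : Place K (laurentBaseChange K F_ℚ),
      mw_d2_IsZero F_ℚ x₀ P (t i) := fun i => ffg_exists_zero hx (t i)
  choose P hP using hex
  have hPinj : Function.Injective P := by
    intro i j hij
    have h1 := hP i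
    rw [hij] at h1
    exact hind.injective (mw_d2g_isZero_unique h1 (hP j))
  refine ⟨Finset.univ.image P, ?_, ?_⟩
  · rw [Finset.card_image_of_injective _ hPinj, Finset.card_univ, Fintype.card_fin]
  · let tv : Place K (laurentBaseChange K F_ℚ) → K := fun R =>
      if h : ∃ i, P i = R then t h.choose else 0
    have htv : ∀ i, tv (P i) = t i := by
      intro i
      have h : ∃ j, P j = P i := ⟨i, rfl⟩
      show (if h : ∃ j, P j = P i then t h.choose else 0) = t i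
      rw [dif_pos h, hPinj h.choose_spec]
    refine ⟨tv, ?_, ?_⟩
    · intro R hR
      obtain ⟨i, -, rfl⟩ := Finset.mem_image.mp hR
      rw [htv i]
      exact hP i
    · let e : Fin g ≃ (Finset.univ.image P : Finset _) :=
        Equiv.ofBijective (fun i => ⟨P i, Finset.mem_image_of_mem P (Finset.mem_univ i)⟩)
          ⟨fun i j hij => hPinj (congrArg Subtype.val hij), fun R => by
            obtain ⟨i, -, hi⟩ := Finset.mem_image.mp R.2
            exact ⟨i, Subtype.ext hi⟩⟩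
      rw [← algebraicIndependent_equiv e]
      have : (fun R : (Finset.univ.image P : Finset _) => tv (R : _)) ∘ e = t := by
        funext i
        exact htv i
      rw [this]
      exact hind

open Classical in
set_option maxHeartbeats 1000000 in
/-- **[GEN]**: Weil's generic-point argument. -/
theorem mw_d2g_gen (hx : rt_IsSepGen K (mw_d2_bcQ K F_ℚ x₀))
    (hnt : ∃ f : laurentBaseChange K F_ℚ, f ≠ 0 ∧ gd_ordVal F_ℚ f ≠ 0)
    (hT : mw_d2_SeamTORS K F_ℚ) (hAi : mw_d2_SeamAUTi K) (hTRD : mw_d2_SeamTRD K)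
    (hFIX : mw_d2_SeamFIX K F_ℚ x₀) (hORB : mw_d2_SeamORB K F_ℚ x₀)
    (hTRANS : mw_d2_SeamTRANS K F_ℚ x₀) (hNSP : mw_d2_SeamNSP K F_ℚ x₀) :
    mw_d2_SeamGEN K F_ℚ := by
  intro y hy
  obtain ⟨g, c, hI, hR⟩ := mw_d2g_riemann_data hx
  obtain ⟨s₀, hs₀, hgen₀⟩ := mw_d2g_exists_genSet hx hAi g
  set O := mw_d2_Pinf F_ℚ hnt with hO
  set η₀ := mw_d2g_class O g (ffg_sum s₀) with hη₀
  have hcomm : ∀ (σ : K ≃ₐ[ℚ] K) (z : Pic0 K (laurentBaseChange K F_ℚ)),
      σ • (2 • z) = 2 • (σ • z) := fun σ z => by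
    rw [two_nsmul, two_nsmul, smul_add]
  -- `2η₀` is generic
  obtain ⟨s₁, hs₁, hgen₁, h₁⟩ := mw_d2g_W2 hx hnt g c hI hR hT hTRD hFIX hORB hNSP s₀ hs₀ hgen₀
    (2 • η₀) (by
      intro σ _ hσ
      rw [nsmul_sub, ← hcomm, hσ, sub_self])
  -- `y - η₀` is generic
  obtain ⟨s₂, hs₂, hgen₂, h₂⟩ := mw_d2g_W2 hx hnt g c hI hR hT hTRD hFIX hORB hNSP s₀ hs₀ hgen₀
    (y - η₀) (by
      intro σ hσ hσy
      rw [smul_sub, hy σ hσ, sub_right_inj] at hσy
      rw [hσy, sub_self, nsmul_zero])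
  -- conjugacy
  have hconj : ∀ (s s' : Finset (Place K (laurentBaseChange K F_ℚ))) (σ : K ≃ₐ[ℚ] K),
      s.image (fun P => arithmeticGalois F_ℚ σ • P) = s' →
      σ • mw_d2g_class O g (ffg_sum s) = mw_d2g_class O g (ffg_sum s') := by
    intro s s' σ h
    rw [mw_d2g_gal_smul_class hnt σ g, mw_d2g_smul_ffg_sum, h]
  obtain ⟨σ₂, hσ₂⟩ := mw_d2g_trans_sets hx hFIX hTRANS g s₁ s₂ hs₁ hs₂ hgen₁ hgen₂
  obtain ⟨σ₀, hσ₀⟩ := mw_d2g_trans_sets hx hFIX hTRANS g s₁ s₀ hs₁ hs₀ hgen₁ hgen₀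
  have e₂ : y - η₀ = 2 • (σ₂ • η₀) := by
    rw [h₂, ← hconj s₁ s₂ σ₂ hσ₂, ← h₁, hcomm]
  have e₀ : η₀ = 2 • (σ₀ • η₀) := by
    conv_lhs => rw [hη₀, ← hconj s₁ s₀ σ₀ hσ₀, ← h₁, hcomm]
  refine ⟨σ₂ • η₀ + σ₀ • η₀, ?_⟩
  rw [nsmul_add, ← e₂, ← e₀, sub_add_cancel]

end Fermat.Agent.MW
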