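/-
Project MW (S17), cell **[DIV2]**, leaf **[RAT]** (helper3): rational places.  Prefix `mw_d2r_`.

`K` algebraically closed of characteristic `0`, `L ⊆ K` an algebraically closed subfield,
`H = Aut(K/L)` acting coefficientwise on `F_K = laurentBaseChange K F_ℚ` and on its places,
`x = mw_d2_bcQ K F_ℚ x₀` a separating generator with rational coefficients.

* `mw_d2r_orb : mw_d2_SeamORB K F_ℚ x₀` : a place with finite `H`-orbit is `L`-rational
  (the value `r` of `x` at `P` has a finite `H`-orbit, hence lies in `L`);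
* `mw_d2r_fix : mw_d2_SeamFIX K F_ℚ x₀` : `L`-rational places are fixed by `H`
  (the orbit is finite, hence every function of `F_L` regular at `P` has its value in `L`; by the
  Gauss argument `ord_P (∑ b_i · g_i) = min_i ord_P (g_i)` for `g_i ∈ F_L` and `(b_i)` an
  `L`-basis of `K`, so that `P` is determined by its restriction to `F_L`, which is `H`-stable).
-/
import Mathlib
import Fermat.Agent.MW.Div2.Seams

set_option autoImplicit false
set_option linter.unusedSectionVars false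

noncomputable section

namespace Fermat.Agent.MW

open AlgebraicCurve ModularCurve Fermat.Agent.JT3 Fermat.Agent.S24 IntermediateField

/-! ### Generalities on the valuation of a place -/

section val

variable {K F : Type*} [Field K] [Field F] [Algebra K F] (v : Place K F)

theorem mw_d2r_val_le_one_iff (f : F) : v.adicValuation f ≤ 1 ↔ f ∈ v.toValuationSubring := by
  rcases eq_or_ne f 0 with rfl | hf
  · simp
  · rw [hw_mem_iff_ord_nonneg v hf, hw_adicValuation_eq_exp v hf, ← WithZero.exp_zero,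
      WithZero.exp_le_exp]
    omega

theorem mw_d2r_val_lt_one_iff (f : F) : v.adicValuation f < 1 ↔ f = 0 ∨ 0 < v.ord f := by
  rcases eq_or_ne f 0 with rfl | hf
  · simp
  · rw [hw_adicValuation_eq_exp v hf, ← WithZero.exp_zero, WithZero.exp_lt_exp]
    constructor
    · intro h; right; omega
    · rintro (h | h)
      · exact absurd h hf
      · omega

theorem mw_d2r_val_const {c : K} (hc : c ≠ 0) : v.adicValuation (algebraMap K F c) = 1 := by
  have h0 : algebraMap K F c ≠ 0 := by simpa using hc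
  rw [hw_adicValuation_eq_exp v h0, hw_ord_algebraMap, neg_zero, WithZero.exp_zero]

theorem mw_d2r_val_const_le (c : K) : v.adicValuation (algebraMap K F c) ≤ 1 :=
  (mw_d2r_val_le_one_iff v _).mpr (v.algebraMap_mem' c)

theorem mw_d2r_val_smul (g : SemilinearAut K F) (f : F) :
    (g • v).adicValuation (g • f) = v.adicValuation f := by
  rcases eq_or_ne f 0 with rfl | hf
  · simp
  · have hgf : g • f ≠ 0 := by simpa using hf
    rw [hw_adicValuation_eq_exp _ hgf, hw_adicValuation_eq_exp v hf, SemilinearAut.ord_smul]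

theorem mw_d2r_place_ext {v w : Place K F}
    (h : ∀ f : F, v.adicValuation f = w.adicValuation f) : v = w := by
  apply Place.ext
  ext f
  rw [← mw_d2r_val_le_one_iff, ← mw_d2r_val_le_one_iff, h]

/-- a place is a zero of `u - c` for at most one constant `c` -/
theorem mw_d2r_value_unique (u : F) {c c' : K} (h : 0 < v.ord (u - algebraMap K F c))
    (h' : 0 < v.ord (u - algebraMap K F c')) : c = c' := by
  by_contra hcc
  have hne : u - algebraMap K F c ≠ 0 := by
    intro h0; rw [h0, Place.ord_zero] at h; exact lt_irrefl _ h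
  have hne' : u - algebraMap K F c' ≠ 0 := by
    intro h0; rw [h0, Place.ord_zero] at h'; exact lt_irrefl _ h'
  have hdiff : (u - algebraMap K F c) + -(u - algebraMap K F c') = algebraMap K F (c' - c) := by
    rw [map_sub]; ring
  have hcc' : algebraMap K F (c' - c) ≠ 0 := by
    rw [Ne, map_eq_zero, sub_eq_zero]; exact fun h => hcc h.symm
  have h2 := hw_ord_add_ge v hne (neg_ne_zero.mpr hne') (by rw [hdiff]; exact hcc')
  rw [hdiff, hw_ord_algebraMap, hw_ord_neg] at h2
  rcases min_le_iff.mp h2 with h3 | h3 <;> omega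

end val

/-! ### Values at a place with finite orbit -/

section orbit

variable {K F : Type*} [Field K] [Field F] [Algebra K F]

/-- the value of an invariant function at a place with finite orbit has a finite orbit -/
theorem mw_d2r_value_orbit_finite {G : Type*} (act : G → SemilinearAut K F) (P : Place K F)
    (hfin : (Set.range fun σ : G => act σ • P).Finite) (u : F) (hu : ∀ σ, act σ • u = u) {r : K}
    (hr : u = algebraMap K F r ∨ 0 < P.ord (u - algebraMap K F r)) :
    (Set.range fun σ : G => SemilinearAut.baseAut (act σ) r).Finite := by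
  classical
  rcases hr with hr | hr
  · -- `u` is the constant `r`, which is then invariant
    refine (Set.finite_singleton r).subset ?_
    rintro _ ⟨σ, rfl⟩
    have h1 := hu σ
    rw [hr, SemilinearAut.smul_algebraMap] at h1
    exact (algebraMap K F).injective h1
  · let val : Place K F → K := fun Q =>
      if h : ∃ c : K, 0 < Q.ord (u - algebraMap K F c) then h.choose else 0
    refine (hfin.image val).subset ?_
    rintro _ ⟨σ, rfl⟩
    refine ⟨act σ • P, ⟨σ, rfl⟩, ?_⟩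
    have h1 : 0 < (act σ • P).ord (u - algebraMap K F (SemilinearAut.baseAut (act σ) r)) := by
      have h2 : act σ • (u - algebraMap K F r) =
          u - algebraMap K F (SemilinearAut.baseAut (act σ) r) := by
        rw [smul_sub, hu σ, SemilinearAut.smul_algebraMap]
      rw [← h2, SemilinearAut.ord_smul]
      exact hr
    have hex : ∃ c : K, 0 < (act σ • P).ord (u - algebraMap K F c) := ⟨_, h1⟩
    show (if h : ∃ c : K, 0 < (act σ • P).ord (u - algebraMap K F c) then h.choose else 0) = _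
    rw [dif_pos hex]
    exact mw_d2r_value_unique _ u hex.choose_spec h1

end orbit

/-! ### The abstract Gauss argument -/

section gauss

variable {K₀ K F₀ F : Type*} [Field K₀] [Field K] [Algebra K₀ K] [Field F₀] [Field F]
  [Algebra K F] (bc : F₀ →+* F) {I : Type*} (b : Module.Basis I K₀ K)

/-- `∑ b_i · bc (g_i)` -/
def mw_d2r_S (g : I →₀ F₀) : F := ∑ i ∈ g.support, algebraMap K F (b i) * bc (g i)

/-- every function coming from `F₀` which is regular at `P` has its value in `K₀` -/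
def mw_d2r_PB (P : Place K F) : Prop :=
  ∀ u₀ : F₀, P.adicValuation (bc u₀) ≤ 1 →
    ∃ l : K₀, P.adicValuation (bc u₀ - algebraMap K F (algebraMap K₀ K l)) < 1

theorem mw_d2r_gauss (P : Place K F) (hPB : mw_d2r_PB (K₀ := K₀) bc P) (g : I →₀ F₀)
    (hg : g ≠ 0) :
    ∃ i₀ ∈ g.support,
      (∀ i ∈ g.support, P.adicValuation (bc (g i)) ≤ P.adicValuation (bc (g i₀))) ∧
      P.adicValuation (mw_d2r_S bc b g) = P.adicValuation (bc (g i₀)) := by
  classical
  obtain ⟨i₀, hi₀, hmax⟩ := Finset.exists_max_image g.support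
    (fun i => P.adicValuation (bc (g i))) (Finsupp.support_nonempty_iff.mpr hg)
  refine ⟨i₀, hi₀, hmax, ?_⟩
  have hd0 : g i₀ ≠ 0 := Finsupp.mem_support_iff.mp hi₀
  have hd : bc (g i₀) ≠ 0 := (map_ne_zero bc).mpr hd0
  have hwd : P.adicValuation (bc (g i₀)) ≠ 0 := (Valuation.ne_zero_iff _).mpr hd
  -- the normalised coordinates are regular at `P`
  have hu : ∀ i ∈ g.support, P.adicValuation (bc (g i / g i₀)) ≤ 1 := by
    intro i hi
    rw [map_div₀, map_div₀]
    exact (div_le_one₀ (zero_lt_iff.mpr hwd)).mpr (hmax i hi)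
  have hex : ∀ i, ∃ l : K₀, i ∈ g.support →
      P.adicValuation (bc (g i / g i₀) - algebraMap K F (algebraMap K₀ K l)) < 1 := by
    intro i
    by_cases hi : i ∈ g.support
    · obtain ⟨l, hl⟩ := hPB _ (hu i hi)
      exact ⟨l, fun _ => hl⟩
    · exact ⟨0, fun h => absurd h hi⟩
  choose l hl using hex
  -- the constant term
  set ρ : K := ∑ i ∈ g.support, l i • b i with hρ
  have hl0 : l i₀ ≠ 0 := by
    intro h0
    have h1 := hl i₀ hi₀
    rw [h0, map_zero, map_zero, sub_zero, div_self hd0, map_one, map_one] at h1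
    exact lt_irrefl _ h1
  have hρ0 : ρ ≠ 0 := by
    intro h0
    apply hl0
    rw [← gd_repr_sum_smul b g.support l i₀ hi₀, ← hρ, h0, map_zero, Finsupp.zero_apply]
  -- the decomposition
  have hkey : mw_d2r_S bc b g = bc (g i₀) * (algebraMap K F ρ + ∑ i ∈ g.support,
      algebraMap K F (b i) * (bc (g i / g i₀) - algebraMap K F (algebraMap K₀ K (l i)))) := by
    rw [mw_d2r_S, hρ, map_sum, ← Finset.sum_add_distrib, Finset.mul_sum]
    refine Finset.sum_congr rfl fun i _ => ?_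
    rw [Algebra.smul_def, map_mul, map_div₀]
    field_simp
    ring
  have hrest : P.adicValuation (∑ i ∈ g.support,
      algebraMap K F (b i) * (bc (g i / g i₀) - algebraMap K F (algebraMap K₀ K (l i)))) < 1 := by
    refine Valuation.map_sum_lt _ one_ne_zero fun i hi => ?_
    rw [map_mul]
    calc P.adicValuation (algebraMap K F (b i)) *
          P.adicValuation (bc (g i / g i₀) - algebraMap K F (algebraMap K₀ K (l i)))
        ≤ 1 * P.adicValuation (bc (g i / g i₀) - algebraMap K F (algebraMap K₀ K (l i))) :=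
          mul_le_mul_left (mw_d2r_val_const_le P _) _
      _ < 1 := by rw [one_mul]; exact hl i hi
  rw [hkey, map_mul, Valuation.map_add_eq_of_lt_left, mw_d2r_val_const P hρ0, mul_one]
  rw [mw_d2r_val_const P hρ0]
  exact hrest

/-- two places with the same restriction to `F₀` and with `K₀`-rational values agree on the
span -/
theorem mw_d2r_gauss_eq (P Q : Place K F) (hP : mw_d2r_PB (K₀ := K₀) bc P)
    (hQ : mw_d2r_PB (K₀ := K₀) bc Q)
    (hPQ : ∀ u₀ : F₀, P.adicValuation (bc u₀) = Q.adicValuation (bc u₀)) (g : I →₀ F₀) :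
    P.adicValuation (mw_d2r_S bc b g) = Q.adicValuation (mw_d2r_S bc b g) := by
  rcases eq_or_ne g 0 with rfl | hg
  · simp [mw_d2r_S]
  obtain ⟨i₀, hi₀, hmax, h1⟩ := mw_d2r_gauss bc b P hP g hg
  obtain ⟨j₀, hj₀, hmax', h2⟩ := mw_d2r_gauss bc b Q hQ g hg
  rw [h1, h2]
  apply le_antisymm
  · rw [hPQ]; exact hmax' i₀ hi₀
  · rw [← hPQ]; exact hmax j₀ hj₀

/-- **a place with `K₀`-rational values is determined by its restriction to `F₀`** -/
theorem mw_d2r_place_eq (P Q : Place K F) (hP : mw_d2r_PB (K₀ := K₀) bc P)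
    (hQ : mw_d2r_PB (K₀ := K₀) bc Q)
    (hPQ : ∀ u₀ : F₀, P.adicValuation (bc u₀) = Q.adicValuation (bc u₀))
    (hquot : ∀ f : F, ∃ g g' : I →₀ F₀, mw_d2r_S bc b g' ≠ 0 ∧
      f * mw_d2r_S bc b g' = mw_d2r_S bc b g) : P = Q := by
  apply mw_d2r_place_ext
  intro f
  obtain ⟨g, g', hg'0, hfg⟩ := hquot f
  have h1 := mw_d2r_gauss_eq bc b P Q hP hQ hPQ g
  have h2 := mw_d2r_gauss_eq bc b P Q hP hQ hPQ g'
  rw [← hfg, map_mul, map_mul, h2] at h1
  exact mul_right_cancel₀ ((Valuation.ne_zero_iff _).mpr hg'0) h1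

end gauss

/-! ### The Laurent model -/

section concrete

variable {K : Type} [Field K] [Algebra ℚ K] (F_ℚ : IntermediateField ℚ (LaurentSeries ℚ))
  (x₀ : F_ℚ) (L : IntermediateField ℚ K)

/-- the functions of `F_L` are fixed by `Aut(K/L)` -/
theorem mw_d2r_act_bc (σ : K ≃ₐ[ℚ] K) (hσ : σ ∈ L.fixingSubgroup)
    (u₀ : laurentBaseChange L F_ℚ) :
    arithmeticGalois F_ℚ σ • mw_d2_bc (K₀ := L) (K := K) F_ℚ u₀ = mw_d2_bc F_ℚ u₀ := by
  apply Subtype.ext
  rw [coe_arithmeticGalois_smul, mw_d2_bc_coe, coeffMap_coeffMap]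
  exact coeffMap_congr (RingHom.ext fun c => hσ c) _

/-- an element of `K` with finite orbit under `Aut(K/L)` lies in `L` -/
theorem mw_d2r_mem_of_finite_orbit [IsAlgClosed K] [CharZero K] [IsAlgClosed L] {r : K}
    (h : (Set.range fun σ : L.fixingSubgroup => (σ : K ≃ₐ[ℚ] K) r).Finite) : r ∈ L := by
  have h1 : (Set.range fun τ : K ≃ₐ[L] K => τ r).Finite := by
    refine h.subset ?_
    rintro _ ⟨τ, rfl⟩
    exact ⟨⟨τ.restrictScalars ℚ, τ.commutes⟩, rfl⟩
  obtain ⟨c, hc⟩ := gd_mem_range_of_finite_orbit h1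
  rw [← hc]
  exact c.2

/-- conjugates of poles are poles -/
theorem mw_d2r_pole_smul {P : Place K (laurentBaseChange K F_ℚ)}
    (hP : P.ord (mw_d2_bcQ K F_ℚ x₀) < 0) (σ : K ≃ₐ[ℚ] K) :
    (arithmeticGalois F_ℚ σ • P).ord (mw_d2_bcQ K F_ℚ x₀) < 0 := by
  rw [← mw_d2_act_bcQ F_ℚ σ x₀, SemilinearAut.ord_smul]
  exact hP

/-- conjugates of zeros of `x - c`, `c ∈ L`, are zeros of `x - c` -/
theorem mw_d2r_zero_smul {P : Place K (laurentBaseChange K F_ℚ)} {c : K} (hc : c ∈ L)
    (hP : mw_d2_IsZero F_ℚ x₀ P c) (σ : K ≃ₐ[ℚ] K) (hσ : σ ∈ L.fixingSubgroup) :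
    mw_d2_IsZero F_ℚ x₀ (arithmeticGalois F_ℚ σ • P) c := by
  have h2 : arithmeticGalois F_ℚ σ •
      (mw_d2_bcQ K F_ℚ x₀ - algebraMap K (laurentBaseChange K F_ℚ) c) =
      mw_d2_bcQ K F_ℚ x₀ - algebraMap K (laurentBaseChange K F_ℚ) c := by
    rw [smul_sub, mw_d2_act_bcQ, SemilinearAut.smul_algebraMap, baseAut_arithmeticGalois]
    congr 2
    exact hσ ⟨c, hc⟩
  unfold mw_d2_IsZero
  rw [← h2, SemilinearAut.ord_smul]
  exact hP

/-- conjugates of `L`-rational places are `L`-rational -/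
theorem mw_d2r_isRat_smul {P : Place K (laurentBaseChange K F_ℚ)}
    (hP : mw_d2_IsRat F_ℚ x₀ L P) (σ : K ≃ₐ[ℚ] K) (hσ : σ ∈ L.fixingSubgroup) :
    mw_d2_IsRat F_ℚ x₀ L (arithmeticGalois F_ℚ σ • P) := by
  rcases hP with hP | ⟨c, hc, hP⟩
  · exact Or.inl (mw_d2r_pole_smul F_ℚ x₀ hP σ)
  · exact Or.inr ⟨c, hc, mw_d2r_zero_smul F_ℚ x₀ L hc hP σ hσ⟩

variable [IsAlgClosed K] [CharZero K]

/-- the orbit of an `L`-rational place is finite -/
theorem mw_d2r_orbit_finite (hx : rt_IsSepGen K (mw_d2_bcQ K F_ℚ x₀))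
    {P : Place K (laurentBaseChange K F_ℚ)} (hP : mw_d2_IsRat F_ℚ x₀ L P) :
    (Set.range fun σ : L.fixingSubgroup =>
      arithmeticGalois F_ℚ (σ : K ≃ₐ[ℚ] K) • P).Finite := by
  have := hx.2.1
  rcases hP with hP | ⟨c, hc, hP⟩
  · refine (hw_finite_poles hx.1).subset ?_
    rintro _ ⟨σ, rfl⟩
    exact mw_d2r_pole_smul F_ℚ x₀ hP σ
  · refine (hw_finite_fiber hx.1 c).subset ?_
    rintro _ ⟨σ, rfl⟩
    exact mw_d2r_zero_smul F_ℚ x₀ L hc hP σ σ.2

/-- at a place with finite orbit, the functions of `F_L` have their values in `L` -/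
theorem mw_d2r_PB_of_finite [IsAlgClosed L] (hx : rt_IsSepGen K (mw_d2_bcQ K F_ℚ x₀))
    (P : Place K (laurentBaseChange K F_ℚ))
    (hfin : (Set.range fun σ : L.fixingSubgroup =>
      arithmeticGalois F_ℚ (σ : K ≃ₐ[ℚ] K) • P).Finite) :
    mw_d2r_PB (K₀ := L) (mw_d2_bc (K₀ := L) (K := K) F_ℚ) P := by
  intro u₀ hu
  have hmem := (mw_d2r_val_le_one_iff P _).mp hu
  have := hx.isAlgebraic
  obtain ⟨r, hr⟩ := hw_exists_const (mw_d2_bcQ K F_ℚ x₀) P hmem
  have h1 := mw_d2r_value_orbit_finite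
    (fun σ : L.fixingSubgroup => arithmeticGalois F_ℚ (σ : K ≃ₐ[ℚ] K)) P hfin
    (mw_d2_bc F_ℚ u₀) (fun σ => mw_d2r_act_bc F_ℚ L σ σ.2 u₀) hr
  have hrL : r ∈ L := mw_d2r_mem_of_finite_orbit L h1
  refine ⟨⟨r, hrL⟩, ?_⟩
  rw [mw_d2r_val_lt_one_iff]
  rcases hr with hr | hr
  · left
    rw [hr]
    exact sub_self _
  · right
    exact hr

/-- **[ORB]** a place with finite `Aut(K/L)`-orbit is `L`-rational. -/
theorem mw_d2r_orb : mw_d2_SeamORB K F_ℚ x₀ := by
  intro hx L _ P hfin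
  by_cases hpole : P.ord (mw_d2_bcQ K F_ℚ x₀) < 0
  · exact Or.inl hpole
  right
  have hx0 : mw_d2_bcQ K F_ℚ x₀ ≠ 0 := by
    intro h0
    apply hx.1
    rw [h0]
    exact isAlgebraic_zero
  have hmem : mw_d2_bcQ K F_ℚ x₀ ∈ P.toValuationSubring :=
    (hw_mem_iff_ord_nonneg P hx0).mpr (not_lt.mp hpole)
  have := hx.isAlgebraic
  obtain ⟨r, hr⟩ := hw_exists_const (mw_d2_bcQ K F_ℚ x₀) P hmem
  have h1 := mw_d2r_value_orbit_finite
    (fun σ : L.fixingSubgroup => arithmeticGalois F_ℚ (σ : K ≃ₐ[ℚ] K)) P hfin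
    (mw_d2_bcQ K F_ℚ x₀) (fun σ => mw_d2_act_bcQ F_ℚ (σ : K ≃ₐ[ℚ] K) x₀) hr
  have hrL : r ∈ L := mw_d2r_mem_of_finite_orbit L h1
  rcases hr with hr | hr
  · exfalso
    apply hx.1
    rw [hr]
    exact isAlgebraic_algebraMap r
  · exact ⟨r, hrL, hr⟩

/-- the sums `∑ b_i · bc (g_i)` are the series `gd_Psi` -/
theorem mw_d2r_S_coe {I : Type*} (b : Module.Basis I L K)
    (g : I →₀ laurentBaseChange L F_ℚ) :
    ((mw_d2r_S (mw_d2_bc (K₀ := L) (K := K) F_ℚ) b g : laurentBaseChange K F_ℚ) : LaurentSeries K) =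
      gd_Psi F_ℚ b g := by
  rw [mw_d2r_S, gd_Psi_apply, Finsupp.sum, AddSubmonoidClass.coe_finsetSum]
  refine Finset.sum_congr rfl fun i _ => ?_
  rw [MulMemClass.coe_mul, mw_d2_bc_coe, HahnSeries.C_apply]
  congr 1
  exact algebraMap_laurentSeries_eq_single (L := K) (b i)

/-- every function is a quotient of sums `∑ b_i · bc (g_i)` -/
theorem mw_d2r_quot {I : Type*} (b : Module.Basis I L K) (f : laurentBaseChange K F_ℚ) :
    ∃ g g' : I →₀ laurentBaseChange L F_ℚ, mw_d2r_S (mw_d2_bc (K₀ := L) (K := K) F_ℚ) b g' ≠ 0 ∧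
      f * mw_d2r_S (mw_d2_bc (K₀ := L) (K := K) F_ℚ) b g' = mw_d2r_S (mw_d2_bc (K₀ := L) (K := K) F_ℚ) b g := by
  obtain ⟨a, ha, a', ha', ha'0, hfa⟩ := gd_exists_quot (K₀ := L) F_ℚ f.2
  obtain ⟨g, hg⟩ := gd_exists_Psi F_ℚ b ha
  obtain ⟨g', hg'⟩ := gd_exists_Psi F_ℚ b ha'
  refine ⟨g, g', ?_, ?_⟩
  · intro h0
    apply ha'0
    rw [← hg', ← mw_d2r_S_coe, h0]
    rfl
  · apply Subtype.ext
    rw [MulMemClass.coe_mul, mw_d2r_S_coe, mw_d2r_S_coe, hg, hg', hfa]

/-- **[FIX]** `L`-rational places are fixed by `Aut(K/L)`. -/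
theorem mw_d2r_fix : mw_d2_SeamFIX K F_ℚ x₀ := by
  intro hx L _ P hP σ hσ
  have hfinP := mw_d2r_orbit_finite F_ℚ x₀ L hx hP
  have hfinQ := mw_d2r_orbit_finite F_ℚ x₀ L hx (mw_d2r_isRat_smul F_ℚ x₀ L hP σ hσ)
  refine (mw_d2r_place_eq (mw_d2_bc (K₀ := L) (K := K) F_ℚ) (Module.Basis.ofVectorSpace L K) P
    (arithmeticGalois F_ℚ σ • P) (mw_d2r_PB_of_finite F_ℚ x₀ L hx P hfinP)
    (mw_d2r_PB_of_finite F_ℚ x₀ L hx _ hfinQ) ?_ ?_).symm
  · intro u₀
    rw [← mw_d2r_val_smul P (arithmeticGalois F_ℚ σ), mw_d2r_act_bc F_ℚ L σ hσ]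
  · exact mw_d2r_quot F_ℚ L _

end concrete

end Fermat.Agent.MW
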