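/-
Project MW (S17), cell **[DIV2]** (helper19): the cell with every landed leaf plugged in.
`mw_div2_of_leaves N hTRANS hNSP hDEG hLINK hDESC : mw_SeamDiv2 N`: the only open inputs are
the four leaves [TRANS], [NSP], [EXT] (DEG + LINK) and [DESC], at `K₀ = Q̄ ⊆ K = ℂ`,
`F_ℚ = modularFunctionFieldFull N`, `x₀ = j`.
-/
import Fermat.Agent.MW.Div2.Assembly
import Fermat.Agent.MW.Div2.GenMain
import Fermat.Agent.MW.Div2.Aut
import Fermat.Agent.MW.Div2.Rat
import Fermat.Agent.MW.Div2.Tors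

set_option autoImplicit false
set_option linter.unusedSectionVars false

noncomputable section

namespace Fermat.Agent.MW

open AlgebraicCurve ModularCurve Fermat.Agent.JT3 Fermat.Agent.S24 Fermat.Agent.FF

open Fermat.Agent.S24.Br

variable (N : ℕ) [NeZero N]

/-- **[GEN]** over `ℂ` from [TRANS] and [NSP]. -/
theorem mw_div2_gen
    (hTRANS : mw_d2_SeamTRANS ℂ (modularFunctionFieldFull N) (mw_d2asm_x0 N))
    (hNSP : mw_d2_SeamNSP ℂ (modularFunctionFieldFull N) (mw_d2asm_x0 N)) :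
    mw_d2_SeamGEN ℂ (modularFunctionFieldFull N) :=
  mw_d2g_gen (x₀ := mw_d2asm_x0 N) (mw_d2asm_isSepGen_C N) (gd_nontrivial N) (mw_d2tors N)
    mw_d2a_autI (mw_d2a_trd ℂ) (mw_d2r_fix (modularFunctionFieldFull N) (mw_d2asm_x0 N))
    (mw_d2r_orb (modularFunctionFieldFull N) (mw_d2asm_x0 N)) hTRANS hNSP

/-- the cell **[DIV2]** from its four open leaves. -/
theorem mw_div2_of_leaves
    (hTRANS : mw_d2_SeamTRANS ℂ (modularFunctionFieldFull N) (mw_d2asm_x0 N))
    (hNSP : mw_d2_SeamNSP ℂ (modularFunctionFieldFull N) (mw_d2asm_x0 N))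
    (hDEG : mw_d2_SeamDEG (AlgebraicClosure ℚ) ℂ (modularFunctionFieldFull N) (gd_res_bar N))
    (hLINK : mw_d2_SeamLINK (AlgebraicClosure ℚ) ℂ (modularFunctionFieldFull N) (gd_res_bar N))
    (hDESC : mw_d2_SeamDESC (AlgebraicClosure ℚ) ℂ (modularFunctionFieldFull N) (gd_res_bar N)) :
    mw_SeamDiv2 N :=
  mw_d2asm N hDEG hLINK hDESC (mw_div2_gen N hTRANS hNSP)

end Fermat.Agent.MW
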