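/-
Project MW (S17), cell **[DIV2]**, leaf **[NSP]** (helper3): independent generic points are
non-special.  Prefix `mw_d2n_`.

`s = {P₁, …, P_k}`, `k ≤ g`, zeros of `x - t_i` with `(t_i)` algebraically independent over `ℚ`.
Induction on `k`: `s = insert P s'`, `L := cl (t(s'))`; `Aut(K/L)` fixes the points of `s'`
(**[FIX]**), hence `D' = ∑_{Q ∈ s'} Q`; `t_P ∉ L`, so `P` is not `L`-rational and has an infinite
`Aut(K/L)`-orbit (**[ORB]**); the finite set of jump places of `D'` (`ffg_finite_jump`,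
`l(D') = 1 > deg D' + 1 - g`) is `Aut(K/L)`-stable (`l(σD) = l(D)`), so `P` is not a jump place:
`l(D' + P) = l(D') = 1`.
-/
import Mathlib
import Fermat.Agent.MW.Div2.Rat

set_option autoImplicit false
set_option linter.unusedSectionVars false

noncomputable section

namespace Fermat.Agent.MW

open AlgebraicCurve ModularCurve Fermat.Agent.JT3 Fermat.Agent.S24 Fermat.Agent.FF
  IntermediateField

/-! ### Semilinear automorphisms and Riemann–Roch spaces -/

section generic

variable {K F : Type*} [Field K] [Field F] [Algebra K F]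

theorem mw_d2n_smul_mem_L (g : SemilinearAut K F) (D : Divisor K F) {f : F}
    (hf : f ∈ riemannRochSpace D) : g • f ∈ riemannRochSpace (g • D) := by
  rw [mem_riemannRochSpace_iff] at hf ⊢
  intro w
  rcases hf (g⁻¹ • w) with h | h
  · left
    rw [h, smul_zero]
  · right
    rw [SemilinearAut.divisor_smul_apply]
    have h1 := SemilinearAut.ord_smul g (g⁻¹ • w) f
    rw [smul_inv_smul] at h1
    rw [h1]
    exact h

/-- `f ↦ g • f`, an additive bijection `L(D) ≃ L(g • D)` -/
def mw_d2n_LEquiv (g : SemilinearAut K F) (D : Divisor K F) :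
    riemannRochSpace D ≃+ riemannRochSpace (g • D) where
  toFun f := ⟨g • (f : F), mw_d2n_smul_mem_L g D f.2⟩
  invFun h := ⟨g⁻¹ • (h : F), by
    have h1 := mw_d2n_smul_mem_L g⁻¹ (g • D) h.2
    rwa [inv_smul_smul] at h1⟩
  left_inv f := Subtype.ext (inv_smul_smul g (f : F))
  right_inv h := Subtype.ext (smul_inv_smul g (h : F))
  map_add' f f' := Subtype.ext (smul_add g (f : F) (f' : F))

/-- `l(g • D) = l(D)` -/
theorem mw_d2n_finrank_smul (g : SemilinearAut K F) (D : Divisor K F) :
    Module.finrank K (riemannRochSpace (g • D)) = Module.finrank K (riemannRochSpace D) := by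
  have h := rank_eq_of_equiv_equiv (SemilinearAut.baseAut g) (mw_d2n_LEquiv g D)
    (SemilinearAut.baseAut g).bijective (fun r m => Subtype.ext (by
      show g • ((r • m : riemannRochSpace D) : F) = SemilinearAut.baseAut g r • (g • (m : F))
      rw [Submodule.coe_smul, Algebra.smul_def, Algebra.smul_def, smul_mul',
        SemilinearAut.smul_algebraMap]))
  exact (congrArg Cardinal.toNat h).symm

theorem mw_d2n_smul_sum [DecidableEq (Place K F)] (g : SemilinearAut K F)
    (s : Finset (Place K F)) (h : ∀ Q ∈ s, g • Q = Q) : g • ffg_sum s = ffg_sum s := by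
  rw [ffg_sum, Finset.smul_sum]
  refine Finset.sum_congr rfl fun Q hQ => ?_
  rw [SemilinearAut.smul_single, h Q hQ]

/-- a zero of `u - c` is not a pole of `u` -/
theorem mw_d2n_ord_nonneg_of_zero (v : Place K F) (u : F) (c : K)
    (h : 0 < v.ord (u - algebraMap K F c)) : 0 ≤ v.ord u := by
  rcases eq_or_ne u 0 with rfl | hu
  · simp
  rw [← hw_mem_iff_ord_nonneg v hu, ← mw_d2r_val_le_one_iff]
  have h1 : v.adicValuation (u - algebraMap K F c) < 1 :=
    (mw_d2r_val_lt_one_iff v _).mpr (Or.inr h)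
  have h2 := mw_d2r_val_const_le v c
  have h3 : u = (u - algebraMap K F c) + algebraMap K F c := by ring
  rw [h3]
  exact (Valuation.map_add _ _ _).trans (max_le h1.le h2)

end generic

/-! ### The Laurent model -/

section main

variable {K : Type} [Field K] [Algebra ℚ K] [IsAlgClosed K] [CharZero K]
  (F_ℚ : IntermediateField ℚ (LaurentSeries ℚ)) (x₀ : F_ℚ)

set_option maxHeartbeats 400000 in
/-- the inductive step: a place with infinite `Aut(K/L)`-orbit is not a jump place of a divisor
`∑_{Q ∈ s'} Q` fixed by `Aut(K/L)` with `l = 1` and `#s' < g` -/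
theorem mw_d2n_step {x : laurentBaseChange K F_ℚ} (hx : rt_IsSepGen K x) (g : ℕ) (c : ℤ)
    (hR : ∀ D : Divisor K (laurentBaseChange K F_ℚ), c ≤ Divisor.degree D →
      (Module.finrank K (riemannRochSpace D) : ℤ) = Divisor.degree D + 1 - g)
    (s' : Finset (Place K (laurentBaseChange K F_ℚ))) (P : Place K (laurentBaseChange K F_ℚ))
    (L : IntermediateField ℚ K)
    (hfix : ∀ σ ∈ L.fixingSubgroup, ∀ Q ∈ s', arithmeticGalois (L := K) F_ℚ σ • Q = Q)
    (hinf : ¬ (Set.range fun σ : L.fixingSubgroup =>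
      arithmeticGalois (L := K) F_ℚ (σ : K ≃ₐ[ℚ] K) • P).Finite)
    (h1 : Module.finrank K (riemannRochSpace (ffg_sum s')) = 1) (hcard : s'.card + 1 ≤ g) :
    Module.finrank K (riemannRochSpace (ffg_sum s' + Finsupp.single P 1)) = 1 := by
  classical
  have hdeg : Divisor.degree (ffg_sum s') + 1 - (g : ℤ) <
      (Module.finrank K (riemannRochSpace (ffg_sum s')) : ℤ) := by
    rw [ffg_degree_sum hx, h1]
    push_cast
    omega
  have hjump := ffg_finite_jump hx g c hR (ffg_sum s') hdeg
  by_contra hne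
  apply hinf
  refine hjump.subset ?_
  rintro _ ⟨σ, rfl⟩
  have hσD : arithmeticGalois (L := K) F_ℚ (σ : K ≃ₐ[ℚ] K) • ffg_sum s' = ffg_sum s' :=
    mw_d2n_smul_sum _ s' (hfix σ σ.2)
  have h4 : arithmeticGalois (L := K) F_ℚ (σ : K ≃ₐ[ℚ] K) • (ffg_sum s' + Finsupp.single P 1) =
      ffg_sum s' + Finsupp.single (arithmeticGalois (L := K) F_ℚ (σ : K ≃ₐ[ℚ] K) • P) 1 := by
    rw [smul_add, hσD, SemilinearAut.smul_single]
  show Module.finrank K (riemannRochSpace (ffg_sum s' +
    Finsupp.single (arithmeticGalois (L := K) F_ℚ (σ : K ≃ₐ[ℚ] K) • P) 1)) ≠ _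
  rw [← h4, mw_d2n_finrank_smul, h1]
  exact hne

set_option maxHeartbeats 400000 in
/-- **[NSP]** from **[FIX]** and **[ORB]** -/
theorem mw_d2n_nsp_of (hFIX : mw_d2_SeamFIX K F_ℚ x₀) (hORB : mw_d2_SeamORB K F_ℚ x₀) :
    mw_d2_SeamNSP K F_ℚ x₀ := by
  classical
  intro hx g c hR s
  induction s using Finset.induction_on with
  | empty =>
      intro _ _
      rw [ffg_sum_empty]
      exact rt_finrank_L_zero hx
  | insert P s' hP ih =>
      intro hcard hgen
      rw [Finset.card_insert_of_notMem hP] at hcard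
      obtain ⟨t, ht0, htind⟩ := hgen
      have hgen' : mw_d2_IsGenSet F_ℚ x₀ s' :=
        ⟨t, fun Q hQ => ht0 Q (Finset.mem_insert_of_mem hQ),
          htind.comp (fun Q : s' => (⟨Q, Finset.mem_insert_of_mem Q.2⟩ : ↥(insert P s')))
            (fun Q Q' h => Subtype.ext (Subtype.mk.inj h))⟩
      have h1 := ih (by omega) hgen'
      set L : IntermediateField ℚ K :=
        mw_d2_cl (t '' (s' : Set (Place K (laurentBaseChange K F_ℚ)))) with hL
      -- the points of `s'` are `L`-rational, hence fixed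
      have htL : ∀ Q ∈ s', t Q ∈ L := by
        intro Q hQ
        rw [hL, mw_d2_mem_cl]
        exact isAlgebraic_algebraMap
          (⟨t Q, IntermediateField.subset_adjoin _ _ ⟨Q, hQ, rfl⟩⟩ :
            IntermediateField.adjoin ℚ (t '' (s' : Set (Place K (laurentBaseChange K F_ℚ)))))
      have hfix : ∀ σ ∈ L.fixingSubgroup, ∀ Q ∈ s', arithmeticGalois (L := K) F_ℚ σ • Q = Q :=
        fun σ hσ Q hQ => hFIX hx L Q
          (Or.inr ⟨t Q, htL Q hQ, ht0 Q (Finset.mem_insert_of_mem hQ)⟩) σ hσ
      -- `t P ∉ L`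
      have htP : t P ∉ L := by
        rw [hL, mw_d2_mem_cl]
        have h2 := htind.transcendental_adjoin
          (s := {Q : ↥(insert P s') | (Q : Place K (laurentBaseChange K F_ℚ)) ∈ s'})
          (i := ⟨P, Finset.mem_insert_self P s'⟩) (by simpa using hP)
        have himg : (fun Q : ↥(insert P s') => t (Q : Place K (laurentBaseChange K F_ℚ))) ''
            {Q : ↥(insert P s') | (Q : Place K (laurentBaseChange K F_ℚ)) ∈ s'} =
            t '' (s' : Set (Place K (laurentBaseChange K F_ℚ))) := by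
          ext y
          constructor
          · rintro ⟨Q, hQ, rfl⟩
            exact ⟨Q, hQ, rfl⟩
          · rintro ⟨Q, hQ, rfl⟩
            exact ⟨⟨Q, Finset.mem_insert_of_mem hQ⟩, hQ, rfl⟩
        rw [himg] at h2
        exact IntermediateField.transcendental_adjoin_iff.mpr h2
      -- `P` is not `L`-rational
      have hPnr : ¬ mw_d2_IsRat F_ℚ x₀ L P := by
        rintro (hpole | ⟨c', hc', hz⟩)
        · have := mw_d2n_ord_nonneg_of_zero P _ _ (ht0 P (Finset.mem_insert_self P s'))
          omega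
        · have h3 := mw_d2r_value_unique P _ hz (ht0 P (Finset.mem_insert_self P s'))
          exact htP (h3 ▸ hc')
      have hinf : ¬ (Set.range fun σ : L.fixingSubgroup =>
          arithmeticGalois (L := K) F_ℚ (σ : K ≃ₐ[ℚ] K) • P).Finite := fun h => hPnr (hORB hx L P h)
      rw [ffg_sum_insert hP]
      exact mw_d2n_step F_ℚ hx g c hR s' P L hfix hinf h1 hcard

/-- **[NSP]** independent generic points are non-special. -/
theorem mw_d2n_nsp : mw_d2_SeamNSP K F_ℚ x₀ :=
  mw_d2n_nsp_of F_ℚ x₀ (mw_d2r_fix F_ℚ x₀) (mw_d2r_orb F_ℚ x₀)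

end main

end Fermat.Agent.MW
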