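/-
Project MW (S17), cell [DIV2], leaf **[TRANS]** (helper23).  Prefix `mw_d2t_`.

`theorem mw_d2t_trans : mw_d2_SeamAUTt K → mw_d2_SeamAUTr K → mw_d2_SeamORB K F_ℚ x₀ →
    mw_d2_SeamTRANS K F_ℚ x₀` :
`Aut(K/L)` is transitive on the places of `F_K / K` which are not `L`-rational (`K ⊇ L`
algebraically closed of characteristic zero).

Route (helper19's Steps 0–3, #2017).  `E := F_L = laurentBaseChange L F_ℚ`, `k := L(x_L) ⊆ E`,
`bc : E → F_K`.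
 0. the `x`-values `t, t' ∉ L` of two non-rational places are conjugate under `Aut(K/L)` ([AUT-t]),
    so both places may be taken over the same `t'`;
 1. at a non-rational place `Q` every `bc u`, `u ≠ 0`, is a unit (its zeros and poles have finite
    orbits, hence are rational by [ORB]): evaluation `ε_Q : E →+* K`, `ε_{σQ} = σ ∘ ε_Q`;
 2. `[E : k] = [F_K : K(x)] =: n` (`Trans/Degree.lean`);
 3. the zeros `Q` of `x - t'` are at most `n`, the extensions `E → K` of `k = L(x_L) ≅ L(t') ⊆ K`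
    are exactly `n`, and `Aut(K/L(t'))` is transitive on them ([AUT-r]): so `Q ↦ ε_Q` is a
    bijection, and `ε_{σP} = σ ∘ ε_P = ε_{P'}` gives `σ P = P'`.
-/
import Mathlib
import Fermat.Agent.MW.Div2.Seams
import Fermat.Agent.MW.Div2.Trans.Eval
import Fermat.Agent.MW.Div2.Trans.Degree
import Fermat.Agent.MW.Div2.Trans.Field
import Fermat.Agent.JT3.Riemann.Principal

set_option autoImplicit false
set_option linter.unusedSectionVars false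

noncomputable section

namespace Fermat.Agent.MW

open AlgebraicCurve ModularCurve Fermat.Agent.JT3 Fermat.Agent.S24 IntermediateField Polynomial

/-! ### generic in the subfield `K₀ → K` -/

section generic

variable {K₀ K : Type} [Field K₀] [Field K] [Algebra K₀ K] [Algebra ℚ K₀] [Algebra ℚ K]
  (F_ℚ : IntermediateField ℚ (LaurentSeries ℚ))

/-- `bc y₀` transcendental over `K` ⟹ `y₀` transcendental over `K₀`. -/
theorem mw_d2t_transcendental_of_bc (y₀ : laurentBaseChange K₀ F_ℚ)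
    (h : Transcendental K (mw_d2_bc (K := K) F_ℚ y₀)) : Transcendental K₀ y₀ := by
  intro halg
  obtain ⟨p, hp0, hp⟩ := halg
  apply h
  have hc : (algebraMap K (laurentBaseChange K F_ℚ)).comp (algebraMap K₀ K) =
      (mw_d2_bc (K := K) F_ℚ).comp (algebraMap K₀ (laurentBaseChange K₀ F_ℚ)) := by
    refine RingHom.ext fun c => ?_
    rw [RingHom.comp_apply, RingHom.comp_apply, mw_d2_bc_algebraMap]
  have h1 : aeval (mw_d2_bc (K := K) F_ℚ y₀) (p.map (algebraMap K₀ K)) = 0 := by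
    rw [aeval_def, eval₂_map, hc, ← hom_eval₂, ← aeval_def, hp, map_zero]
  exact ⟨p.map (algebraMap K₀ K),
    (Polynomial.map_ne_zero_iff (algebraMap K₀ K).injective).2 hp0, h1⟩

set_option synthInstance.maxHeartbeats 400000 in
/-- the evaluations at two places with the same value of `bc y₀` agree on `K₀(y₀)`. -/
theorem mw_d2t_eps_comp_eq {Q Q' : Place K (laurentBaseChange K F_ℚ)}
    (h : mw_d2t_HasVals (K₀ := K₀) F_ℚ Q) (h' : mw_d2t_HasVals (K₀ := K₀) F_ℚ Q')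
    (y₀ : laurentBaseChange K₀ F_ℚ) {t : K}
    (hQ : mw_d2t_IsVal Q (mw_d2_bc (K := K) F_ℚ y₀) t)
    (hQ' : mw_d2t_IsVal Q' (mw_d2_bc (K := K) F_ℚ y₀) t) :
    (mw_d2t_eps Q h).comp (algebraMap ↥K₀⟮y₀⟯ (laurentBaseChange K₀ F_ℚ)) =
      (mw_d2t_eps Q' h').comp (algebraMap ↥K₀⟮y₀⟯ (laurentBaseChange K₀ F_ℚ)) := by
  let φ₁ : ↥K₀⟮y₀⟯ →ₐ[K₀] K :=
    { (mw_d2t_eps Q h).comp (algebraMap ↥K₀⟮y₀⟯ (laurentBaseChange K₀ F_ℚ)) with
      commutes' := fun c => mw_d2t_eps_algebraMap Q h c }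
  let φ₂ : ↥K₀⟮y₀⟯ →ₐ[K₀] K :=
    { (mw_d2t_eps Q' h').comp (algebraMap ↥K₀⟮y₀⟯ (laurentBaseChange K₀ F_ℚ)) with
      commutes' := fun c => mw_d2t_eps_algebraMap Q' h' c }
  have h12 : φ₁ = φ₂ := by
    apply IntermediateField.adjoin_algHom_ext
    intro z hz
    rw [Set.mem_singleton_iff] at hz
    subst hz
    show mw_d2t_eps Q h z = mw_d2t_eps Q' h' z
    rw [mw_d2t_eps_of_isVal Q h hQ, mw_d2t_eps_of_isVal Q' h' hQ']
  exact RingHom.ext fun r => congrArg (fun f : ↥K₀⟮y₀⟯ →ₐ[K₀] K => f r) h12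

/-- degrees: `[F_K : K(x)] ≤ [F_{K₀} : K₀(x_{K₀})] < ∞`. -/
theorem mw_d2t_degree [CharZero K₀] (x₀ : F_ℚ) (hx : rt_IsSepGen K (mw_d2_bcQ K F_ℚ x₀)) :
    FiniteDimensional ↥K₀⟮mw_d2_bcQ K₀ F_ℚ x₀⟯ (laurentBaseChange K₀ F_ℚ) ∧
      Module.finrank ↥K⟮mw_d2_bcQ K F_ℚ x₀⟯ (laurentBaseChange K F_ℚ) ≤
        Module.finrank ↥K₀⟮mw_d2_bcQ K₀ F_ℚ x₀⟯ (laurentBaseChange K₀ F_ℚ) := by
  have key : ∀ y : laurentBaseChange K F_ℚ,
      mw_d2_bc (K := K) F_ℚ (mw_d2_bcQ K₀ F_ℚ x₀) = y → rt_IsSepGen K y →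
      FiniteDimensional ↥K₀⟮mw_d2_bcQ K₀ F_ℚ x₀⟯ (laurentBaseChange K₀ F_ℚ) ∧
        Module.finrank ↥K⟮y⟯ (laurentBaseChange K F_ℚ) ≤
          Module.finrank ↥K₀⟮mw_d2_bcQ K₀ F_ℚ x₀⟯ (laurentBaseChange K₀ F_ℚ) := by
    rintro y rfl hy
    have := hy.2.1
    have htr := mw_d2t_transcendental_of_bc F_ℚ (mw_d2_bcQ K₀ F_ℚ x₀) hy.1
    obtain ⟨hfin, -⟩ := mw_d2t_finite_of_bc (K := K) F_ℚ (mw_d2_bcQ K₀ F_ℚ x₀) htr
    exact ⟨hfin, mw_d2t_finrank_bc_le (K := K) F_ℚ (mw_d2_bcQ K₀ F_ℚ x₀)⟩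
  exact key _ (mw_d2_bc_bcQ F_ℚ x₀) hx

end generic

/-! ### the subfield `L ⊆ K` -/

section main

variable {K : Type} [Field K] [Algebra ℚ K] [IsAlgClosed K] [CharZero K]
  (F_ℚ : IntermediateField ℚ (LaurentSeries ℚ)) (x₀ : F_ℚ) (L : IntermediateField ℚ K)

theorem mw_d2t_fix_of_mem {σ : K ≃ₐ[ℚ] K} (hσ : σ ∈ L.fixingSubgroup) (c : ↥L) :
    σ (algebraMap ↥L K c) = algebraMap ↥L K c :=
  (IntermediateField.mem_fixingSubgroup_iff L σ).1 hσ c c.2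

theorem mw_d2t_mem_of_fix {σ : K ≃ₐ[ℚ] K}
    (hσ : ∀ c : ↥L, σ (algebraMap ↥L K c) = algebraMap ↥L K c) : σ ∈ L.fixingSubgroup :=
  (IntermediateField.mem_fixingSubgroup_iff L σ).2 fun a ha => hσ ⟨a, ha⟩

variable {F_ℚ x₀ L}

/-- the `x`-value of a place which is not `L`-rational exists and is not in `L`. -/
theorem mw_d2t_exists_val_of_not_rat (hx : rt_IsSepGen K (mw_d2_bcQ K F_ℚ x₀))
    {P : Place K (laurentBaseChange K F_ℚ)} (hP : ¬ mw_d2_IsRat F_ℚ x₀ L P) :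
    ∃ t : K, t ∉ L ∧ mw_d2t_IsVal P (mw_d2_bcQ K F_ℚ x₀) t := by
  have hx0 : mw_d2_bcQ K F_ℚ x₀ ≠ 0 := fun h0 => hx.1 (h0 ▸ isAlgebraic_zero)
  have hmem : mw_d2_bcQ K F_ℚ x₀ ∈ P.toValuationSubring := by
    rw [hw_mem_iff_ord_nonneg P hx0]
    by_contra hneg
    exact hP (Or.inl (not_le.1 hneg))
  obtain ⟨t, ht⟩ := mw_d2t_isVal_exists hx P hmem
  refine ⟨t, fun htL => hP (Or.inr ⟨t, htL, ?_⟩), ht⟩
  have hne : mw_d2_bcQ K F_ℚ x₀ - algebraMap K (laurentBaseChange K F_ℚ) t ≠ 0 := fun h0 =>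
    hx.1 ((sub_eq_zero.1 h0) ▸ isAlgebraic_algebraMap t)
  exact (mw_d2t_isVal_iff_ord_pos hne).1 ht

/-- a place whose `x`-value is not in `L` is not `L`-rational. -/
theorem mw_d2t_not_rat_of_val {P : Place K (laurentBaseChange K F_ℚ)} {t : K} (ht : t ∉ L)
    (hP : mw_d2t_IsVal P (mw_d2_bcQ K F_ℚ x₀) t) : ¬ mw_d2_IsRat F_ℚ x₀ L P := by
  rintro (hpole | ⟨c, hc, hz⟩)
  · have hmem := mw_d2t_isVal_mem hP
    by_cases hx0 : mw_d2_bcQ K F_ℚ x₀ = 0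
    · rw [hx0, Place.ord_zero] at hpole
      exact lt_irrefl _ hpole
    · rw [hw_mem_iff_ord_nonneg P hx0] at hmem
      omega
  · have hc' : mw_d2t_IsVal P (mw_d2_bcQ K F_ℚ x₀) c :=
      (mw_d2t_mem_nonunits_iff P _).2 (Or.inr hz)
    exact ht (mw_d2t_isVal_unique hP hc' ▸ hc)

/-- **Step 1**: at a place which is not `L`-rational every nonzero `bc u`, `u ∈ F_L`, is a unit. -/
theorem mw_d2t_ord_bc_eq_zero [IsAlgClosed L] (hx : rt_IsSepGen K (mw_d2_bcQ K F_ℚ x₀))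
    (hORB : mw_d2_SeamORB K F_ℚ x₀) {Q : Place K (laurentBaseChange K F_ℚ)}
    (hQ : ¬ mw_d2_IsRat F_ℚ x₀ L Q) (u : laurentBaseChange ↥L F_ℚ) :
    Q.ord (mw_d2_bc (K := K) F_ℚ u) = 0 := by
  by_contra hne
  apply hQ
  apply hORB hx L Q
  refine (rt_finite_support hx (mw_d2_bc (K := K) F_ℚ u)).subset ?_
  rintro _ ⟨σ, rfl⟩
  show (arithmeticGalois F_ℚ (σ : K ≃ₐ[ℚ] K) • Q).ord (mw_d2_bc (K := K) F_ℚ u) ≠ 0
  have h1 := SemilinearAut.ord_smul (arithmeticGalois F_ℚ (σ : K ≃ₐ[ℚ] K)) Q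
    (mw_d2_bc (K := K) F_ℚ u)
  rw [mw_d2t_smul_bc F_ℚ (σ : K ≃ₐ[ℚ] K) (mw_d2t_fix_of_mem L σ.2)] at h1
  rwa [h1]

/-- a place which is not `L`-rational has all the values of `bc (F_L)`. -/
theorem mw_d2t_hasVals_of_not_rat [IsAlgClosed L] (hx : rt_IsSepGen K (mw_d2_bcQ K F_ℚ x₀))
    (hORB : mw_d2_SeamORB K F_ℚ x₀) {Q : Place K (laurentBaseChange K F_ℚ)}
    (hQ : ¬ mw_d2_IsRat F_ℚ x₀ L Q) : mw_d2t_HasVals (K₀ := ↥L) F_ℚ Q := by
  intro u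
  apply mw_d2t_isVal_exists hx Q
  by_cases hu : mw_d2_bc (K := K) F_ℚ u = 0
  · rw [hu]; exact zero_mem _
  · rw [hw_mem_iff_ord_nonneg Q hu, mw_d2t_ord_bc_eq_zero hx hORB hQ u]

/-- the number of zeros of `x - t'` is at most `[F_K : K(x)]`. -/
theorem mw_d2t_card_zeros_le (hx : rt_IsSepGen K (mw_d2_bcQ K F_ℚ x₀)) (t' : K) :
    ∃ _hZ : {v : Place K (laurentBaseChange K F_ℚ) |
        0 < v.ord (mw_d2_bcQ K F_ℚ x₀ - algebraMap K (laurentBaseChange K F_ℚ) t')}.Finite,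
      Nat.card ↥{v : Place K (laurentBaseChange K F_ℚ) |
        0 < v.ord (mw_d2_bcQ K F_ℚ x₀ - algebraMap K (laurentBaseChange K F_ℚ) t')} ≤
        Module.finrank ↥K⟮mw_d2_bcQ K F_ℚ x₀⟯ (laurentBaseChange K F_ℚ) := by
  classical
  have hZ := rt_finite_zeros hx
    (mw_d2_bcQ K F_ℚ x₀ - algebraMap K (laurentBaseChange K F_ℚ) t')
  refine ⟨hZ, ?_⟩
  have hztr : Transcendental K
      (mw_d2_bcQ K F_ℚ x₀ - algebraMap K (laurentBaseChange K F_ℚ) t') := (hx.sub_const t').1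
  have h1 := rt_sum_ord_le hx hztr hZ.toFinset (fun v hv => (hZ.mem_toFinset).1 hv)
  rw [rt_adjoin_sub_const] at h1
  have h2 : (hZ.toFinset.card : ℤ) ≤ ∑ v ∈ hZ.toFinset,
      v.ord (mw_d2_bcQ K F_ℚ x₀ - algebraMap K (laurentBaseChange K F_ℚ) t') := by
    rw [Finset.card_eq_sum_ones, Nat.cast_sum]
    refine Finset.sum_le_sum fun v hv => ?_
    have := (hZ.mem_toFinset).1 hv
    have h3 : 0 < v.ord (mw_d2_bcQ K F_ℚ x₀ - algebraMap K (laurentBaseChange K F_ℚ) t') := this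
    simp only [Nat.cast_one]
    omega
  rw [Nat.card_eq_card_finite_toFinset hZ]
  exact_mod_cast h2.trans h1

end main

/-! ### the core: two places over the same `t'` -/

section core

variable {K₀ K : Type} [Field K₀] [Field K] [Algebra K₀ K] [Algebra ℚ K₀] [Algebra ℚ K]
  [IsAlgClosed K] [CharZero K] [CharZero K₀]
  {F_ℚ : IntermediateField ℚ (LaurentSeries ℚ)} {x₀ : F_ℚ}

set_option synthInstance.maxHeartbeats 400000 in
set_option maxHeartbeats 1600000 in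
/-- **the core of [TRANS]**: two places of `F_K` over the same `t'`, at which all `bc u`
(`u ∈ F_{K₀}`) have values, are conjugate under an automorphism of `K` fixing `K₀`. -/
theorem mw_d2t_trans_same (hx : rt_IsSepGen K (mw_d2_bcQ K F_ℚ x₀)) (hAUTr : mw_d2_SeamAUTr K)
    (t' : K)
    (hvals : ∀ Q : Place K (laurentBaseChange K F_ℚ), mw_d2t_IsVal Q (mw_d2_bcQ K F_ℚ x₀) t' →
      mw_d2t_HasVals (K₀ := K₀) F_ℚ Q)
    {P P' : Place K (laurentBaseChange K F_ℚ)}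
    (hP : mw_d2t_IsVal P (mw_d2_bcQ K F_ℚ x₀) t') (hP' : mw_d2t_IsVal P' (mw_d2_bcQ K F_ℚ x₀) t') :
    ∃ σ : K ≃ₐ[ℚ] K, (∀ c : K₀, σ (algebraMap K₀ K c) = algebraMap K₀ K c) ∧
      arithmeticGalois F_ℚ σ • P = P' := by
  classical
  set xL := mw_d2_bcQ K₀ F_ℚ x₀ with hxL
  have hbcx : mw_d2_bc (K := K) F_ℚ xL = mw_d2_bcQ K F_ℚ x₀ := mw_d2_bc_bcQ F_ℚ x₀
  obtain ⟨hfin, hdeg⟩ := mw_d2t_degree (K₀ := K₀) F_ℚ x₀ hx
  have hne : mw_d2_bcQ K F_ℚ x₀ - algebraMap K (laurentBaseChange K F_ℚ) t' ≠ 0 := fun h0 =>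
    hx.1 ((sub_eq_zero.1 h0) ▸ isAlgebraic_algebraMap t')
  obtain ⟨hZ, hcardZ⟩ := mw_d2t_card_zeros_le hx t'
  have hZmem : ∀ Q : ↥{v : Place K (laurentBaseChange K F_ℚ) |
      0 < v.ord (mw_d2_bcQ K F_ℚ x₀ - algebraMap K (laurentBaseChange K F_ℚ) t')},
      mw_d2t_IsVal Q.1 (mw_d2_bcQ K F_ℚ x₀) t' := fun Q => (mw_d2t_isVal_iff_ord_pos hne).2 Q.2
  have := hZ.to_subtype
  -- values in the form needed by `mw_d2t_eps_comp_eq`
  have hbcval : ∀ {Q : Place K (laurentBaseChange K F_ℚ)},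
      mw_d2t_IsVal Q (mw_d2_bcQ K F_ℚ x₀) t' → mw_d2t_IsVal Q (mw_d2_bc (K := K) F_ℚ xL) t' :=
    fun h => by rw [hbcx]; exact h
  -- the base homomorphism and the family
  set ι : ↥K₀⟮xL⟯ →+* K :=
    (mw_d2t_eps P' (hvals P' hP')).comp (algebraMap ↥K₀⟮xL⟯ (laurentBaseChange K₀ F_ℚ)) with hι
  have hιK₀ : ∀ c : K₀, ι (algebraMap K₀ ↥K₀⟮xL⟯ c) = algebraMap K₀ K c := fun c =>
    mw_d2t_eps_algebraMap P' (hvals P' hP') c
  have hιx : ι (AdjoinSimple.gen K₀ xL) = t' := by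
    show mw_d2t_eps P' (hvals P' hP') xL = t'
    exact mw_d2t_eps_of_isVal P' _ (hbcval hP')
  have hext : ∀ Q : Place K (laurentBaseChange K F_ℚ),
      ∀ hQ : mw_d2t_IsVal Q (mw_d2_bcQ K F_ℚ x₀) t',
      (mw_d2t_eps Q (hvals Q hQ)).comp (algebraMap ↥K₀⟮xL⟯ (laurentBaseChange K₀ F_ℚ)) = ι :=
    fun Q hQ => mw_d2t_eps_comp_eq F_ℚ (hvals Q hQ) (hvals P' hP') xL (hbcval hQ) (hbcval hP')
  -- conjugating an extension of `ι`
  have hconj : ∀ (Q : Place K (laurentBaseChange K F_ℚ))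
      (hQ : mw_d2t_IsVal Q (mw_d2_bcQ K F_ℚ x₀) t') (ε : laurentBaseChange K₀ F_ℚ →+* K),
      ε.comp (algebraMap ↥K₀⟮xL⟯ (laurentBaseChange K₀ F_ℚ)) = ι →
      ∃ σ : K ≃ₐ[ℚ] K, (∀ c : K₀, σ (algebraMap K₀ K c) = algebraMap K₀ K c) ∧
        ∃ hσQ : mw_d2t_IsVal (arithmeticGalois F_ℚ σ • Q) (mw_d2_bcQ K F_ℚ x₀) t',
          mw_d2t_eps (arithmeticGalois F_ℚ σ • Q) (hvals _ hσQ) = ε := by
    intro Q hQ ε hε
    obtain ⟨σ, hfix, hσε⟩ := mw_d2t_conj_of_AUTr hAUTr ι (mw_d2t_eps Q (hvals Q hQ)) ε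
      (hext Q hQ) hε
    have hσK₀ : ∀ c : K₀, σ (algebraMap K₀ K c) = algebraMap K₀ K c := fun c => by
      have := hfix (algebraMap K₀ ↥K₀⟮xL⟯ c)
      rwa [hιK₀] at this
    have hσt : σ t' = t' := by
      have := hfix (AdjoinSimple.gen K₀ xL)
      rwa [hιx] at this
    have hσQ : mw_d2t_IsVal (arithmeticGalois F_ℚ σ • Q) (mw_d2_bcQ K F_ℚ x₀) t' := by
      have := mw_d2t_isVal_smul_bcQ σ x₀ hQ
      rwa [hσt] at this
    refine ⟨σ, hσK₀, hσQ, RingHom.ext fun e => ?_⟩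
    rw [mw_d2t_eps_smul σ hσK₀ (hvals Q hQ) (hvals _ hσQ) e]
    exact hσε e
  -- the family is injective
  have hinj : Function.Injective fun Q : ↥{v : Place K (laurentBaseChange K F_ℚ) |
      0 < v.ord (mw_d2_bcQ K F_ℚ x₀ - algebraMap K (laurentBaseChange K F_ℚ) t')} =>
      mw_d2t_eps Q.1 (hvals Q.1 (hZmem Q)) := by
    apply mw_d2t_injective_of_card ι
    · exact fun Q => hext Q.1 (hZmem Q)
    · intro ε hε
      obtain ⟨σ, -, hσQ, hσε⟩ := hconj P' hP' ε hε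
      exact ⟨⟨arithmeticGalois F_ℚ σ • P', (mw_d2t_isVal_iff_ord_pos hne).1 hσQ⟩, hσε⟩
    · exact hcardZ.trans hdeg
  -- conclusion
  obtain ⟨σ, hσK₀, hσP, hσε⟩ := hconj P hP (mw_d2t_eps P' (hvals P' hP')) rfl
  refine ⟨σ, hσK₀, ?_⟩
  have h1 := @hinj ⟨arithmeticGalois F_ℚ σ • P, (mw_d2t_isVal_iff_ord_pos hne).1 hσP⟩
    ⟨P', (mw_d2t_isVal_iff_ord_pos hne).1 hP'⟩ hσε
  exact congrArg Subtype.val h1

end core

/-! ### [TRANS] -/

set_option synthInstance.maxHeartbeats 400000 in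
/-- **[TRANS]** `Aut(K/L)` is transitive on the places which are not `L`-rational. -/
theorem mw_d2t_trans (K : Type) [Field K] [Algebra ℚ K] [IsAlgClosed K] [CharZero K]
    (F_ℚ : IntermediateField ℚ (LaurentSeries ℚ)) (x₀ : F_ℚ) (hAUTt : mw_d2_SeamAUTt K)
    (hAUTr : mw_d2_SeamAUTr K) (hORB : mw_d2_SeamORB K F_ℚ x₀) : mw_d2_SeamTRANS K F_ℚ x₀ := by
  intro hx L _ P P' hP hP'
  obtain ⟨t, htL, ht⟩ := mw_d2t_exists_val_of_not_rat hx hP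
  obtain ⟨t', htL', ht'⟩ := mw_d2t_exists_val_of_not_rat hx hP'
  obtain ⟨σ₁, hσ₁, hσ₁t⟩ := hAUTt L t t' htL htL'
  have hP₁ : mw_d2t_IsVal (arithmeticGalois F_ℚ σ₁ • P) (mw_d2_bcQ K F_ℚ x₀) t' := by
    have := mw_d2t_isVal_smul_bcQ σ₁ x₀ ht
    rwa [hσ₁t] at this
  obtain ⟨σ₂, hσ₂, h2⟩ := mw_d2t_trans_same (K₀ := ↥L) hx hAUTr t'
    (fun Q hQ => mw_d2t_hasVals_of_not_rat hx hORB (mw_d2t_not_rat_of_val htL' hQ)) hP₁ ht'
  refine ⟨σ₂ * σ₁, mul_mem (mw_d2t_mem_of_fix L hσ₂) hσ₁, ?_⟩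
  rw [map_mul, mul_smul, h2]

end Fermat.Agent.MW
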