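/-
Project MW (S17), cell [DIV2], leaf [TRANS] (helper23): THE CLOSED FORM.  Prefix `mw_d2t_`.

`mw_d2t_trans_closed : mw_d2_SeamTRANS K F_ℚ x₀` for every algebraically closed field `K` of
characteristic zero: `mw_d2t_trans` with [AUT-t], [AUT-r] (helper10, `MW/Div2/Aut.lean`) and
[ORB] (helper3, `MW/Div2/Rat.lean`) plugged in.
-/
import Fermat.Agent.MW.Div2.Trans
import Fermat.Agent.MW.Div2.Aut
import Fermat.Agent.MW.Div2.Rat

set_option autoImplicit false

namespace Fermat.Agent.MW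

open ModularCurve

/-- **[TRANS]**, closed form. -/
theorem mw_d2t_trans_closed (K : Type) [Field K] [Algebra ℚ K] [IsAlgClosed K] [CharZero K]
    (F_ℚ : IntermediateField ℚ (LaurentSeries ℚ)) (x₀ : F_ℚ) : mw_d2_SeamTRANS K F_ℚ x₀ :=
  mw_d2t_trans K F_ℚ x₀ (mw_d2a_autT K) (mw_d2a_autR K) (mw_d2r_orb F_ℚ x₀)

end Fermat.Agent.MW
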