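/-
Project MW (S17), cell **[DIV2]** — THE CLOSED FORM (helper15).  Prefix `mw_d2d_`.

`mw_d2d_div2 N : mw_SeamDiv2 N` for every `N` with `[NeZero N]`: helper19's
`mw_div2_of_leaves` with every leaf plugged in:
[TRANS] (helper23, `mw_d2t_trans_closed`), [NSP] (helper3, `mw_d2n_nsp`),
[EXT] = DEG + LINK and [DESC] (helper15, `mw_d2d_*_inst`).
-/
import Fermat.Agent.MW.Div2.MainOfLeaves
import Fermat.Agent.MW.Div2.TransClosed
import Fermat.Agent.MW.Div2.Nsp
import Fermat.Agent.MW.Div2.DescInst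

set_option autoImplicit false

namespace Fermat.Agent.MW

open AlgebraicCurve ModularCurve Fermat.Agent.JT3 Fermat.Agent.S24 Fermat.Agent.FF

open Fermat.Agent.S24.Br

/-- the cell **[DIV2]**, closed: every class of `J₀(N)(Q̄)` is `2 ·` (a class) -/
theorem mw_d2d_div2 (N : ℕ) [NeZero N] : mw_SeamDiv2 N :=
  mw_div2_of_leaves N
    (mw_d2t_trans_closed ℂ (modularFunctionFieldFull N) (mw_d2asm_x0 N))
    (mw_d2n_nsp (modularFunctionFieldFull N) (mw_d2asm_x0 N))
    (mw_d2d_deg_inst N) (mw_d2d_link_inst N) (mw_d2d_desc_inst N)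

end Fermat.Agent.MW
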