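/-
Project MW (S17), cell **[DIV2]**, leaf **[EXT]** (helper15): THE GAUSS EXTENSION OF PLACES
`mw_d2_ext : Place K₀ F_{K₀} → Place K F_K` (`K₀ ⊆ K` algebraically closed) AND DIVISORS.

* `mw_d2e_place_eq_of_ord_nonneg` : a place is determined by the sign of its order function;
* `mw_d2e_ext_injective`, `mw_d2e_extDiv_*` : calculus of `mw_d2_extDiv`;
* `mw_d2e_finrank_le` : `[F_K : K(bc f₀)] ≤ [F_{K₀} : K₀(f₀)]` (`f₀` transcendental);
* `mw_d2e_zeroDiv_bc` / `mw_d2e_div_bc` : **the degree trick** `div (bc f₀) = extDiv (div f₀)`;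
* `mw_d2e_mem_range_ext` : a place of `F_K` where some `bc f₀` has nonzero order is an `ext P₀`;
* `mw_d2e_ext_unique`, `mw_d2e_smul_ext` : `ext P₀` is the only place restricting to `P₀`, hence
  fixed by the coefficientwise automorphisms which are trivial on `K₀`;
* **`mw_d2e_deg : mw_d2_SeamDEG`**, **`mw_d2e_link : mw_d2_SeamLINK`**.
Prefix `mw_d2e_`.
-/
import Mathlib
import Fermat.Agent.MW.Div2.Seams

set_option autoImplicit false
set_option linter.unusedSectionVars false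
set_option linter.style.haveILetI false
set_option synthInstance.maxHeartbeats 400000
set_option maxHeartbeats 1000000

noncomputable section

namespace Fermat.Agent.MW

open AlgebraicCurve ModularCurve Fermat.Agent.JT3 Fermat.Agent.S24 IntermediateField Polynomial

/-! ### generalities on places -/

section place

universe u v
variable {K : Type u} {F : Type v} [Field K] [Field F] [Algebra K F]

/-- a place is determined by the sign of its order function -/
theorem mw_d2e_place_eq_of_ord_nonneg {P P' : Place K F}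
    (h : ∀ f : F, f ≠ 0 → 0 ≤ P.ord f → 0 ≤ P'.ord f) : P = P' := by
  -- the converse implication
  have hconv : ∀ f : F, f ≠ 0 → 0 ≤ P'.ord f → 0 ≤ P.ord f := by
    intro x hx0 hx'
    by_contra hneg
    push Not at hneg
    -- every function is `P'`-integral
    have hall : ∀ z : F, z ≠ 0 → 0 ≤ P'.ord z := by
      intro z hz
      set n : ℕ := (-P.ord z).toNat with hn
      have hn' : -P.ord z ≤ (n : ℤ) := by rw [hn]; exact Int.self_le_toNat _
      have hxi : x⁻¹ ≠ 0 := inv_ne_zero hx0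
      have h1 : 0 ≤ P.ord (z * (x⁻¹) ^ n) := by
        rw [P.ord_mul hz (pow_ne_zero _ hxi), rt_ord_pow, P.ord_inv]
        nlinarith
      have h2 := h _ (mul_ne_zero hz (pow_ne_zero _ hxi)) h1
      rw [P'.ord_mul hz (pow_ne_zero _ hxi), rt_ord_pow, P'.ord_inv] at h2
      nlinarith
    obtain ⟨π, hπ⟩ := IsDiscreteValuationRing.exists_irreducible P'.toValuationSubring
    have hπ0 : (π : F) ≠ 0 := fun h0 => hπ.ne_zero (Subtype.ext h0)
    have h3 := hall (π : F)⁻¹ (inv_ne_zero hπ0)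
    rw [P'.ord_inv, P'.ord_coe_irreducible hπ] at h3
    omega
  apply Place.ext
  ext f
  rcases eq_or_ne f 0 with rfl | hf
  · simp
  rw [hw_mem_iff_ord_nonneg P hf, hw_mem_iff_ord_nonneg P' hf]
  exact ⟨h f hf, hconv f hf⟩

/-- a place is determined by its order function -/
theorem mw_d2e_place_eq_of_ord {P P' : Place K F} (h : ∀ f : F, P.ord f = P'.ord f) : P = P' :=
  mw_d2e_place_eq_of_ord_nonneg fun f _ hf => by rwa [← h f]

end place

/-! ### the calculus of `mw_d2_ext`, `mw_d2_extDiv` -/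

section ext

variable {K₀ K : Type} [Field K₀] [Field K] [Algebra K₀ K] [Algebra ℚ K₀] [Algebra ℚ K]
  (F_ℚ : IntermediateField ℚ (LaurentSeries ℚ))
  (hres : ∀ P₀ : Place K₀ (laurentBaseChange K₀ F_ℚ),
    Function.Surjective (algebraMap K₀ P₀.ResidueField))

theorem mw_d2e_bc_ne_zero {f₀ : laurentBaseChange K₀ F_ℚ} (hf₀ : f₀ ≠ 0) :
    mw_d2_bc (K := K) F_ℚ f₀ ≠ 0 := fun h =>
  hf₀ (mw_d2_bc_injective F_ℚ (h.trans (map_zero _).symm))

/-- the Gauss extension is injective -/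
theorem mw_d2e_ext_injective : Function.Injective (mw_d2_ext (K := K) F_ℚ hres) := by
  intro P₀ P₀' h
  apply mw_d2e_place_eq_of_ord
  intro f₀
  rw [← mw_d2_ext_ord (K := K) F_ℚ hres P₀ f₀, ← mw_d2_ext_ord (K := K) F_ℚ hres P₀' f₀, h]

theorem mw_d2e_extDiv_ext (D₀ : Divisor K₀ (laurentBaseChange K₀ F_ℚ))
    (P₀ : Place K₀ (laurentBaseChange K₀ F_ℚ)) :
    mw_d2_extDiv (K := K) F_ℚ hres D₀ (mw_d2_ext (K := K) F_ℚ hres P₀) = D₀ P₀ :=
  Finsupp.mapDomain_apply (mw_d2e_ext_injective F_ℚ hres) D₀ P₀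

theorem mw_d2e_extDiv_notin (D₀ : Divisor K₀ (laurentBaseChange K₀ F_ℚ))
    (P : Place K (laurentBaseChange K F_ℚ))
    (hP : P ∉ Set.range (mw_d2_ext (K := K) F_ℚ hres)) :
    mw_d2_extDiv (K := K) F_ℚ hres D₀ P = 0 :=
  Finsupp.mapDomain_of_notMem_range D₀ P hP

theorem mw_d2e_extDiv_zero :
    mw_d2_extDiv (K := K) F_ℚ hres (0 : Divisor K₀ (laurentBaseChange K₀ F_ℚ)) = 0 :=
  Finsupp.mapDomain_zero

theorem mw_d2e_extDiv_add (D₀ D₀' : Divisor K₀ (laurentBaseChange K₀ F_ℚ)) :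
    mw_d2_extDiv (K := K) F_ℚ hres (D₀ + D₀') =
      mw_d2_extDiv (K := K) F_ℚ hres D₀ + mw_d2_extDiv (K := K) F_ℚ hres D₀' :=
  Finsupp.mapDomain_add

/-- `mw_d2_extDiv` as an additive homomorphism -/
def mw_d2e_extDivHom : Divisor K₀ (laurentBaseChange K₀ F_ℚ) →+
    Divisor K (laurentBaseChange K F_ℚ) where
  toFun := mw_d2_extDiv (K := K) F_ℚ hres
  map_zero' := mw_d2e_extDiv_zero F_ℚ hres
  map_add' := mw_d2e_extDiv_add F_ℚ hres

theorem mw_d2e_extDivHom_apply (D₀ : Divisor K₀ (laurentBaseChange K₀ F_ℚ)) :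
    mw_d2e_extDivHom (K := K) F_ℚ hres D₀ = mw_d2_extDiv (K := K) F_ℚ hres D₀ := rfl

theorem mw_d2e_extDiv_neg (D₀ : Divisor K₀ (laurentBaseChange K₀ F_ℚ)) :
    mw_d2_extDiv (K := K) F_ℚ hres (-D₀) = -mw_d2_extDiv (K := K) F_ℚ hres D₀ :=
  map_neg (mw_d2e_extDivHom (K := K) F_ℚ hres) D₀

theorem mw_d2e_extDiv_sub (D₀ D₀' : Divisor K₀ (laurentBaseChange K₀ F_ℚ)) :
    mw_d2_extDiv (K := K) F_ℚ hres (D₀ - D₀') =
      mw_d2_extDiv (K := K) F_ℚ hres D₀ - mw_d2_extDiv (K := K) F_ℚ hres D₀' :=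
  map_sub (mw_d2e_extDivHom (K := K) F_ℚ hres) D₀ D₀'

theorem mw_d2e_extDiv_zsmul (n : ℤ) (D₀ : Divisor K₀ (laurentBaseChange K₀ F_ℚ)) :
    mw_d2_extDiv (K := K) F_ℚ hres (n • D₀) = n • mw_d2_extDiv (K := K) F_ℚ hres D₀ :=
  map_zsmul (mw_d2e_extDivHom (K := K) F_ℚ hres) n D₀

theorem mw_d2e_extDiv_single (P₀ : Place K₀ (laurentBaseChange K₀ F_ℚ)) (n : ℤ) :
    mw_d2_extDiv (K := K) F_ℚ hres (Finsupp.single P₀ n) =
      Finsupp.single (mw_d2_ext (K := K) F_ℚ hres P₀) n :=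
  Finsupp.mapDomain_single

theorem mw_d2e_extDiv_injective :
    Function.Injective (mw_d2_extDiv (K := K) F_ℚ hres) :=
  Finsupp.mapDomain_injective (mw_d2e_ext_injective F_ℚ hres)

/-- a divisor supported on the extended places is an extension -/
theorem mw_d2e_exists_extDiv (D : Divisor K (laurentBaseChange K F_ℚ))
    (hD : ∀ P, D P ≠ 0 → P ∈ Set.range (mw_d2_ext (K := K) F_ℚ hres)) :
    ∃ D₀ : Divisor K₀ (laurentBaseChange K₀ F_ℚ), mw_d2_extDiv (K := K) F_ℚ hres D₀ = D := by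
  classical
  refine ⟨Finsupp.comapDomain (mw_d2_ext (K := K) F_ℚ hres) D
    ((mw_d2e_ext_injective F_ℚ hres).injOn), ?_⟩
  ext P
  by_cases hP : P ∈ Set.range (mw_d2_ext (K := K) F_ℚ hres)
  · obtain ⟨P₀, rfl⟩ := hP
    rw [mw_d2e_extDiv_ext, Finsupp.comapDomain_apply]
  · rw [mw_d2e_extDiv_notin F_ℚ hres _ P hP]
    by_contra h
    exact hP (hD P (Ne.symm h))

theorem mw_d2e_extDiv_nonneg {D₀ : Divisor K₀ (laurentBaseChange K₀ F_ℚ)} (h : 0 ≤ D₀) :
    0 ≤ mw_d2_extDiv (K := K) F_ℚ hres D₀ := by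
  rw [Finsupp.le_def]
  intro P
  by_cases hP : P ∈ Set.range (mw_d2_ext (K := K) F_ℚ hres)
  · obtain ⟨P₀, rfl⟩ := hP
    rw [mw_d2e_extDiv_ext]
    exact Finsupp.le_def.mp h P₀
  · rw [mw_d2e_extDiv_notin F_ℚ hres _ P hP]
    rfl

end ext

/-! ### the degree inequality `[F_K : K(bc f₀)] ≤ [F_{K₀} : K₀(f₀)]` -/

section finrank

variable {K₀ K : Type} [Field K₀] [Field K] [Algebra K₀ K] [Algebra ℚ K₀] [Algebra ℚ K]
  (F_ℚ : IntermediateField ℚ (LaurentSeries ℚ))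

local notation "F₀" => laurentBaseChange K₀ F_ℚ
local notation "FK" => laurentBaseChange K F_ℚ

/-- base change of polynomial expressions -/
theorem mw_d2e_bc_aeval (f₀ : F₀) (p : K₀[X]) :
    mw_d2_bc (K := K) F_ℚ (aeval f₀ p) =
      aeval (mw_d2_bc (K := K) F_ℚ f₀) (p.map (algebraMap K₀ K)) := by
  rw [aeval_def, hom_eval₂, aeval_def, eval₂_map]
  congr 1
  exact RingHom.ext fun c => mw_d2_bc_algebraMap (K₀ := K₀) (K := K) F_ℚ c

/-- `bc` maps `K₀(f₀)` into `K(bc f₀)` -/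
theorem mw_d2e_bc_mem_adjoin (f₀ : F₀) {r : F₀} (hr : r ∈ K₀⟮f₀⟯) :
    mw_d2_bc (K := K) F_ℚ r ∈ K⟮mw_d2_bc (K := K) F_ℚ f₀⟯ := by
  obtain ⟨p, q, rfl⟩ := IntermediateField.mem_adjoin_simple_iff K₀ r |>.1 hr
  rw [map_div₀, mw_d2e_bc_aeval, mw_d2e_bc_aeval]
  have h : ∀ P : K[X], aeval (mw_d2_bc (K := K) F_ℚ f₀) P ∈ K⟮mw_d2_bc (K := K) F_ℚ f₀⟯ :=
    fun P => IntermediateField.algebra_adjoin_le_adjoin K _
      (Polynomial.aeval_mem_adjoin_singleton K _)
  exact div_mem (h _) (h _)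

/-- **the degree inequality**: a `K₀(f₀)`-basis of `F_{K₀}` spans `F_K` over `K(bc f₀)` -/
theorem mw_d2e_finrank_le (f₀ : F₀) [FiniteDimensional K₀⟮f₀⟯ F₀]
    (halg : Algebra.IsAlgebraic K⟮mw_d2_bc (K := K) F_ℚ f₀⟯ FK) :
    Module.finrank K⟮mw_d2_bc (K := K) F_ℚ f₀⟯ FK ≤ Module.finrank K₀⟮f₀⟯ F₀ := by
  classical
  set y : FK := mw_d2_bc (K := K) F_ℚ f₀ with hy
  set b := Module.finBasis K₀⟮f₀⟯ F₀ with hb
  set S : Submodule K⟮y⟯ FK :=
    Submodule.span K⟮y⟯ (Set.range fun i => mw_d2_bc (K := K) F_ℚ (b i)) with hS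
  -- (1) `bc F₀ ⊆ S`
  have hbc : ∀ g₀ : F₀, mw_d2_bc (K := K) F_ℚ g₀ ∈ S := by
    intro g₀
    have e0 : mw_d2_bc (K := K) F_ℚ g₀ =
        ∑ i, mw_d2_bc (K := K) F_ℚ (((b.repr g₀ i : K₀⟮f₀⟯) : F₀) * b i) := by
      rw [← map_sum]
      congr 1
      conv_lhs => rw [← b.sum_repr g₀]
      refine Finset.sum_congr rfl fun i _ => ?_
      rw [IntermediateField.smul_def, smul_eq_mul]
    rw [e0]
    refine Submodule.sum_mem _ fun i _ => ?_
    rw [map_mul]
    have hr : mw_d2_bc (K := K) F_ℚ ((b.repr g₀ i : K₀⟮f₀⟯) : F₀) ∈ K⟮y⟯ :=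
      mw_d2e_bc_mem_adjoin F_ℚ f₀ (b.repr g₀ i).2
    have e : mw_d2_bc (K := K) F_ℚ ((b.repr g₀ i : K₀⟮f₀⟯) : F₀) * mw_d2_bc (K := K) F_ℚ (b i) =
        (⟨_, hr⟩ : K⟮y⟯) • mw_d2_bc (K := K) F_ℚ (b i) := by
      rw [IntermediateField.smul_def, smul_eq_mul]
    rw [e]
    exact Submodule.smul_mem _ _ (Submodule.subset_span ⟨i, rfl⟩)
  -- (2) `S` is closed under multiplication
  have hmul : ∀ s ∈ S, ∀ s' ∈ S, s * s' ∈ S := by
    intro s hs s' hs'
    induction hs using Submodule.span_induction with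
    | mem x hx =>
        obtain ⟨i, rfl⟩ := hx
        induction hs' using Submodule.span_induction with
        | mem x' hx' =>
            obtain ⟨j, rfl⟩ := hx'
            rw [← map_mul]
            exact hbc _
        | zero => rw [mul_zero]; exact zero_mem _
        | add u v _ _ hu hv => rw [mul_add]; exact add_mem hu hv
        | smul c u _ hu => rw [mul_smul_comm]; exact Submodule.smul_mem _ _ hu
    | zero => rw [zero_mul]; exact zero_mem _
    | add u v _ _ hu hv => rw [add_mul]; exact add_mem hu hv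
    | smul c u _ hu => rw [smul_mul_assoc]; exact Submodule.smul_mem _ _ hu
  have h1 : (1 : FK) ∈ S := by
    have := hbc 1
    rwa [map_one] at this
  -- (3) the subalgebra with carrier `S`
  let T : Subalgebra K⟮y⟯ FK :=
    { carrier := S
      mul_mem' := fun {a b} ha hb => hmul a ha b hb
      one_mem' := h1
      add_mem' := fun {a b} ha hb => S.add_mem ha hb
      zero_mem' := S.zero_mem
      algebraMap_mem' := fun r => by
        rw [Algebra.algebraMap_eq_smul_one]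
        exact S.smul_mem r h1 }
  have hT : ∀ f : FK, f ∈ T ↔ f ∈ S := fun f => Iff.rfl
  -- (4) the span of `bc F₀` over `K` lies in `S`
  have hspan : ∀ a ∈ gd_span (K₀ := K₀) (K := K) F_ℚ, ∃ s ∈ S, (s : LaurentSeries K) = a := by
    intro a ha
    unfold gd_span at ha
    induction ha using Submodule.span_induction with
    | mem x hx =>
        obtain ⟨x₀, hx₀, rfl⟩ := hx
        exact ⟨mw_d2_bc (K := K) F_ℚ ⟨x₀, hx₀⟩, hbc _, rfl⟩
    | zero => exact ⟨0, S.zero_mem, rfl⟩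
    | add u v _ _ hu hv =>
        obtain ⟨su, hsu, rfl⟩ := hu
        obtain ⟨sv, hsv, rfl⟩ := hv
        exact ⟨su + sv, S.add_mem hsu hsv, rfl⟩
    | smul c u _ hu =>
        obtain ⟨su, hsu, rfl⟩ := hu
        refine ⟨algebraMap K K⟮y⟯ c • su, S.smul_mem _ hsu, ?_⟩
        have e1 : (c • (su : LaurentSeries K)) =
            algebraMap K (LaurentSeries K) c * (su : LaurentSeries K) := by
          rw [algebraMap_laurentSeries_eq_single, ← HahnSeries.C_apply, HahnSeries.C_mul_eq_smul]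
        rw [e1, IntermediateField.smul_def, smul_eq_mul, MulMemClass.coe_mul]
        rfl
  -- (5) `S = ⊤`
  have htop : S = ⊤ := by
    rw [eq_top_iff]
    intro f _
    obtain ⟨a, ha, c, hc, hc0, hac⟩ := gd_exists_quot (K₀ := K₀) F_ℚ f.2
    obtain ⟨sa, hsa, rfl⟩ := hspan a ha
    obtain ⟨sc, hsc, rfl⟩ := hspan c hc
    have hc0' : sc ≠ 0 := fun h => hc0 (by rw [h]; rfl)
    have hinv : sc⁻¹ ∈ T :=
      T.inv_mem_of_algebraic (x := ⟨sc, hsc⟩) (halg.isAlgebraic _)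
    have hf : f = sa * sc⁻¹ := by
      rw [eq_mul_inv_iff_mul_eq₀ hc0']
      exact Subtype.ext hac
    rw [hf]
    exact hmul _ hsa _ hinv
  calc Module.finrank K⟮y⟯ FK = Module.finrank K⟮y⟯ (⊤ : Submodule K⟮y⟯ FK) := (finrank_top K⟮y⟯ FK).symm
    _ = Module.finrank K⟮y⟯ S := by rw [htop]
    _ ≤ Fintype.card (Fin (Module.finrank K₀⟮f₀⟯ F₀)) :=
        finrank_range_le_card (R := K⟮y⟯) fun i => mw_d2_bc (K := K) F_ℚ (b i)
    _ = Module.finrank K₀⟮f₀⟯ F₀ := Fintype.card_fin _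

end finrank

end Fermat.Agent.MW

end
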