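/-
Project MW (S17), cell **[DIV2]**, leaf **[EXT]**, part 2 (helper15): THE DEGREE TRICK.

`K₀ ⊆ K` algebraically closed, `x = bcQ x₀` a separating generator on both sides.

* `mw_d2e_degree_extDiv` : `deg (extDiv D₀) = deg D₀`  (**`mw_d2e_deg : mw_d2_SeamDEG`**);
* `mw_d2e_zeroDiv_bc`    : `(bc f₀)₀ = extDiv ((f₀)₀)` for `f₀` transcendental
  (`extDiv (f₀)₀ ≤ (bc f₀)₀` by `mw_d2_ext_ord`, and `deg (bc f₀)₀ = [F_K : K(bc f₀)] ≤
  [F_{K₀} : K₀(f₀)] = deg (f₀)₀`);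
* `mw_d2e_mem_range_ext` : a place of `F_K` where some `bc f₀` has nonzero order is an `ext P₀`;
* `mw_d2e_ext_unique`    : `ext P₀` is the only place of `F_K` restricting to `P₀`;
* `mw_d2e_smul_ext`      : `ext P₀` is fixed by the coefficientwise automorphisms trivial on `K₀`;
* **`mw_d2e_link : mw_d2_SeamLINK`** (`K₀` algebraic over `ℚ`).
Prefix `mw_d2e_`.
-/
import Mathlib
import Fermat.Agent.MW.Div2.Ext
import Fermat.Agent.JT3.Riemann.Main

set_option autoImplicit false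
set_option linter.unusedSectionVars false
set_option linter.style.haveILetI false
set_option synthInstance.maxHeartbeats 400000
set_option maxHeartbeats 1000000

noncomputable section

namespace Fermat.Agent.MW

open AlgebraicCurve ModularCurve Fermat.Agent.JT3 Fermat.Agent.S24 IntermediateField Polynomial

section trick

variable {K₀ K : Type} [Field K₀] [Field K] [Algebra K₀ K] [Algebra ℚ K₀] [Algebra ℚ K]
  [IsAlgClosed K₀] [IsAlgClosed K]
  (F_ℚ : IntermediateField ℚ (LaurentSeries ℚ))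
  (hres : ∀ P₀ : Place K₀ (laurentBaseChange K₀ F_ℚ),
    Function.Surjective (algebraMap K₀ P₀.ResidueField))
  {x₀ : F_ℚ} (hx₀ : rt_IsSepGen K₀ (mw_d2_bcQ K₀ F_ℚ x₀))
  (hx : rt_IsSepGen K (mw_d2_bcQ K F_ℚ x₀))

local notation "F₀" => laurentBaseChange K₀ F_ℚ
local notation "FK" => laurentBaseChange K F_ℚ

include hx₀ hx in
/-- **[DEG]** the extension of divisors preserves the degree -/
theorem mw_d2e_degree_extDiv (D₀ : Divisor K₀ F₀) :
    Divisor.degree (mw_d2_extDiv (K := K) F_ℚ hres D₀) = Divisor.degree D₀ := by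
  induction D₀ using Finsupp.induction_linear with
  | zero => rw [mw_d2e_extDiv_zero, map_zero, map_zero]
  | add D E hD hE => rw [mw_d2e_extDiv_add, map_add, map_add, hD, hE]
  | single P₀ n =>
      rw [mw_d2e_extDiv_single, rt_degree_single hx, rt_degree_single hx₀]

include hx₀ hx in
/-- **`mw_d2_SeamDEG`** -/
theorem mw_d2e_deg : mw_d2_SeamDEG K₀ K F_ℚ hres :=
  fun D₀ => mw_d2e_degree_extDiv F_ℚ hres hx₀ hx D₀

include hx₀ in
/-- a transcendental function has a zero -/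
theorem mw_d2e_exists_zero {f₀ : F₀} (hf₀ : Transcendental K₀ f₀) :
    ∃ P₀ : Place K₀ F₀, 0 < P₀.ord f₀ := by
  haveI : FiniteDimensional K₀⟮mw_d2_bcQ K₀ F_ℚ x₀⟯ F₀ := hx₀.2.1
  haveI : FiniteDimensional K₀⟮f₀⟯ F₀ := hw_finiteDimensional_adjoin (mw_d2_bcQ K₀ F_ℚ x₀) hf₀
  have hdeg := rt_degree_zeroDiv hx₀ hf₀
  have hpos : 0 < Module.finrank K₀⟮f₀⟯ F₀ := Module.finrank_pos
  by_contra hcon
  push Not at hcon
  have hz : rt_zeroDiv hx₀ f₀ = 0 := by
    ext P₀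
    rw [rt_zeroDiv_apply, Finsupp.zero_apply]
    exact max_eq_right (hcon P₀)
  rw [hz, map_zero] at hdeg
  omega

include hx₀ hres in
/-- the base change of a transcendental function is transcendental -/
theorem mw_d2e_transcendental_bc {f₀ : F₀} (hf₀ : Transcendental K₀ f₀) :
    Transcendental K (mw_d2_bc (K := K) F_ℚ f₀) := by
  obtain ⟨P₀, hP₀⟩ := mw_d2e_exists_zero F_ℚ hx₀ hf₀
  rcases hw_const_or_transcendental (K := K) (mw_d2_bc (K := K) F_ℚ f₀) with ⟨c, hc⟩ | h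
  · exfalso
    have h1 := mw_d2_ext_ord (K := K) F_ℚ hres P₀ f₀
    rw [hc, hw_ord_algebraMap] at h1
    omega
  · exact h

include hx₀ hx in
/-- **the degree trick**: `(bc f₀)₀ = extDiv ((f₀)₀)` -/
theorem mw_d2e_zeroDiv_bc {f₀ : F₀} (hf₀ : Transcendental K₀ f₀) :
    rt_zeroDiv hx (mw_d2_bc (K := K) F_ℚ f₀) =
      mw_d2_extDiv (K := K) F_ℚ hres (rt_zeroDiv hx₀ f₀) := by
  set y : FK := mw_d2_bc (K := K) F_ℚ f₀ with hy
  have hyT : Transcendental K y := mw_d2e_transcendental_bc F_ℚ hres hx₀ hf₀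
  haveI : FiniteDimensional K₀⟮mw_d2_bcQ K₀ F_ℚ x₀⟯ F₀ := hx₀.2.1
  haveI : FiniteDimensional K₀⟮f₀⟯ F₀ := hw_finiteDimensional_adjoin (mw_d2_bcQ K₀ F_ℚ x₀) hf₀
  haveI : FiniteDimensional K⟮mw_d2_bcQ K F_ℚ x₀⟯ FK := hx.2.1
  haveI : FiniteDimensional K⟮y⟯ FK := hw_finiteDimensional_adjoin (mw_d2_bcQ K F_ℚ x₀) hyT
  have halg : Algebra.IsAlgebraic K⟮y⟯ FK := Algebra.IsAlgebraic.of_finite _ _
  have hle := mw_d2e_finrank_le (K := K) F_ℚ f₀ halg
  have hd1 := rt_degree_zeroDiv hx hyT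
  have hd0 := rt_degree_zeroDiv hx₀ hf₀
  have hd2 := mw_d2e_degree_extDiv F_ℚ hres hx₀ hx (rt_zeroDiv hx₀ f₀)
  -- pointwise inequality
  have hpt : mw_d2_extDiv (K := K) F_ℚ hres (rt_zeroDiv hx₀ f₀) ≤ rt_zeroDiv hx y := by
    rw [Finsupp.le_def]
    intro P
    by_cases hP : P ∈ Set.range (mw_d2_ext (K := K) F_ℚ hres)
    · obtain ⟨P₀, rfl⟩ := hP
      rw [mw_d2e_extDiv_ext, rt_zeroDiv_apply, rt_zeroDiv_apply, hy, mw_d2_ext_ord]
    · rw [mw_d2e_extDiv_notin F_ℚ hres _ P hP]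
      exact Finsupp.le_def.mp (rt_zeroDiv_nonneg hx y) P
  by_contra hne
  have hlt := rt_degree_lt_of_lt hx hpt (fun h => hne h.symm)
  rw [hd1, hd2, hd0] at hlt
  have : (Module.finrank K⟮y⟯ FK : ℤ) ≤ Module.finrank K₀⟮f₀⟯ F₀ := by exact_mod_cast hle
  omega

include hx₀ hx in
/-- a place of `F_K` where some `bc f₀` has positive order is an `ext P₀` -/
theorem mw_d2e_mem_range_ext_of_pos {f₀ : F₀} {P : Place K FK}
    (hP : 0 < P.ord (mw_d2_bc (K := K) F_ℚ f₀)) :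
    P ∈ Set.range (mw_d2_ext (K := K) F_ℚ hres) := by
  rcases hw_const_or_transcendental (K := K₀) f₀ with ⟨c, rfl⟩ | hf₀
  · exfalso
    rw [mw_d2_bc_algebraMap, hw_ord_algebraMap] at hP
    omega
  by_contra hnot
  have h1 := mw_d2e_zeroDiv_bc F_ℚ hres hx₀ hx hf₀
  have h2 : rt_zeroDiv hx (mw_d2_bc (K := K) F_ℚ f₀) P =
      mw_d2_extDiv (K := K) F_ℚ hres (rt_zeroDiv hx₀ f₀) P := by rw [h1]
  rw [rt_zeroDiv_apply, mw_d2e_extDiv_notin F_ℚ hres _ P hnot] at h2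
  have := le_max_left (P.ord (mw_d2_bc (K := K) F_ℚ f₀)) 0
  omega

include hx₀ hx in
/-- a place of `F_K` where some `bc f₀` has nonzero order is an `ext P₀` -/
theorem mw_d2e_mem_range_ext {f₀ : F₀} {P : Place K FK}
    (hP : P.ord (mw_d2_bc (K := K) F_ℚ f₀) ≠ 0) :
    P ∈ Set.range (mw_d2_ext (K := K) F_ℚ hres) := by
  rcases lt_or_gt_of_ne hP with h | h
  · refine mw_d2e_mem_range_ext_of_pos F_ℚ hres hx₀ hx (f₀ := f₀⁻¹) ?_
    rw [map_inv₀, P.ord_inv]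
    omega
  · exact mw_d2e_mem_range_ext_of_pos F_ℚ hres hx₀ hx h

include hx₀ hx in
/-- **uniqueness of the extension**: `ext P₀` is the only place of `F_K` restricting to `P₀` -/
theorem mw_d2e_ext_unique {P₀ : Place K₀ F₀} {P : Place K FK}
    (h : ∀ f₀ : F₀, P.ord (mw_d2_bc (K := K) F_ℚ f₀) = P₀.ord f₀) :
    P = mw_d2_ext (K := K) F_ℚ hres P₀ := by
  obtain ⟨π, hπ⟩ := IsDiscreteValuationRing.exists_irreducible P₀.toValuationSubring
  have hπ1 : P₀.ord (π : F₀) = 1 := P₀.ord_coe_irreducible hπ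
  have hP : P.ord (mw_d2_bc (K := K) F_ℚ (π : F₀)) ≠ 0 := by
    rw [h, hπ1]
    exact one_ne_zero
  obtain ⟨P₀', rfl⟩ := mw_d2e_mem_range_ext F_ℚ hres hx₀ hx hP
  congr 1
  apply mw_d2e_place_eq_of_ord
  intro f₀
  rw [← h f₀, mw_d2_ext_ord]

include hx₀ hx in
/-- **the extended places are fixed** by the coefficientwise automorphisms trivial on `K₀` -/
theorem mw_d2e_smul_ext (σ : K ≃ₐ[ℚ] K) (hσ : ∀ c : K₀, σ (algebraMap K₀ K c) = algebraMap K₀ K c)
    (P₀ : Place K₀ F₀) :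
    arithmeticGalois F_ℚ σ • mw_d2_ext (K := K) F_ℚ hres P₀ = mw_d2_ext (K := K) F_ℚ hres P₀ := by
  apply mw_d2e_ext_unique F_ℚ hres hx₀ hx
  intro f₀
  have hfix : arithmeticGalois F_ℚ σ • mw_d2_bc (K := K) F_ℚ f₀ = mw_d2_bc (K := K) F_ℚ f₀ := by
    apply Subtype.ext
    rw [coe_arithmeticGalois_smul, mw_d2_bc_coe, coeffMap_coeffMap]
    exact coeffMap_congr (RingHom.ext fun c => hσ c) _
  have h1 := SemilinearAut.ord_smul (arithmeticGalois F_ℚ σ) (mw_d2_ext (K := K) F_ℚ hres P₀)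
    (mw_d2_bc (K := K) F_ℚ f₀)
  rw [hfix] at h1
  rw [h1, mw_d2_ext_ord]

include hx₀ hx in
/-- the extended divisors are fixed by the coefficientwise automorphisms trivial on `K₀` -/
theorem mw_d2e_smul_extDiv (σ : K ≃ₐ[ℚ] K)
    (hσ : ∀ c : K₀, σ (algebraMap K₀ K c) = algebraMap K₀ K c) (D₀ : Divisor K₀ F₀) :
    arithmeticGalois F_ℚ σ • mw_d2_extDiv (K := K) F_ℚ hres D₀ =
      mw_d2_extDiv (K := K) F_ℚ hres D₀ := by
  induction D₀ using Finsupp.induction_linear with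
  | zero => rw [mw_d2e_extDiv_zero, smul_zero]
  | add D E hD hE => rw [mw_d2e_extDiv_add, smul_add, hD, hE]
  | single P₀ n =>
      rw [mw_d2e_extDiv_single, SemilinearAut.smul_single,
        mw_d2e_smul_ext F_ℚ hres hx₀ hx σ hσ P₀]

omit [IsAlgClosed K₀] [IsAlgClosed K] in
/-- the image of `K₀` lies in the algebraic closure of `ℚ` in `K` if `K₀` is algebraic over `ℚ` -/
theorem mw_d2e_algebraMap_mem_cl (halg : Algebra.IsAlgebraic ℚ K₀) (c : K₀) :
    algebraMap K₀ K c ∈ mw_d2_cl (∅ : Set K) := by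
  haveI : IsScalarTower ℚ K₀ K := IsScalarTower.of_algebraMap_eq' (Subsingleton.elim _ _)
  rw [mw_d2_mem_cl]
  exact ((halg.isAlgebraic c).algebraMap (A := K)).tower_top _

include hx₀ hx in
/-- **`mw_d2_SeamLINK`**: the class of an extended divisor is fixed by `Aut(K/ℚ̄)` -/
theorem mw_d2e_link (halg : Algebra.IsAlgebraic ℚ K₀) : mw_d2_SeamLINK K₀ K F_ℚ hres := by
  intro D₀ h σ hσ
  have hσ' : ∀ c : K₀, σ (algebraMap K₀ K c) = algebraMap K₀ K c := fun c =>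
    hσ ⟨_, mw_d2e_algebraMap_mem_cl halg c⟩
  rw [galois_smul_pic0_def, mw_d2_cls, SemilinearAut.pic0_smul_mk]
  congr 1
  apply Subtype.ext
  rw [SemilinearAut.coe_degZeroSMulHom]
  exact mw_d2e_smul_extDiv F_ℚ hres hx₀ hx σ hσ' D₀

end trick

end Fermat.Agent.MW

end
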