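/-
Project MW (S17), cell **[DIV2]**, leaf **[DESC]** (helper15): DIVISIBILITY BY `2` DESCENDS FROM
`K` TO `K₀` (`K₀ ⊆ K` algebraically closed of characteristic `0`).

`extDiv D₀ = 2 E + div f` on `F_K`.  The class `z = [E]` is a half of the `Aut(K/K₀)`-fixed class
`[extDiv D₀]`, so it has a finite orbit (`Pic⁰[2]` finite).  Its minimal representative `M`
relative to a fixed extended place `O = ext O₀` (`mw_mr_exists`) is unique (`l(M) = 1`), hence
has a finite orbit, hence so have its points; by [ORB] they are rational over the image of `K₀`,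
hence extended places (`mw_d2e_mem_range_ext`): `M = extDiv M₀`.  Then
`extDiv (D₀ - 2 (M₀ - d O₀)) = div u`; the normalisation of `u` (leading coefficient `1`) is fixed
by `Aut(K/K₀)`, hence `u = bc f₀` up to a constant, and `D₀ = 2 (M₀ - d O₀) + div f₀`.

* `mw_d2d_orbit_divisor`, `mw_d2d_orbit_point` : the generic finiteness statements;
* **`mw_d2d_desc : mw_d2_SeamDESC`**.
Prefix `mw_d2d_`.
-/
import Mathlib
import Fermat.Agent.MW.Div2.ExtTrick
import Fermat.Agent.MW.Div2.Gen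
import Fermat.Agent.MW.Div2.Nsp
import Fermat.Agent.MW.MinRep

set_option autoImplicit false
set_option linter.unusedSectionVars false
set_option linter.style.haveILetI false
set_option synthInstance.maxHeartbeats 400000
set_option maxHeartbeats 1000000

noncomputable section

namespace Fermat.Agent.MW

open AlgebraicCurve ModularCurve Fermat.Agent.JT3 Fermat.Agent.S24 IntermediateField Polynomial
open Fermat.Agent.FF

/-! ### generic finiteness statements -/

section generic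

universe u v
variable {K : Type u} {F : Type v} [Field K] [Field F] [Algebra K F] [IsAlgClosed K]
  {x : F} (hx : rt_IsSepGen K x)

include hx in
/-- a non-special effective divisor `M` whose doubled class is fixed by a family of semilinear
automorphisms fixing `O` has a finite orbit under this family (`Pic⁰[2]` finite) -/
theorem mw_d2d_orbit_divisor {Γ : Type*} (act : Γ → SemilinearAut K F) (O : Place K F)
    (hO : ∀ γ, act γ • O = O) (d : ℕ) {M : Divisor K F} (hM0 : 0 ≤ M)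
    (hMdeg : Divisor.degree M = d) (hMl : Module.finrank K (riemannRochSpace M) = 1)
    (hT : Finite {y : Pic0 K F // 2 • y = 0})
    (hfix : ∀ γ, act γ • (2 • mw_d2g_class O d M) = 2 • mw_d2g_class O d M) :
    (Set.range fun γ => act γ • M).Finite := by
  set z := mw_d2g_class O d M with hz
  -- the orbit of the class is finite
  have h2 : ∀ γ, 2 • (act γ • z - z) = 0 := by
    intro γ
    have e : act γ • (2 • z) = 2 • (act γ • z) :=
      map_nsmul (DistribSMul.toAddMonoidHom (Pic0 K F) (act γ)) 2 z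
    rw [nsmul_sub, ← e, hfix γ, sub_self]
  have hfin : (Set.range fun γ => act γ • z).Finite := by
    refine (Set.finite_range fun y : {y : Pic0 K F // 2 • y = 0} => (y : Pic0 K F) + z).subset ?_
    rintro _ ⟨γ, rfl⟩
    exact ⟨⟨act γ • z - z, h2 γ⟩, sub_add_cancel _ _⟩
  refine mw_d2g_finite_range_of_factor (fun γ => act γ • z) (fun γ => act γ • M) hfin ?_
  intro a b hab
  rw [hz, mw_d2g_smul_class (act a) O (hO a) d M, mw_d2g_smul_class (act b) O (hO b) d M] at hab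
  exact mw_d2g_smul_eq_of_class_eq hx O d hM0 hMdeg hMl (act a) (act b) hab

omit [IsAlgClosed K] in
/-- the points of a divisor with finite orbit have finite orbits -/
theorem mw_d2d_orbit_point {Γ : Type*} (act : Γ → SemilinearAut K F) {M : Divisor K F}
    (hfin : (Set.range fun γ => act γ • M).Finite) {Q : Place K F} (hQ : M Q ≠ 0) :
    (Set.range fun γ => act γ • Q).Finite := by
  refine (hfin.biUnion fun M' _ => M'.support.finite_toSet).subset ?_
  rintro _ ⟨γ, rfl⟩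
  refine Set.mem_biUnion ⟨γ, rfl⟩ ?_
  rw [Finset.mem_coe, Finsupp.mem_support_iff, SemilinearAut.divisor_smul_apply_smul]
  exact hQ

end generic

/-! ### the image of `K₀` in `K` -/

section image

variable {K₀ K : Type} [Field K₀] [Field K] [Algebra K₀ K] [Algebra ℚ K₀] [Algebra ℚ K]

theorem mw_d2d_isScalarTower : IsScalarTower ℚ K₀ K :=
  IsScalarTower.of_algebraMap_eq' (Subsingleton.elim _ _)

attribute [local instance] mw_d2d_isScalarTower

variable (K₀ K) in
/-- the image of `K₀` in `K` -/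
def mw_d2d_L : IntermediateField ℚ K := (IsScalarTower.toAlgHom ℚ K₀ K).fieldRange

theorem mw_d2d_mem_L {c : K} : c ∈ mw_d2d_L K₀ K ↔ ∃ c₀ : K₀, algebraMap K₀ K c₀ = c := by
  rw [mw_d2d_L, AlgHom.mem_fieldRange]
  rfl

instance mw_d2d_L_isAlgClosed [IsAlgClosed K₀] : IsAlgClosed (mw_d2d_L K₀ K) :=
  IsAlgClosed.of_ringEquiv K₀ _
    (AlgEquiv.ofInjectiveField (IsScalarTower.toAlgHom ℚ K₀ K)).toRingEquiv

theorem mw_d2d_fixing (σ : K ≃ₐ[ℚ] K) (hσ : σ ∈ (mw_d2d_L K₀ K).fixingSubgroup) (c₀ : K₀) :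
    σ (algebraMap K₀ K c₀) = algebraMap K₀ K c₀ :=
  hσ ⟨_, mw_d2d_mem_L.2 ⟨c₀, rfl⟩⟩

/-- a `K₀`-automorphism of `K` fixes the image of `K₀` -/
theorem mw_d2d_toRat_mem (τ : K ≃ₐ[K₀] K) : gd_toRat τ ∈ (mw_d2d_L K₀ K).fixingSubgroup := by
  rintro ⟨c, hc⟩
  obtain ⟨c₀, rfl⟩ := mw_d2d_mem_L.1 hc
  exact τ.commutes c₀

end image

/-! ### the descent -/

section main

variable {K₀ K : Type} [Field K₀] [Field K] [Algebra K₀ K] [Algebra ℚ K₀] [Algebra ℚ K]
  [IsAlgClosed K₀] [IsAlgClosed K] [CharZero K₀] [CharZero K]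
  (F_ℚ : IntermediateField ℚ (LaurentSeries ℚ))
  (hres : ∀ P₀ : Place K₀ (laurentBaseChange K₀ F_ℚ),
    Function.Surjective (algebraMap K₀ P₀.ResidueField))
  {x₀ : F_ℚ} (hx₀ : rt_IsSepGen K₀ (mw_d2_bcQ K₀ F_ℚ x₀))
  (hx : rt_IsSepGen K (mw_d2_bcQ K F_ℚ x₀))

attribute [local instance] mw_d2d_isScalarTower

local notation "F₀" => laurentBaseChange K₀ F_ℚ
local notation "FK" => laurentBaseChange K F_ℚ

include hx₀ hx in
/-- the places which are rational over the image of `K₀` are extended places -/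
theorem mw_d2d_isRat_range {Q : Place K FK} (hQ : mw_d2_IsRat F_ℚ x₀ (mw_d2d_L K₀ K) Q) :
    Q ∈ Set.range (mw_d2_ext (K := K) F_ℚ hres) := by
  rcases hQ with hpole | ⟨c, hc, hzero⟩
  · refine mw_d2e_mem_range_ext F_ℚ hres hx₀ hx (f₀ := mw_d2_bcQ K₀ F_ℚ x₀) ?_
    rw [mw_d2_bc_bcQ]
    exact ne_of_lt hpole
  · obtain ⟨c₀, rfl⟩ := mw_d2d_mem_L.1 hc
    refine mw_d2e_mem_range_ext F_ℚ hres hx₀ hx
      (f₀ := mw_d2_bcQ K₀ F_ℚ x₀ - algebraMap K₀ F₀ c₀) ?_
    rw [map_sub, mw_d2_bc_bcQ, mw_d2_bc_algebraMap]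
    exact ne_of_gt hzero

include hx in
/-- a function whose divisor is fixed and whose leading coefficient is `1` is fixed -/
theorem mw_d2d_fixed_of_div {u : FK} (hu0 : u ≠ 0) (hlead : gd_lead F_ℚ u = 1)
    (g : K ≃ₐ[ℚ] K)
    (hdiv : ∀ P : Place K FK, P.ord (arithmeticGalois F_ℚ g • u) = P.ord u) :
    arithmeticGalois F_ℚ g • u = u := by
  set w := arithmeticGalois F_ℚ g • u with hw
  have hw0 : w ≠ 0 := by
    intro h0
    apply hu0
    have := congrArg (fun z => (arithmeticGalois F_ℚ g)⁻¹ • z) h0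
    simpa [hw] using this
  have hr : ∀ v : Place K FK, w * u⁻¹ ∈ v.toValuationSubring := by
    intro v
    rw [hw_mem_iff_ord_nonneg v (mul_ne_zero hw0 (inv_ne_zero hu0)),
      v.ord_mul hw0 (inv_ne_zero hu0), v.ord_inv, hdiv v]
    omega
  obtain ⟨c, hc⟩ := rt_const_of_forall_mem hx (w * u⁻¹) hr
  have hwc : w = algebraMap K FK c * u := by
    rw [← hc, mul_assoc, inv_mul_cancel₀ hu0, mul_one]
  have h1 : gd_lead F_ℚ w = c := by rw [hwc, gd_lead_smul, hlead, mul_one]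
  have h2 : gd_lead F_ℚ w = 1 := by
    have e : gd_lead F_ℚ w = (g : K →+* K) (gd_lead F_ℚ u) := by
      rw [gd_lead, hw, coe_arithmeticGalois_smul]
      exact gd_leadingCoeff_coeffMap (φ := (g : K →+* K)) g.injective _
    rw [e, hlead, map_one]
  rw [hwc, ← h1, h2, map_one, one_mul]

include hx₀ hx in
/-- **`mw_d2_SeamDESC`**: divisibility by `2` descends from `K` to `K₀` -/
theorem mw_d2d_desc (hORB : mw_d2_SeamORB K F_ℚ x₀) (hTORS : mw_d2_SeamTORS K F_ℚ) :
    mw_d2_SeamDESC K₀ K F_ℚ hres := by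
  classical
  rintro D₀ hD₀ ⟨E, f, hf0, hEf⟩
  set L : IntermediateField ℚ K := mw_d2d_L K₀ K with hL
  let act : L.fixingSubgroup → SemilinearAut K FK := fun γ =>
    arithmeticGalois F_ℚ (γ : K ≃ₐ[ℚ] K)
  have hγ : ∀ (γ : L.fixingSubgroup) (c₀ : K₀),
      (γ : K ≃ₐ[ℚ] K) (algebraMap K₀ K c₀) = algebraMap K₀ K c₀ := fun γ c₀ =>
    mw_d2d_fixing _ γ.2 c₀
  -- the divisor identity and the degrees
  have hdiv : mw_d2_extDiv (K := K) F_ℚ hres D₀ = 2 • E + rt_div hx f := by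
    ext P
    rw [hEf P, Finsupp.add_apply, Finsupp.smul_apply, rt_div_apply, nsmul_eq_mul]
    push_cast
    ring
  have hdegext : Divisor.degree (mw_d2_extDiv (K := K) F_ℚ hres D₀) = 0 :=
    (mw_d2e_degree_extDiv F_ℚ hres hx₀ hx D₀).trans hD₀
  have hE0 : Divisor.degree E = 0 := by
    have h1 := congrArg Divisor.degree hdiv
    rw [hdegext, map_add, map_nsmul, rt_degree_div, add_zero, nsmul_eq_mul] at h1
    push_cast at h1
    omega
  -- a base place
  obtain ⟨O₀, -⟩ := ffg_exists_zero hx₀ (0 : K₀)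
  set O : Place K FK := mw_d2_ext (K := K) F_ℚ hres O₀ with hOdef
  have hO : ∀ γ, act γ • O = O := fun γ => mw_d2e_smul_ext F_ℚ hres hx₀ hx _ (hγ γ) O₀
  -- the minimal representative
  obtain ⟨M, h, hh0, hM0, hMO, hMl, hMeq⟩ := mw_mr_exists hx O E hE0
  obtain ⟨d, hd⟩ := Int.eq_ofNat_of_zero_le (rt_degree_nonneg hx hM0)
  rw [hd] at hMeq
  have hdegM : Divisor.degree (M - Finsupp.single O (d : ℤ)) = 0 := mw_d2g_degree_sub hx O d hd
  have hcls : mw_d2g_class O d M = Pic0.mk ⟨M - Finsupp.single O (d : ℤ), hdegM⟩ :=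
    mw_d2g_class_eq O d M hdegM
  set u : FK := f * (h⁻¹) ^ 2 with hu
  have hu0 : u ≠ 0 := mul_ne_zero hf0 (pow_ne_zero _ (inv_ne_zero hh0))
  -- `extDiv D₀ - 2 (M - d O) = div u`
  have hkey : ∀ P : Place K FK, (mw_d2_extDiv (K := K) F_ℚ hres D₀ -
      2 • (M - Finsupp.single O (d : ℤ))) P = P.ord u := by
    intro P
    rw [hMeq, hdiv, hu, P.ord_mul hf0 (pow_ne_zero _ (inv_ne_zero hh0)), rt_ord_pow, P.ord_inv]
    simp only [Finsupp.sub_apply, Finsupp.add_apply, Finsupp.smul_apply, rt_div_apply,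
      nsmul_eq_mul]
    push_cast
    ring
  -- the doubled class is the class of the extended divisor
  have h2cls : 2 • mw_d2g_class O d M =
      mw_d2_cls (mw_d2_extDiv (K := K) F_ℚ hres D₀) hdegext := by
    rw [hcls]
    have h2deg : Divisor.degree (2 • (M - Finsupp.single O (d : ℤ))) = 0 := by
      rw [map_nsmul, hdegM, smul_zero]
    have h1 : 2 • Pic0.mk (⟨M - Finsupp.single O (d : ℤ), hdegM⟩ :
        Divisor.degZero (K := K) (F := FK)) =
        Pic0.mk ⟨2 • (M - Finsupp.single O (d : ℤ)), h2deg⟩ := by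
      unfold Pic0.mk
      exact (QuotientAddGroup.mk_nsmul _ _ 2).symm
    rw [h1]
    unfold mw_d2_cls
    exact (mw_d2g_mk_eq_mk_iff h2deg hdegext).2 ⟨u, hu0, hkey⟩
  have hfix : ∀ γ, act γ • (2 • mw_d2g_class O d M) = 2 • mw_d2g_class O d M := by
    intro γ
    rw [h2cls, mw_d2_cls, SemilinearAut.pic0_smul_mk]
    congr 1
    apply Subtype.ext
    rw [SemilinearAut.coe_degZeroSMulHom]
    exact mw_d2e_smul_extDiv F_ℚ hres hx₀ hx _ (hγ γ) D₀
  have hfinM := mw_d2d_orbit_divisor hx act O hO d hM0 hd hMl hTORS hfix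
  -- the points of `M` are extended places
  have hMrange : ∀ Q, M Q ≠ 0 → Q ∈ Set.range (mw_d2_ext (K := K) F_ℚ hres) := by
    intro Q hQ
    have hfinQ := mw_d2d_orbit_point act hfinM hQ
    exact mw_d2d_isRat_range F_ℚ hres hx₀ hx (hORB hx L Q hfinQ)
  obtain ⟨M₀, hM₀⟩ := mw_d2e_exists_extDiv F_ℚ hres M hMrange
  -- the new divisor
  set E₀ : Divisor K₀ F₀ := M₀ - Finsupp.single O₀ (d : ℤ) with hE₀
  have hextE₀ : mw_d2_extDiv (K := K) F_ℚ hres E₀ = M - Finsupp.single O (d : ℤ) := by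
    rw [hE₀, mw_d2e_extDiv_sub, hM₀, mw_d2e_extDiv_single]
  have hD' : ∀ P : Place K FK,
      mw_d2_extDiv (K := K) F_ℚ hres (D₀ - 2 • E₀) P = P.ord u := by
    intro P
    rw [← hkey P, mw_d2e_extDiv_sub, ← natCast_zsmul, mw_d2e_extDiv_zsmul, hextE₀, natCast_zsmul]
  -- normalisation
  set c : K := gd_lead F_ℚ u with hc
  have hc0 : c ≠ 0 := gd_lead_ne_zero F_ℚ u hu0
  set u' : FK := algebraMap K FK c⁻¹ * u with hu'
  have hci0 : algebraMap K FK c⁻¹ ≠ 0 := by
    rw [Ne, map_eq_zero]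
    exact inv_ne_zero hc0
  have hu'0 : u' ≠ 0 := mul_ne_zero hci0 hu0
  have hlead : gd_lead F_ℚ u' = 1 := by
    rw [hu', gd_lead_smul, ← hc, inv_mul_cancel₀ hc0]
  have hD'' : ∀ P : Place K FK,
      mw_d2_extDiv (K := K) F_ℚ hres (D₀ - 2 • E₀) P = P.ord u' := by
    intro P
    rw [hD' P, hu', P.ord_mul hci0 hu0, hw_ord_algebraMap, zero_add]
  -- `u'` is fixed by `Aut(K/K₀)`
  have hfixu : ∀ τ : K ≃ₐ[K₀] K, arithmeticGalois F_ℚ (gd_toRat τ) • u' = u' := by
    intro τ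
    apply mw_d2d_fixed_of_div F_ℚ hx hu'0 hlead
    intro P
    have hτ : ∀ c₀ : K₀, gd_toRat τ (algebraMap K₀ K c₀) = algebraMap K₀ K c₀ := fun c₀ =>
      τ.commutes c₀
    set g := arithmeticGalois F_ℚ (gd_toRat τ) with hg
    have h1 := SemilinearAut.ord_smul g (g⁻¹ • P) u'
    rw [smul_inv_smul] at h1
    rw [h1, ← hD'' (g⁻¹ • P), ← SemilinearAut.divisor_smul_apply,
      mw_d2e_smul_extDiv F_ℚ hres hx₀ hx _ hτ, hD'' P]
  -- descent of `u'`
  have horb : (Set.range fun τ : K ≃ₐ[K₀] K =>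
      coeffMap (τ : K →+* K) (u' : LaurentSeries K)).Finite := by
    refine (Set.finite_singleton (u' : LaurentSeries K)).subset ?_
    rintro _ ⟨τ, rfl⟩
    have := congrArg (fun z : FK => (z : LaurentSeries K)) (hfixu τ)
    exact this
  obtain ⟨s₀, hs₀⟩ := gd_exists_coeffMap_eq_of_finite_orbit horb
  have hs₀mem : s₀ ∈ laurentBaseChange K₀ F_ℚ := by
    apply gd_mem_of_coeffMap_mem (K := K) F_ℚ
    rw [hs₀]
    exact u'.2
  set f₀ : F₀ := ⟨s₀, hs₀mem⟩ with hf₀
  have hbc : mw_d2_bc (K := K) F_ℚ f₀ = u' := Subtype.ext hs₀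
  have hf₀0 : f₀ ≠ 0 := by
    intro h0
    apply hu'0
    rw [← hbc, h0, map_zero]
  refine ⟨E₀, f₀, hf₀0, fun P₀ => ?_⟩
  have h1 := hD'' (mw_d2_ext (K := K) F_ℚ hres P₀)
  rw [mw_d2e_extDiv_ext, ← hbc, mw_d2_ext_ord, Finsupp.sub_apply, Finsupp.smul_apply,
    nsmul_eq_mul] at h1
  push_cast at h1
  linarith

end main

end Fermat.Agent.MW

end
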