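/-
Project MW (S17), cell **[DIV2]**, leaf **[TORS]** (helper19): `Pic⁰(F_ℂ)[2]` is finite.
`mw_d2tors N : mw_d2_SeamTORS ℂ (modularFunctionFieldFull N)`, from the finiteness (FIN) of the
`2`-divisible functions modulo `ℂˣ·(Fˣ)²` in the complete complex context (`gw_fin`,
`gc_ctx_complete`).  Prefix `mw_d2tors`.
-/
import Fermat.Agent.MW.Div2.Seams
import Fermat.Agent.JT3.Gateway.CInputs
import Fermat.Agent.JT3.Gateway.Finite

set_option autoImplicit false
set_option linter.unusedSectionVars false

noncomputable section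

namespace Fermat.Agent.MW

open AlgebraicCurve ModularCurve Fermat.Agent.JT3 Fermat.Agent.S24

section generic

universe u v
variable {K : Type u} {F : Type v} [Field K] [Field F] [Algebra K F]

theorem mw_d2tors_mk_eq_mk_iff {D D' : Divisor K F} (h : D ∈ Divisor.degZero (K := K) (F := F))
    (h' : D' ∈ Divisor.degZero (K := K) (F := F)) :
    Pic0.mk (⟨D, h⟩ : Divisor.degZero (K := K) (F := F)) = Pic0.mk ⟨D', h'⟩ ↔
      Divisor.IsPrincipal (D' - D) := by
  unfold Pic0.mk
  rw [QuotientAddGroup.eq, AddSubgroup.mem_addSubgroupOf, Divisor.mem_principal]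
  have e : ((-(⟨D, h⟩ : Divisor.degZero (K := K) (F := F)) + ⟨D', h'⟩ :
      Divisor.degZero (K := K) (F := F)) : Divisor K F) = D' - D := by
    show -D + D' = D' - D
    abel
  rw [e]

/-- **generic**: if the `n`-divisible functions fall into finitely many classes modulo
`Kˣ·(Fˣ)ⁿ`, then the `n`-torsion of `Pic⁰` is finite. -/
theorem mw_d2tors_finite [IsAlgClosed K] {x : F} (hx : rt_IsSepGen K x) {n : ℕ} (hn : n ≠ 0)
    (T : Finset F)
    (hfin : ∀ f : F, f ≠ 0 → (∀ P : Place K F, (n : ℤ) ∣ P.ord f) →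
      ∃ t ∈ T, ∃ (c : K) (u : F), c ≠ 0 ∧ u ≠ 0 ∧ f = algebraMap K F c * u ^ n * t) :
    Finite {y : Pic0 K F // n • y = 0} := by
  classical
  have hn' : (n : ℤ) ≠ 0 := by exact_mod_cast hn
  -- the class attached to a function
  let H : F → Pic0 K F := fun t =>
    if h : ∃ D' : Divisor.degZero (K := K) (F := F),
        ∀ P : Place K F, (n : ℤ) * (D' : Divisor K F) P = P.ord t
    then Pic0.mk h.choose else 0
  have hsub : {y : Pic0 K F | n • y = 0} ⊆ H '' (T : Set F) := by
    intro y hy
    obtain ⟨D, rfl⟩ := Pic0.mk_surjective y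
    have hy' : n • Pic0.mk D = 0 := hy
    have h1 : n • Pic0.mk D = Pic0.mk (n • D) := by
      unfold Pic0.mk
      exact (QuotientAddGroup.mk_nsmul _ D n).symm
    rw [h1] at hy'
    unfold Pic0.mk at hy'
    rw [QuotientAddGroup.eq_zero_iff, AddSubgroup.mem_addSubgroupOf,
      Divisor.mem_principal] at hy'
    obtain ⟨f, hf0, hf⟩ := hy'
    have hfD : ∀ P : Place K F, P.ord f = (n : ℤ) * (D : Divisor K F) P := by
      intro P
      rw [← hf P]
      show (n • (D : Divisor K F)) P = _
      rw [Finsupp.smul_apply, nsmul_eq_mul]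
    obtain ⟨t, htT, c, u, hc, hu, hfe⟩ := hfin f hf0 (fun P => ⟨_, hfD P⟩)
    have ht0 : t ≠ 0 := by
      rintro rfl
      apply hf0
      rw [hfe, mul_zero]
    have hc0 : algebraMap K F c ≠ 0 := by rwa [ne_eq, map_eq_zero]
    -- the orders of `t`
    have htord : ∀ P : Place K F, P.ord t = (n : ℤ) * ((D : Divisor K F) P - P.ord u) := by
      intro P
      have h2 := hfD P
      rw [hfe, P.ord_mul (mul_ne_zero hc0 (pow_ne_zero n hu)) ht0,
        P.ord_mul hc0 (pow_ne_zero n hu), hw_ord_algebraMap, zero_add] at h2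
      have h3 : P.ord (u ^ n) = (n : ℤ) * P.ord u := by
        have := P.ord_zpow u (n : ℤ)
        rwa [zpow_natCast] at this
      rw [h3] at h2
      linarith
    -- the representative `D - div u`
    have hdeg : Divisor.degree ((D : Divisor K F) - rt_div hx u) = 0 := by
      rw [map_sub, rt_degree_div, sub_zero]
      exact D.2
    set D' : Divisor.degZero (K := K) (F := F) := ⟨(D : Divisor K F) - rt_div hx u, hdeg⟩
      with hD'
    have hD't : ∀ P : Place K F, (n : ℤ) * (D' : Divisor K F) P = P.ord t := by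
      intro P
      rw [htord P]
      show (n : ℤ) * (((D : Divisor K F) - rt_div hx u) P) = _
      rw [Finsupp.sub_apply, rt_div_apply]
    have hex : ∃ D'' : Divisor.degZero (K := K) (F := F),
        ∀ P : Place K F, (n : ℤ) * (D'' : Divisor K F) P = P.ord t := ⟨D', hD't⟩
    refine ⟨t, htT, ?_⟩
    show (if h : ∃ D' : Divisor.degZero (K := K) (F := F),
        ∀ P : Place K F, (n : ℤ) * (D' : Divisor K F) P = P.ord t
      then Pic0.mk h.choose else 0) = Pic0.mk D
    rw [dif_pos hex]
    have hch : hex.choose = D' := by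
      apply Subtype.ext
      ext P
      have h1 := hex.choose_spec P
      have h2 := hD't P
      exact mul_left_cancel₀ hn' (h1.trans h2.symm)
    rw [hch]
    refine (mw_d2tors_mk_eq_mk_iff D'.2 D.2).2 ?_
    refine ⟨u, hu, fun P => ?_⟩
    show ((D : Divisor K F) - ((D : Divisor K F) - rt_div hx u)) P = _
    rw [sub_sub_cancel, rt_div_apply]
  have : ({y : Pic0 K F | n • y = 0}).Finite := (T.finite_toSet.image H).subset hsub
  exact Set.finite_coe_iff.mpr this

end generic

/-- **[TORS]**: `Pic⁰(F_ℂ)[2]` is finite (complete complex context + (FIN)). -/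
theorem mw_d2tors (N : ℕ) [NeZero N] :
    mw_d2_SeamTORS ℂ (modularFunctionFieldFull N) := by
  obtain ⟨T, -, hT⟩ := gw_fin (gc_ctx_complete N) (gc_ctx_rational N) (n := 2) two_ne_zero
  exact mw_d2tors_finite (gc_isSepGen_jF N) two_ne_zero T
    (fun f hf hdiv => hT f ⟨hf, hdiv⟩)

end Fermat.Agent.MW
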