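/-
Project MW (S17), cell **[DIV2]**, leaves **[EXT]+[DESC]** (helper15): THE INSTANCES AT
`K₀ = Q̄ ⊆ K = ℂ`, `F_ℚ = modularFunctionFieldFull N`, in the exact shapes consumed by
`mw_d2asm` (`MW/Div2/Assembly.lean`).
Prefix `mw_d2d_`.
-/
import Mathlib
import Fermat.Agent.MW.Div2.Desc
import Fermat.Agent.MW.Div2.Assembly
import Fermat.Agent.MW.Div2.Rat
import Fermat.Agent.MW.Div2.Tors

set_option autoImplicit false
set_option linter.unusedSectionVars false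

noncomputable section

namespace Fermat.Agent.MW

open AlgebraicCurve ModularCurve Fermat.Agent.JT3 Fermat.Agent.S24 Fermat.Agent.S24.Br

variable (N : ℕ) [NeZero N]

/-- **[DEG]** at `Q̄ ⊆ ℂ` -/
theorem mw_d2d_deg_inst :
    mw_d2_SeamDEG (AlgebraicClosure ℚ) ℂ (modularFunctionFieldFull N) (gd_res_bar N) :=
  mw_d2e_deg (modularFunctionFieldFull N) (gd_res_bar N) (mw_d2asm_isSepGen_bar N)
    (mw_d2asm_isSepGen_C N)

/-- **[LINK]** at `Q̄ ⊆ ℂ` -/
theorem mw_d2d_link_inst :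
    mw_d2_SeamLINK (AlgebraicClosure ℚ) ℂ (modularFunctionFieldFull N) (gd_res_bar N) :=
  mw_d2e_link (modularFunctionFieldFull N) (gd_res_bar N) (mw_d2asm_isSepGen_bar N)
    (mw_d2asm_isSepGen_C N) (AlgebraicClosure.isAlgebraic ℚ)

/-- **[DESC]** at `Q̄ ⊆ ℂ` -/
theorem mw_d2d_desc_inst :
    mw_d2_SeamDESC (AlgebraicClosure ℚ) ℂ (modularFunctionFieldFull N) (gd_res_bar N) :=
  mw_d2d_desc (modularFunctionFieldFull N) (gd_res_bar N) (mw_d2asm_isSepGen_bar N)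
    (mw_d2asm_isSepGen_C N) (mw_d2r_orb (modularFunctionFieldFull N) (mw_d2asm_x0 N))
    (mw_d2tors N)

/-- `mw_SeamDiv2 N` from **[GEN]** alone -/
theorem mw_d2d_div2_of_gen (hGEN : mw_d2_SeamGEN ℂ (modularFunctionFieldFull N)) :
    mw_SeamDiv2 N :=
  mw_d2asm N (mw_d2d_deg_inst N) (mw_d2d_link_inst N) (mw_d2d_desc_inst N) hGEN

end Fermat.Agent.MW

end
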