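/-
Project MW (S17), cell **[DIV2]** (sub-architect helper19): THE CLOSED CELL.

`mw_div2 N : mw_SeamDiv2 N` — every class of `J₀(N)(Q̄)` (in particular every rational class) is
twice a class of `J₀(N)(Q̄)` — by Weil's generic-point argument over `ℂ` in the Laurent model.
Leaves: [AUT] helper10, [RAT] + [NSP] helper3, [TRANS] helper23, [EXT] + [DESC] helper15,
[GEN] + [TORS] + [ASM] helper19.
-/
import Fermat.Agent.MW.Div2.MainOfLeaves
import Fermat.Agent.MW.Div2.Nsp
import Fermat.Agent.MW.Div2.TransClosed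
import Fermat.Agent.MW.Div2.DescInst

set_option autoImplicit false

namespace Fermat.Agent.MW

open ModularCurve

/-- **(D2)**: divisibility by `2` of `J₀(N)(Q̄)`. -/
theorem mw_div2 (N : ℕ) [NeZero N] : mw_SeamDiv2 N :=
  mw_div2_of_leaves N
    (mw_d2t_trans_closed ℂ (modularFunctionFieldFull N) (mw_d2asm_x0 N))
    (mw_d2n_nsp (modularFunctionFieldFull N) (mw_d2asm_x0 N))
    (mw_d2d_deg_inst N) (mw_d2d_link_inst N) (mw_d2d_desc_inst N)

end Fermat.Agent.MW
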